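import Fermat.Agent.S55.L.Defs

/-!
# S55 chapter L, leaf (N1): uniformizers
-/

set_option autoImplicit false
set_option linter.unusedSectionVars false
set_option linter.unusedVariables false

namespace Fermat.Agent.S55Lib

open groupCohomology IntermediateField

variable (q : ℕ) [Fact q.Prime]
variable {F : Type*} [Field F] [Algebra ℚ_[q] F] [FiniteDimensional ℚ_[q] F]

/-- (N1) S55/L/Unif.lean -/
theorem exists_zpow_of_nm_pow (x : F) (hx : x ≠ 0) :
    ∃ k : ℤ, nm q x ^ Module.finrank ℚ_[q] F = (q : ℝ) ^ k := by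
  have hint : IsIntegral ℚ_[q] x := Algebra.IsIntegral.isIntegral x
  obtain ⟨m, hm⟩ := minpoly.degree_dvd (K := ℚ_[q]) (L := F) hint
  have hd : 0 < (minpoly ℚ_[q] x).natDegree := minpoly.natDegree_pos hint
  have hc : (minpoly ℚ_[q] x).coeff 0 ≠ 0 := minpoly.coeff_zero_ne_zero hint hx
  have h1 : nm q x ^ (minpoly ℚ_[q] x).natDegree = ‖(minpoly ℚ_[q] x).coeff 0‖ := by
    rw [nm_def, spectralNorm.spectralNorm_eq_norm_coeff_zero_rpow, ← Real.rpow_natCast,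
      ← Real.rpow_mul (norm_nonneg _), one_div, inv_mul_cancel₀ (by exact_mod_cast hd.ne'),
      Real.rpow_one]
  refine ⟨-((minpoly ℚ_[q] x).coeff 0).valuation * m, ?_⟩
  rw [hm, pow_mul, h1, Padic.norm_eq_zpow_neg_valuation hc, zpow_mul, zpow_natCast]

private lemma N1_q_gt_one : (1 : ℝ) < (q : ℝ) := by
  exact_mod_cast (Fact.out : q.Prime).one_lt

private lemma N1_finrank_pos : 0 < Module.finrank ℚ_[q] F := Module.finrank_pos

/-- (N1) -/
theorem exists_isUnif : ∃ π : F, IsUnif q π := by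
  classical
  set n := Module.finrank ℚ_[q] F with hn
  have hn0 : 0 < n := N1_finrank_pos q
  have hq1 := N1_q_gt_one q
  have hex : ∃ a : ℕ, 0 < a ∧ ∃ x : F, nm q x ^ n = (q : ℝ) ^ (-(a : ℤ)) := by
    refine ⟨n, hn0, (q : F), ?_⟩
    rw [nm_q, inv_pow, zpow_neg, zpow_natCast]
  obtain ⟨ha0, π, hπ⟩ := Nat.find_spec hex
  refine ⟨π, ?_, ?_⟩
  · by_contra hge
    rw [not_lt] at hge
    have h1 : (1 : ℝ) ≤ nm q π ^ n := one_le_pow₀ hge
    rw [hπ] at h1
    have h2 : (q : ℝ) ^ (-((Nat.find hex : ℕ) : ℤ)) < 1 :=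
      zpow_lt_one_of_neg₀ hq1 (by omega)
    exact absurd h1 (not_le.2 h2)
  · intro x hx
    by_cases hx0 : x = 0
    · rw [hx0, nm_zero]; exact nm_nonneg q π
    obtain ⟨k, hk⟩ := exists_zpow_of_nm_pow q x hx0
    have hk0 : k < 0 := by
      by_contra hge
      rw [not_lt] at hge
      have h1 : (1 : ℝ) ≤ (q : ℝ) ^ k := one_le_zpow₀ hq1.le hge
      rw [← hk] at h1
      exact absurd h1 (not_le.2 (pow_lt_one₀ (nm_nonneg q x) hx hn0.ne'))
    have hmin : Nat.find hex ≤ k.natAbs := by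
      apply Nat.find_min' hex
      refine ⟨by omega, x, ?_⟩
      rw [hk]
      congr 1
      omega
    have h3 : nm q x ^ n ≤ nm q π ^ n := by
      rw [hk, hπ]
      apply zpow_le_zpow_right₀ hq1.le
      omega
    exact (pow_le_pow_iff_left₀ (nm_nonneg q x) (nm_nonneg q π) hn0.ne').1 h3

variable {q}

/-- (N1) -/
theorem IsUnif.ne_zero {π : F} (h : IsUnif q π) : π ≠ 0 := by
  intro h0
  have hq1 := N1_q_gt_one q
  have h1 : nm q ((q : ℕ) : F) < 1 := by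
    rw [nm_q]; exact inv_lt_one_of_one_lt₀ hq1
  have h2 := h.2 _ h1
  rw [h0, nm_zero, nm_q] at h2
  have : (0 : ℝ) < (q : ℝ)⁻¹ := by positivity
  exact absurd h2 (not_le.2 this)

/-- (N1) -/
theorem IsUnif.exists_zpow {π : F} (h : IsUnif q π) {x : F} (hx : x ≠ 0) :
    ∃ k : ℤ, nm q x = nm q π ^ k := by
  have hπ0 : 0 < nm q π := (nm_pos q).2 h.ne_zero
  have hx0 : 0 < nm q x := (nm_pos q).2 hx
  obtain ⟨n, hn1, hn2⟩ := exists_mem_Ioc_zpow hx0 (one_lt_inv₀ hπ0 |>.2 h.1)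
  refine ⟨-(n + 1), ?_⟩
  rw [inv_zpow', ] at hn1 hn2
  have hy : nm q (x / π ^ (-(n + 1))) ≤ 1 := by
    rw [nm_div, nm_zpow]
    exact div_le_one_of_le₀ hn2 (zpow_nonneg hπ0.le _)
  have hy2 : nm q π < nm q (x / π ^ (-(n + 1))) := by
    rw [nm_div, nm_zpow, lt_div_iff₀ (zpow_pos hπ0 _), ← zpow_one_add₀ hπ0.ne']
    have : 1 + -(n + 1) = -n := by ring
    rwa [this]
  have hy3 : nm q (x / π ^ (-(n + 1))) = 1 := by
    by_contra hne
    exact absurd (h.2 _ (lt_of_le_of_ne hy hne)) (not_le.2 hy2)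
  rw [nm_div, nm_zpow, div_eq_one_iff_eq (zpow_pos hπ0 _).ne'] at hy3
  exact hy3

/-- (N1) -/
theorem IsUnif.exists_pow_of_le {π : F} (h : IsUnif q π) {x : F} (hx : x ≠ 0)
    (hx1 : nm q x ≤ 1) : ∃ k : ℕ, nm q x = nm q π ^ k := by
  have hπ0 : 0 < nm q π := (nm_pos q).2 h.ne_zero
  obtain ⟨k, hk⟩ := h.exists_zpow hx
  have hk0 : 0 ≤ k := by
    by_contra hlt
    rw [not_le] at hlt
    have : 1 < nm q π ^ k := one_lt_zpow_of_neg₀ hπ0 h.1 hlt
    rw [← hk] at this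
    exact absurd hx1 (not_le.2 this)
  refine ⟨k.toNat, ?_⟩
  rw [hk, ← zpow_natCast, Int.toNat_of_nonneg hk0]

/-- (N1) -/
theorem IsUnif.zpow_inj {π : F} (h : IsUnif q π) {k l : ℤ} (hkl : nm q π ^ k = nm q π ^ l) :
    k = l :=
  zpow_right_injective₀ ((nm_pos q).2 h.ne_zero) h.1.ne hkl

end Fermat.Agent.S55Lib
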