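import Fermat.Agent.S55.L.Defs

/-!
# S55 chapter L, leaf (C5): transport along an isomorphism of (group, module)
-/

set_option autoImplicit false
set_option linter.unusedSectionVars false
set_option linter.unusedVariables false

namespace Fermat.Agent.S55Lib

open groupCohomology

variable {G : Type*} [Group G] {A : Type*} [AddCommGroup A] [DistribMulAction G A]

theorem transport_isCocycle₁ {G' : Type*} [Group G'] {A' : Type*} [AddCommGroup A']
    [DistribMulAction G' A'] (e : G' ≃* G) (φ : A ≃+ A') (h : ∀ g a, φ (e g • a) = g • φ a)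
    (f : G → A) : IsCocycle₁ (fun x : G' => φ (f (e x))) ↔ IsCocycle₁ f := by
  constructor
  · intro hf g k
    obtain ⟨g, rfl⟩ := e.surjective g
    obtain ⟨k, rfl⟩ := e.surjective k
    have := hf g k
    simp only [map_mul, ← h, ← map_add] at this
    exact φ.injective this
  · intro hf g k
    simp only [map_mul, ← h, ← map_add]
    rw [hf]

theorem transport_isCoboundary₁ {G' : Type*} [Group G'] {A' : Type*} [AddCommGroup A']
    [DistribMulAction G' A'] (e : G' ≃* G) (φ : A ≃+ A') (h : ∀ g a, φ (e g • a) = g • φ a)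
    (f : G → A) : IsCoboundary₁ (fun x : G' => φ (f (e x))) ↔ IsCoboundary₁ f := by
  constructor
  · rintro ⟨x, hx⟩
    refine ⟨φ.symm x, fun g => ?_⟩
    obtain ⟨g, rfl⟩ := e.surjective g
    apply φ.injective
    rw [map_sub, h, φ.apply_symm_apply]
    exact hx g
  · rintro ⟨x, hx⟩
    refine ⟨φ x, fun g => ?_⟩
    show g • φ x - φ x = φ (f (e g))
    rw [← h, ← map_sub, hx]

theorem transport_isCocycle₂ {G' : Type*} [Group G'] {A' : Type*} [AddCommGroup A']
    [DistribMulAction G' A'] (e : G' ≃* G) (φ : A ≃+ A') (h : ∀ g a, φ (e g • a) = g • φ a)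
    (f : G × G → A) : IsCocycle₂ (fun x : G' × G' => φ (f (e x.1, e x.2))) ↔ IsCocycle₂ f := by
  constructor
  · intro hf g k j
    obtain ⟨g, rfl⟩ := e.surjective g
    obtain ⟨k, rfl⟩ := e.surjective k
    obtain ⟨j, rfl⟩ := e.surjective j
    have := hf g k j
    simp only [map_mul, ← h, ← map_add] at this
    exact φ.injective this
  · intro hf g k j
    simp only [map_mul, ← h, ← map_add]
    rw [hf]

theorem transport_isCoboundary₂ {G' : Type*} [Group G'] {A' : Type*} [AddCommGroup A']
    [DistribMulAction G' A'] (e : G' ≃* G) (φ : A ≃+ A') (h : ∀ g a, φ (e g • a) = g • φ a)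
    (f : G × G → A) :
    IsCoboundary₂ (fun x : G' × G' => φ (f (e x.1, e x.2))) ↔ IsCoboundary₂ f := by
  constructor
  · rintro ⟨x, hx⟩
    refine ⟨fun g => φ.symm (x (e.symm g)), fun g k => ?_⟩
    obtain ⟨g, rfl⟩ := e.surjective g
    obtain ⟨k, rfl⟩ := e.surjective k
    apply φ.injective
    rw [map_add, map_sub, h, ← map_mul]
    simp only [φ.apply_symm_apply, e.symm_apply_apply]
    exact hx g k
  · rintro ⟨x, hx⟩
    refine ⟨fun g => φ (x (e g)), fun g k => ?_⟩
    show g • φ (x (e k)) - φ (x (e (g * k))) + φ (x (e g)) = φ (f (e g, e k))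
    rw [← h, ← map_sub, ← map_add, map_mul, hx]

/-- (C5) -/
theorem IsClassModule.transport (p : ℕ) {G' : Type*} [Group G'] {A' : Type*} [AddCommGroup A']
    [DistribMulAction G' A'] (e : G' ≃* G) (φ : A ≃+ A') (h : ∀ g a, φ (e g • a) = g • φ a)
    (u : G × G → A) (hu : IsClassModule p G A u) :
    IsClassModule p G' A' (fun x : G' × G' => φ (u (e x.1, e x.2))) := by
  have hH : ∀ H' : Subgroup G', ∀ (g : H') (a : A),
      φ ((e.subgroupMap H' g) • a) = g • φ a := fun H' g a => h (g : G') a
  have hP : ∀ H' : Subgroup G', IsPGroup p H' → IsPGroup p (H'.map (e : G' →* G)) :=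
    fun H' hp => hp.of_equiv (e.subgroupMap H')
  refine ⟨(transport_isCocycle₂ e φ h u).2 hu.cocycle, ?_, ?_, ?_⟩
  · intro H' hp f' hf'
    let f : H'.map (e : G' →* G) → A := fun x => φ.symm (f' ((e.subgroupMap H').symm x))
    have hff : (fun x : H' => φ (f (e.subgroupMap H' x))) = f' := by
      funext x
      simp only [f, φ.apply_symm_apply, MulEquiv.symm_apply_apply]
    have h1 : IsCocycle₁ f :=
      (transport_isCocycle₁ (e.subgroupMap H') φ (hH H') f).1 (by rw [hff]; exact hf')
    have h2 := (transport_isCoboundary₁ (e.subgroupMap H') φ (hH H') f).2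
      (hu.h1 _ (hP H' hp) f h1)
    rw [hff] at h2
    exact h2
  · intro H' hp f' hf'
    let f : (H'.map (e : G' →* G)) × (H'.map (e : G' →* G)) → A :=
      fun x => φ.symm (f' ((e.subgroupMap H').symm x.1, (e.subgroupMap H').symm x.2))
    have hff : (fun x : H' × H' => φ (f (e.subgroupMap H' x.1, e.subgroupMap H' x.2))) = f' := by
      funext x
      simp only [f, φ.apply_symm_apply, MulEquiv.symm_apply_apply]
    have h1 : IsCocycle₂ f :=
      (transport_isCocycle₂ (e.subgroupMap H') φ (hH H') f).1 (by rw [hff]; exact hf')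
    obtain ⟨k, hk⟩ := hu.h2gen _ (hP H' hp) f h1
    refine ⟨k, ?_⟩
    replace hk := (transport_isCoboundary₂ (e.subgroupMap H') φ (hH H') _).2 hk
    have e1 : (f' - k • fun x : H' × H' => φ (u (e ((x.1 : G'), (x.2 : G')).1,
        e ((x.1 : G'), (x.2 : G')).2))) = fun x : H' × H' => φ ((f - k • fun
        x : (H'.map (e : G' →* G)) × (H'.map (e : G' →* G)) => u ((x.1 : G), (x.2 : G)))
          (e.subgroupMap H' x.1, e.subgroupMap H' x.2)) := by
      funext x
      simp only [Pi.sub_apply, Pi.smul_apply, map_sub, map_zsmul]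
      rw [← hff]
      rfl
    rw [e1]
    exact hk
  · intro H' hp k hk
    have h2 := fun hh => hu.h2ord _ (hP H' hp) k
      ((transport_isCoboundary₂ (e.subgroupMap H') φ (hH H') _).1 hh)
    have hc : Nat.card (H'.map (e : G' →* G)) = Nat.card H' :=
      (Nat.card_congr (e.subgroupMap H').toEquiv).symm
    rw [hc] at h2
    apply h2
    have e1 : (k • fun x : H' × H' => φ (u (e ((x.1 : G'), (x.2 : G')).1,
        e ((x.1 : G'), (x.2 : G')).2))) = fun x : H' × H' => φ ((k • fun
        x : (H'.map (e : G' →* G)) × (H'.map (e : G' →* G)) => u ((x.1 : G), (x.2 : G)))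
          (e.subgroupMap H' x.1, e.subgroupMap H' x.2)) := by
      funext x
      simp only [Pi.smul_apply, map_zsmul]
      rfl
    rw [← e1]
    exact hk

end Fermat.Agent.S55Lib
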