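import Fermat.Agent.S55.L.IndexUnits
import Fermat.Agent.S55.H.QFree

/-!
# S55 chapter L, leaf (X4): `(F^× : F^×p)`
-/

set_option autoImplicit false
set_option linter.unusedSectionVars false
set_option linter.unusedVariables false

namespace Fermat.Agent.S55Lib

variable (q : ℕ) [Fact q.Prime] (p : ℕ) [Fact p.Prime]
variable {F : Type} [Field F] [Algebra ℚ_[q] F] [FiniteDimensional ℚ_[q] F]

/-- the normalised valuation -/
noncomputable def X4_val {π : F} (hπ : IsUnif q π) : Additive Fˣ →+ ℤ :=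
  AddMonoidHom.mk' (fun x => Classical.choose (hπ.exists_zpow (Additive.toMul x : Fˣ).ne_zero))
    (by
      intro a b
      apply hπ.zpow_inj
      have hπ0 : nm q π ≠ 0 := fun h => hπ.ne_zero ((nm_eq_zero q).1 h)
      rw [zpow_add₀ hπ0,
        ← Classical.choose_spec (hπ.exists_zpow (Additive.toMul (a + b) : Fˣ).ne_zero),
        ← Classical.choose_spec (hπ.exists_zpow (Additive.toMul a : Fˣ).ne_zero),
        ← Classical.choose_spec (hπ.exists_zpow (Additive.toMul b : Fˣ).ne_zero), ← nm_mul]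
      rfl)

lemma X4_val_spec {π : F} (hπ : IsUnif q π) (x : Additive Fˣ) :
    nm q ((Additive.toMul x : Fˣ) : F) = nm q π ^ X4_val q hπ x :=
  Classical.choose_spec (hπ.exists_zpow (Additive.toMul x : Fˣ).ne_zero)

/-- `q_p(F^×) = p Q^e` -/
lemma X4_qInd {π : F} (hπ : IsUnif q π) {e : ℕ} (he : nm q (p : F) = nm q π ^ e) :
    QFin (mulp p (Additive Fˣ)) ∧ qInd (mulp p (Additive Fˣ)) = (QQ q F ^ e * p : ℕ) := by
  obtain ⟨h1, h2⟩ := X3_qInd_U0 q p hπ he
  obtain ⟨h3, h4⟩ := qInd_mulp_free p (A := ℤ)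
  let i : Additive (UU q π 0) →+ Additive Fˣ := MonoidHom.toAdditive (UU q π 0).subtype
  have hi : Function.Injective i := fun a b h =>
    Additive.toMul.injective (Subtype.val_injective (congrArg Additive.toMul h))
  have hsurj : Function.Surjective (X4_val q hπ) := by
    intro k
    refine ⟨Additive.ofMul (Units.mk0 π hπ.ne_zero ^ k), ?_⟩
    apply hπ.zpow_inj
    rw [← X4_val_spec]
    show nm q ((Units.mk0 π hπ.ne_zero ^ k : Fˣ) : F) = _
    rw [Units.val_zpow_eq_zpow_val, nm_zpow, Units.val_mk0]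
  have hex : ∀ a, X4_val q hπ a = 0 ↔ ∃ a', i a' = a := by
    intro a
    constructor
    · intro h
      have h5 := X4_val_spec q hπ a
      rw [h, zpow_zero] at h5
      refine ⟨Additive.ofMul ⟨Additive.toMul a, h5, ?_⟩, rfl⟩
      rw [pow_zero]
      refine (nm_sub_le q _ _).trans (max_le h5.le ?_)
      rw [nm_one]
    · rintro ⟨a', rfl⟩
      apply hπ.zpow_inj
      rw [← X4_val_spec, zpow_zero]
      exact (Additive.toMul a' : UU q π 0).2.1
  obtain ⟨h5, h6⟩ := qInd_ses i (X4_val q hπ) hi hsurj hex (mulp p _) (mulp p _) (mulp p ℤ)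
    (fun a => by simp) (fun a => by simp) h1 h3
  refine ⟨h5, ?_⟩
  rw [h6, h2, h4]
  simp

/-- (X4) S55/L/IndexField.lean : `(F^× : F^×p) = p |μ_p(F)| p^[F:ℚ_p]` (`q = p`), `p |μ_p(F)|`
(`q ≠ p`). -/
theorem card_modp_units {F : Type} [Field F] [Algebra ℚ_[q] F] [FiniteDimensional ℚ_[q] F] :
    Finite (modp p (Additive Fˣ)) ∧ Finite (torp p (Additive Fˣ)) ∧
    Nat.card (modp p (Additive Fˣ)) =
      p * Nat.card (torp p (Additive Fˣ)) *
        (if q = p then p ^ Module.finrank ℚ_[q] F else 1) := by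
  obtain ⟨π, hπ⟩ := exists_isUnif q (F := F)
  obtain ⟨e, he, hQ⟩ := X3_exists_e q p hπ
  obtain ⟨h1, h2⟩ := X4_qInd q p hπ he
  obtain ⟨h3, h4, h5⟩ := C8_card_of_qInd p h1 _ h2
  refine ⟨h3, h4, ?_⟩
  rw [h5, hQ]
  ring

end Fermat.Agent.S55Lib
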