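import Fermat.Agent.S55.L.LocalClassOm
import Fermat.Agent.S55.G.LocFix
import Fermat.Agent.S55.G.LocFin

/-!
# S55 chapter L: the root statement (local class field theory at every level)
-/

set_option autoImplicit false
set_option linter.unusedSectionVars false
set_option linter.unusedVariables false

namespace Fermat.Agent.S55Lib

open groupCohomology

variable {p : ℕ} [Fact p.Prime]

theorem L_classModule (q : Nat.Primes) (U : Subgroup GQ) [U.Normal] (hU : U ∈ levAll.mem) :
    ∃ u : (Gq q ⧸ U.comap (rq q)) × (Gq q ⧸ U.comap (rq q)) →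
        inv (U.comap (rq q)) (Additive (Om q)ˣ),
      IsClassModule p (Gq q ⧸ U.comap (rq q)) (inv (U.comap (rq q)) (Additive (Om q)ˣ)) u := by
  obtain ⟨F, hF, -, -, hUF⟩ := hU
  have hW : U.comap (rq q) = (locF q 1 F).fixingSubgroup := by
    ext h
    rw [mem_fixingSubgroup_locF_iff, Subgroup.mem_comap, hUF]
    simp
  exact local_isClassModule_of_eq (q : ℕ) p (locF q 1 F) _ hW

end Fermat.Agent.S55Lib
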