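import Fermat.Agent.S55.L.Defs
import Fermat.Agent.S55.L.Unif

/-!
# S55 chapter L, leaf (N5): `|O/π^e O| = Q^e`
-/

set_option autoImplicit false
set_option linter.unusedSectionVars false
set_option linter.unusedVariables false

namespace Fermat.Agent.S55Lib

open groupCohomology IntermediateField

variable (q : ℕ) [Fact q.Prime]
variable {F : Type*} [Field F] [Algebra ℚ_[q] F] [FiniteDimensional ℚ_[q] F]

/-- membership in `π^e O` in terms of the norm -/
lemma N5_mem_span_pow {π : F} (hπ0 : π ≠ 0) (hπ1 : π ∈ OO q F) (e : ℕ) (x : OO q F) :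
    x ∈ Ideal.span {(⟨π, hπ1⟩ : OO q F) ^ e} ↔ nm q (x : F) ≤ nm q π ^ e := by
  have hpos : 0 < nm q π ^ e := pow_pos ((nm_pos q).2 hπ0) e
  rw [Ideal.mem_span_singleton]
  constructor
  · rintro ⟨y, rfl⟩
    rw [Subring.coe_mul, Subring.coe_pow, nm_mul, nm_pow]
    exact mul_le_of_le_one_right hpos.le y.2
  · intro h
    refine ⟨⟨(x : F) / π ^ e, ?_⟩, ?_⟩
    · rw [mem_OO, nm_div, nm_pow]
      exact div_le_one_of_le₀ h hpos.le
    · apply Subtype.ext
      rw [Subring.coe_mul, Subring.coe_pow]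
      field_simp

/-- for a uniformizer: `nm x < 1 ↔ nm x ≤ nm π` -/
lemma N5_lt_one_iff {π : F} (hπ : IsUnif q π) (x : F) : nm q x < 1 ↔ nm q x ≤ nm q π :=
  ⟨hπ.2 x, fun h => h.trans_lt hπ.1⟩

/-- (N5) S55/L/CardModPi.lean : `|O/π^e O| = Q^e`. -/
theorem card_OO_mod_pow {π : F} (hπ : IsUnif q π) (hπ1 : π ∈ OO q F) (e : ℕ) :
    Nat.card (OO q F ⧸ Ideal.span {(⟨π, hπ1⟩ : OO q F) ^ e}) = QQ q F ^ e := by
  have hπ0 : π ≠ 0 := hπ.ne_zero
  have hpos : 0 < nm q π := (nm_pos q).2 hπ0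
  induction e with
  | zero =>
    rw [pow_zero, pow_zero, Ideal.span_singleton_one]
    exact Nat.card_of_subsingleton 0
  | succ e ih =>
    set S : Ideal (OO q F) := Ideal.span {(⟨π, hπ1⟩ : OO q F) ^ e} with hS
    set T : Ideal (OO q F) := Ideal.span {(⟨π, hπ1⟩ : OO q F) ^ (e + 1)} with hT
    have hTS : T ≤ S := by
      intro x hx
      rw [hT, N5_mem_span_pow q hπ0] at hx
      rw [hS, N5_mem_span_pow q hπ0]
      exact hx.trans (pow_le_pow_of_le_one hpos.le hπ.1.le (Nat.le_succ e))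
    have h1 := Submodule.card_quotient_mul_card_quotient S T hTS
    let m : OO q F →ₗ[OO q F] (OO q F ⧸ T) :=
      T.mkQ ∘ₗ LinearMap.mulLeft (OO q F) ((⟨π, hπ1⟩ : OO q F) ^ e)
    have hker : LinearMap.ker m = mm q F := by
      ext x
      rw [LinearMap.mem_ker, LinearMap.comp_apply, Submodule.mkQ_apply,
        Submodule.Quotient.mk_eq_zero, LinearMap.mulLeft_apply, hT, N5_mem_span_pow q hπ0,
        mem_mm, N5_lt_one_iff q hπ, Subring.coe_mul, Subring.coe_pow, nm_mul, nm_pow, pow_succ]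
      exact mul_le_mul_iff_right₀ (pow_pos hpos e)
    have hrange : LinearMap.range m = Submodule.map T.mkQ S := by
      rw [LinearMap.range_comp]
      congr 1
      ext x
      rw [LinearMap.mem_range, hS, Ideal.mem_span_singleton]
      constructor
      · rintro ⟨y, rfl⟩
        exact ⟨y, rfl⟩
      · rintro ⟨y, rfl⟩
        exact ⟨y, rfl⟩
    have h2 : Nat.card (Submodule.map T.mkQ S) = QQ q F := by
      rw [← hrange, ← Nat.card_congr m.quotKerEquivRange.toEquiv, hker]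
      rfl
    rw [h2] at h1
    rw [← h1, pow_succ, mul_comm]
    congr 1

end Fermat.Agent.S55Lib
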