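import Fermat.Agent.S55.L.Defs

/-!
# S55 chapter L, leaf (N2): `OO` is the integral closure of `ℤ_[q]`
-/

set_option autoImplicit false
set_option linter.unusedSectionVars false
set_option linter.unusedVariables false

namespace Fermat.Agent.S55Lib

open groupCohomology IntermediateField

variable (q : ℕ) [Fact q.Prime]
variable {F : Type*} [Field F] [Algebra ℚ_[q] F] [FiniteDimensional ℚ_[q] F]

/-- (N2) S55/L/IntClosure.lean : `OO` is the integral closure of `ℤ_[q]`. -/
theorem mem_OO_iff_isIntegral (x : F) :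
    x ∈ OO q F ↔ ((algebraMap ℚ_[q] F).comp (algebraMap ℤ_[q] ℚ_[q])).IsIntegralElem x := by
  have hint : IsIntegral ℚ_[q] x := Algebra.IsIntegral.isIntegral x
  constructor
  · intro hx
    rw [mem_OO, nm_def, spectralNorm, spectralValue_le_one_iff (minpoly.monic hint)] at hx
    have hl : minpoly ℚ_[q] x ∈ Polynomial.lifts (algebraMap ℤ_[q] ℚ_[q]) := by
      rw [Polynomial.lifts_iff_coeff_lifts]
      intro n
      exact ⟨⟨_, hx n⟩, rfl⟩
    obtain ⟨P, hP, -, hPm⟩ := Polynomial.lifts_and_natDegree_eq_and_monic hl (minpoly.monic hint)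
    refine ⟨P, hPm, ?_⟩
    rw [← Polynomial.eval₂_map, hP]
    exact minpoly.aeval ℚ_[q] x
  · rintro ⟨P, hPm, hP⟩
    rw [← Polynomial.eval₂_map] at hP
    have h1 : spectralAlgNorm ℚ_[q] F x ≤ spectralValue (P.map (algebraMap ℤ_[q] ℚ_[q])) :=
      norm_root_le_spectralValue spectralAlgNorm_isPowMul
        (isNonarchimedean_spectralNorm (K := ℚ_[q]) (L := F)) (hPm.map _) hP
    rw [mem_OO, nm_def]
    refine h1.trans ?_
    rw [spectralValue_le_one_iff (hPm.map _)]
    intro n
    rw [Polynomial.coeff_map]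
    exact (P.coeff n).2

end Fermat.Agent.S55Lib
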