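import Fermat.Agent.S55.L.Defs
import Fermat.Agent.S55.L.IntClosure

/-!
# S55 chapter L, leaf (N3): `|O/qO| = q^[F:ℚ_q]`
-/

set_option autoImplicit false
set_option linter.unusedSectionVars false
set_option linter.unusedVariables false

namespace Fermat.Agent.S55Lib

open groupCohomology IntermediateField

variable (q : ℕ) [Fact q.Prime]
variable {F : Type*} [Field F] [Algebra ℚ_[q] F] [FiniteDimensional ℚ_[q] F]

/-- (N3) S55/L/CardModQ.lean : `|O/qO| = q^[F:ℚ_q]`. -/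
theorem card_OO_mod_q :
    Nat.card (OO q F ⧸ Ideal.span {(q : OO q F)}) = q ^ Module.finrank ℚ_[q] F := by
  let algZF : Algebra ℤ_[q] F := ((algebraMap ℚ_[q] F).comp (algebraMap ℤ_[q] ℚ_[q])).toAlgebra
  have : IsScalarTower ℤ_[q] ℚ_[q] F := IsScalarTower.of_algebraMap_eq (fun x => rfl)
  let φ : ℤ_[q] →+* OO q F :=
    ((algebraMap ℚ_[q] F).comp (algebraMap ℤ_[q] ℚ_[q])).codRestrict (OO q F) (fun x => by
      rw [mem_OO, RingHom.comp_apply, nm_padic]
      exact x.2)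
  let algZO : Algebra ℤ_[q] (OO q F) := φ.toAlgebra
  have : IsScalarTower ℤ_[q] (OO q F) F := IsScalarTower.of_algebraMap_eq (fun x => rfl)
  have : IsIntegralClosure (OO q F) ℤ_[q] F :=
    ⟨Subtype.val_injective, fun {x} =>
      ⟨fun hx => ⟨⟨x, (mem_OO_iff_isIntegral q x).2 hx⟩, rfl⟩, by
        rintro ⟨y, rfl⟩
        exact (mem_OO_iff_isIntegral q (y : F)).1 y.2⟩⟩
  have : Module.IsTorsionFree ℤ_[q] F := .trans_faithfulSMul ℤ_[q] ℚ_[q] F
  have hfin : Module.Finite ℤ_[q] (OO q F) := IsIntegralClosure.finite ℤ_[q] ℚ_[q] F (OO q F)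
  have hfree : Module.Free ℤ_[q] (OO q F) :=
    IsIntegralClosure.module_free ℤ_[q] ℚ_[q] F (OO q F)
  have hrank := IsIntegralClosure.rank ℤ_[q] ℚ_[q] F (OO q F)
  have h1 := IsLocalRing.finrank_quotient_map (R := ℤ_[q]) (S := OO q F)
  have h2 : Ideal.map (algebraMap ℤ_[q] (OO q F)) (IsLocalRing.maximalIdeal ℤ_[q]) =
      Ideal.span {(q : OO q F)} := by
    rw [PadicInt.maximalIdeal_eq_span_p, Ideal.map_span, Set.image_singleton, map_natCast]
  have h3 : Nat.card (ℤ_[q] ⧸ IsLocalRing.maximalIdeal ℤ_[q]) = q := by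
    have := Nat.card_congr (PadicInt.residueField (p := q)).toEquiv
    rw [Nat.card_zmod] at this
    exact this
  let := Ideal.Quotient.field (IsLocalRing.maximalIdeal ℤ_[q])
  have : Module.Finite (ℤ_[q] ⧸ IsLocalRing.maximalIdeal ℤ_[q])
      (OO q F ⧸ Ideal.map (algebraMap ℤ_[q] (OO q F)) (IsLocalRing.maximalIdeal ℤ_[q])) :=
    Module.Finite.of_restrictScalars_finite ℤ_[q] _ _
  have h4 := Module.natCard_eq_pow_finrank (K := ℤ_[q] ⧸ IsLocalRing.maximalIdeal ℤ_[q])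
    (V := OO q F ⧸ Ideal.map (algebraMap ℤ_[q] (OO q F)) (IsLocalRing.maximalIdeal ℤ_[q]))
  rw [h1, hrank, h3] at h4
  rw [← h2]
  exact h4

end Fermat.Agent.S55Lib
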