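import Fermat.Agent.S55.L.Defs
import Fermat.Agent.S55.L.CardModQ

/-!
# S55 chapter L, leaf (N4): the residue field is finite
-/

set_option autoImplicit false
set_option linter.unusedSectionVars false
set_option linter.unusedVariables false

namespace Fermat.Agent.S55Lib

open groupCohomology IntermediateField

variable (q : ℕ) [Fact q.Prime]
variable {F : Type*} [Field F] [Algebra ℚ_[q] F] [FiniteDimensional ℚ_[q] F]

private lemma N4_q_mem_mm : (q : OO q F) ∈ mm q F := by
  rw [mem_mm]
  have h : (((q : ℕ) : OO q F) : F) = ((q : ℕ) : F) := by simp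
  rw [h, nm_q]
  exact inv_lt_one_of_one_lt₀ (by exact_mod_cast (Fact.out : q.Prime).one_lt)

/-- (N4) S55/L/ResFinite.lean -/
theorem finite_kk : Finite (kk q F) := by
  have h1 : Finite (OO q F ⧸ Ideal.span {(q : OO q F)}) := by
    apply Nat.finite_of_card_ne_zero
    rw [card_OO_mod_q]
    exact pow_ne_zero _ (Fact.out : q.Prime).ne_zero
  have hle : Ideal.span {(q : OO q F)} ≤ mm q F := by
    rw [Ideal.span_singleton_le_iff_mem]
    exact N4_q_mem_mm q
  exact Finite.of_surjective (Ideal.Quotient.factor hle) (Ideal.Quotient.factor_surjective hle)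

/-- (N4) -/
theorem exists_QQ_eq : ∃ f : ℕ, 0 < f ∧ QQ q F = q ^ f := by
  have := finite_kk q (F := F)
  let _ := Fintype.ofFinite (kk q F)
  have hchar : CharP (kk q F) q := by
    rw [CharP.charP_iff_prime_eq_zero (Fact.out : q.Prime)]
    have : ((q : ℕ) : kk q F) = red q F (q : OO q F) := by simp
    rw [this]
    exact Ideal.Quotient.eq_zero_iff_mem.2 (N4_q_mem_mm q)
  obtain ⟨n, -, hn⟩ := FiniteField.card (kk q F) q
  exact ⟨n, n.pos, by rw [QQ, Nat.card_eq_fintype_card, hn]⟩

/-- (N4) -/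
theorem exists_QQ_eq_pow {E : Type*} [Field E] [Algebra ℚ_[q] E] [FiniteDimensional ℚ_[q] E]
    (φ : F →ₐ[ℚ_[q]] E) : ∃ f : ℕ, 0 < f ∧ QQ q E = QQ q F ^ f := by
  have := finite_kk q (F := E)
  let _ : Algebra (kk q F) (kk q E) := (kk.map q φ).toAlgebra
  have : Module.Finite (kk q F) (kk q E) := Module.Finite.of_finite
  exact ⟨Module.finrank (kk q F) (kk q E), Module.finrank_pos,
    Module.natCard_eq_pow_finrank (K := kk q F) (V := kk q E)⟩

end Fermat.Agent.S55Lib
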