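import Fermat.Agent.S55.L.Defs
import Fermat.Agent.S55.L.Unif
import Fermat.Agent.S55.L.CardModQ
import Fermat.Agent.S55.L.ResFinite
import Fermat.Agent.S55.L.CardModPi

/-!
# S55 chapter L, leaf (N6): `e f = n`
-/

set_option autoImplicit false
set_option linter.unusedSectionVars false
set_option linter.unusedVariables false

namespace Fermat.Agent.S55Lib

open groupCohomology IntermediateField

variable (q : ℕ) [Fact q.Prime]
variable {F : Type*} [Field F] [Algebra ℚ_[q] F] [FiniteDimensional ℚ_[q] F]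

/-- (N6) S55/L/EF.lean : absolute `e f = n`. -/
theorem QQ_pow_eq {π : F} (hπ : IsUnif q π) {e : ℕ} (he : nm q π ^ e = (q : ℝ)⁻¹) :
    QQ q F ^ e = q ^ Module.finrank ℚ_[q] F := by
  have hπ1 : π ∈ OO q F := hπ.1.le
  have hq0 : ((q : ℕ) : F) ≠ 0 := by
    rw [← nm_pos q, nm_q]
    have : (0 : ℝ) < (q : ℝ) := by exact_mod_cast (Fact.out : q.Prime).pos
    positivity
  have hq1 : ((q : ℕ) : F) ∈ OO q F := nm_natCast_le_one q q
  have hspan : Ideal.span {(q : OO q F)} = Ideal.span {(⟨π, hπ1⟩ : OO q F) ^ e} := by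
    have h1 : (q : OO q F) = (⟨((q : ℕ) : F), hq1⟩ : OO q F) ^ 1 := by
      apply Subtype.ext
      simp
    ext x
    rw [h1, N5_mem_span_pow q hq0, N5_mem_span_pow q hπ.ne_zero, he, pow_one, nm_q]
  rw [← card_OO_mod_pow q hπ hπ1 e, ← card_OO_mod_q q (F := F), hspan]

/-- every uniformizer has a power of norm `q⁻¹` -/
lemma N6_exists_pow {π : F} (hπ : IsUnif q π) : ∃ e : ℕ, 0 < e ∧ nm q π ^ e = (q : ℝ)⁻¹ := by
  have hq : (1 : ℝ) < (q : ℝ) := by exact_mod_cast (Fact.out : q.Prime).one_lt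
  have hq0 : ((q : ℕ) : F) ≠ 0 := by
    rw [← nm_pos q, nm_q]
    positivity
  obtain ⟨e, he⟩ := hπ.exists_pow_of_le hq0 (nm_natCast_le_one q q)
  rw [nm_q] at he
  refine ⟨e, ?_, he.symm⟩
  rcases Nat.eq_zero_or_pos e with h0 | h0
  · rw [h0, pow_zero] at he
    exact absurd he (inv_lt_one_of_one_lt₀ hq).ne
  · exact h0

/-- (N6) relative `e f = n`. -/
theorem ef_eq {E : Type*} [Field E] [Algebra ℚ_[q] E] [FiniteDimensional ℚ_[q] E] [Algebra F E]
    [IsScalarTower ℚ_[q] F E] {πF : F} {πE : E} (hF : IsUnif q πF) (hE : IsUnif q πE) {e f : ℕ}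
    (he : nm q πF = nm q πE ^ e) (hf : QQ q E = QQ q F ^ f) : e * f = Module.finrank F E := by
  obtain ⟨eF, heF0, heF⟩ := N6_exists_pow q hF
  have h1 := QQ_pow_eq q hF heF
  have h2 : QQ q E ^ (e * eF) = q ^ Module.finrank ℚ_[q] E :=
    QQ_pow_eq q hE (by rw [pow_mul, ← he, heF])
  rw [← Module.finrank_mul_finrank ℚ_[q] F E, pow_mul q, ← h1, hf, ← pow_mul, ← pow_mul] at h2
  obtain ⟨g, hg0, hg⟩ := exists_QQ_eq q (F := F)
  have hQ : 1 < QQ q F := by
    rw [hg]
    exact Nat.one_lt_pow hg0.ne' (Fact.out : q.Prime).one_lt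
  have h3 := Nat.pow_right_injective hQ h2
  have h4 : eF * (e * f) = eF * Module.finrank F E := by
    rw [← h3]; ring
  exact Nat.eq_of_mul_eq_mul_left heF0 h4

end Fermat.Agent.S55Lib
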