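import Fermat.Agent.S55.L.Defs

/-!
# S55 chapter L: intermediate fields of `q`-adic fields are `q`-adic fields
-/

set_option autoImplicit false
set_option linter.unusedSectionVars false

namespace Fermat.Agent.S55Lib

variable (q : ℕ) [Fact q.Prime]
variable {F : Type*} [Field F] [Algebra ℚ_[q] F]
variable {M : Type*} [Field M] [Algebra ℚ_[q] M] [Algebra F M] [IsScalarTower ℚ_[q] F M]

theorem IF_tower (E : IntermediateField F M) : IsScalarTower ℚ_[q] E M :=
  IsScalarTower.of_algebraMap_eq fun _ => rfl

theorem IF_finite [FiniteDimensional ℚ_[q] M] (E : IntermediateField F M) :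
    FiniteDimensional ℚ_[q] E :=
  haveI := IF_tower q E
  FiniteDimensional.left ℚ_[q] E M

theorem base_finite [FiniteDimensional ℚ_[q] M] : FiniteDimensional ℚ_[q] F :=
  FiniteDimensional.left ℚ_[q] F M

theorem IF_nm (E : IntermediateField F M) (x : E) : nm q (x : M) = nm q x :=
  haveI := IF_tower q E
  nm_algebraMap q (F := E) (E := M) x

end Fermat.Agent.S55Lib
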