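import Fermat.Agent.S55.L.FrobPow
import Fermat.Agent.S55.L.EF
import Fermat.Agent.S55.L.Unif
import Fermat.Agent.S55.L.IF

/-!
# S55 chapter L, leaf (U3): `F(ζ)/F`, `ζ` of order `Q^m - 1`, is unramified of degree `m`
-/

set_option autoImplicit false
set_option linter.unusedSectionVars false
set_option linter.unusedVariables false
set_option linter.style.haveILetI false

namespace Fermat.Agent.S55Lib

open IntermediateField Polynomial

variable (q : ℕ) [Fact q.Prime]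
variable {F : Type*} [Field F] [Algebra ℚ_[q] F] [FiniteDimensional ℚ_[q] F]

lemma U3_two_le_QQ : 2 ≤ QQ q F := by
  obtain ⟨f, hf, hQ⟩ := exists_QQ_eq q (F := F)
  rw [hQ]
  calc 2 ≤ q := (Fact.out : q.Prime).two_le
    _ = q ^ 1 := (pow_one q).symm
    _ ≤ q ^ f := Nat.pow_le_pow_right (Fact.out : q.Prime).pos hf

/-- a primitive `N`-th root of unity (`q ∤ N`) forces `N + 1 ≤ Q`. -/
lemma U3_le_QQ {N : ℕ} (hN : ¬ q ∣ N) {z : F} (hz : IsPrimitiveRoot z N) : N + 1 ≤ QQ q F := by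
  classical
  have hN0 : N ≠ 0 := fun h0 => hN (h0 ▸ dvd_zero q)
  haveI : Finite (kk q F) := finite_kk q
  letI : Fintype (kk q F) := Fintype.ofFinite _
  have hzO : z ∈ OO q F := (U1_nm_eq_one_of_pow q hN0 hz.pow_eq_one).le
  set r : kk q F := red q F ⟨z, hzO⟩ with hr
  have hr0 : r ≠ 0 := by
    rw [hr, Ne, red_eq_zero, not_lt]
    exact (U1_nm_eq_one_of_pow q hN0 hz.pow_eq_one).ge
  have hpow : r ^ (Fintype.card (kk q F) - 1) = 1 := FiniteField.pow_card_sub_one_eq_one r hr0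
  have hz1 : z ^ (Fintype.card (kk q F) - 1) = 1 := by
    rw [hr, ← map_pow, ← map_one (red q F), red_eq_red] at hpow
    apply eq_of_pow_eq_one_of_nm_sub_lt q hN _ (one_pow N) hpow
    show (z ^ _) ^ N = 1
    rw [← pow_mul, mul_comm, pow_mul, hz.pow_eq_one, one_pow]
  have hdvd := hz.dvd_of_pow_eq_one _ hz1
  have hcard : QQ q F = Fintype.card (kk q F) := Nat.card_eq_fintype_card
  have h2 : 2 ≤ Fintype.card (kk q F) := hcard ▸ U3_two_le_QQ q
  have := Nat.le_of_dvd (by omega) hdvd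
  omega

variable {M : Type*} [Field M] [Algebra ℚ_[q] M] [FiniteDimensional ℚ_[q] M] [Algebra F M]
  [IsScalarTower ℚ_[q] F M]

section

variable (m : ℕ) (hm : 0 < m) (ζ : M) (hζ : IsPrimitiveRoot ζ (QQ q F ^ m - 1))

include hζ in
lemma U3_pow_QQ_pow_m : ζ ^ (QQ q F ^ m) = ζ := by
  have h1 : 1 ≤ QQ q F ^ m := Nat.one_le_pow _ _ (by have := U3_two_le_QQ q (F := F); omega)
  have : QQ q F ^ m = (QQ q F ^ m - 1) + 1 := by omega
  rw [this, pow_succ, hζ.pow_eq_one, one_mul]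

include hζ in
lemma U3_pow_add (j : ℕ) : ζ ^ (QQ q F ^ (m + j)) = ζ ^ (QQ q F ^ j) := by
  rw [pow_add, pow_mul, U3_pow_QQ_pow_m q m ζ hζ]

include hζ in
lemma U3_pow_mul_add (k j : ℕ) : ζ ^ (QQ q F ^ (m * k + j)) = ζ ^ (QQ q F ^ j) := by
  induction k with
  | zero => simp
  | succ k ih =>
    have : m * (k + 1) + j = m + (m * k + j) := by ring
    rw [this, U3_pow_add q m ζ hζ, ih]

include hζ in
lemma U3_pow_mod (i : ℕ) : ζ ^ (QQ q F ^ i) = ζ ^ (QQ q F ^ (i % m)) := by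
  conv_lhs => rw [← Nat.div_add_mod i m]
  exact U3_pow_mul_add q m ζ hζ _ _

include hm hζ in
/-- the conjugates of `ζ` -/
lemma U3_rootSet_subset [IsGalois F M] (a : M) (ha : a ∈ (minpoly F ζ).rootSet M) :
    ∃ i < m, ζ ^ (QQ q F ^ i) = a := by
  haveI : FiniteDimensional F M := FiniteDimensional.right ℚ_[q] F M
  rw [mem_rootSet] at ha
  obtain ⟨σ, hσ⟩ := minpoly.exists_algEquiv_of_root' (Algebra.IsAlgebraic.isAlgebraic ζ) ha.2
  obtain ⟨i, hi⟩ := exists_frob_pow q σ (not_dvd_QQ_pow_sub_one q (F := F) m hm) hζ.pow_eq_one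
  refine ⟨i % m, Nat.mod_lt _ hm, ?_⟩
  rw [← U3_pow_mod q m ζ hζ, ← hi, hσ]

omit [Fact q.Prime] [Algebra ℚ_[q] F] [FiniteDimensional ℚ_[q] F] [Algebra ℚ_[q] M]
  [FiniteDimensional ℚ_[q] M] [IsScalarTower ℚ_[q] F M] in
lemma U3_card_rootSet [FiniteDimensional F M] [IsGalois F M] :
    Fintype.card ((minpoly F ζ).rootSet M) = Module.finrank F F⟮ζ⟯ := by
  rw [adjoin.finrank (Algebra.IsIntegral.isIntegral ζ)]
  exact card_rootSet_eq_natDegree (Algebra.IsSeparable.isSeparable F ζ)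
    (Normal.splits inferInstance ζ)

include hm hζ in
lemma U3_toFinset_subset [DecidableEq M] [IsGalois F M] :
    ((minpoly F ζ).rootSet M).toFinset ⊆
      (Finset.range m).image (fun i => ζ ^ (QQ q F ^ i)) := by
  intro a ha
  rw [Set.mem_toFinset] at ha
  obtain ⟨i, hi, rfl⟩ := U3_rootSet_subset q m hm ζ hζ a ha
  exact Finset.mem_image.2 ⟨i, Finset.mem_range.2 hi, rfl⟩

include hm hζ in
lemma U3_finrank_le [IsGalois F M] : Module.finrank F F⟮ζ⟯ ≤ m := by
  classical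
  haveI : FiniteDimensional F M := FiniteDimensional.right ℚ_[q] F M
  rw [← U3_card_rootSet ζ, ← Set.toFinset_card]
  calc ((minpoly F ζ).rootSet M).toFinset.card
      ≤ ((Finset.range m).image (fun i => ζ ^ (QQ q F ^ i))).card :=
        Finset.card_le_card (U3_toFinset_subset q m hm ζ hζ)
    _ ≤ (Finset.range m).card := Finset.card_image_le
    _ = m := Finset.card_range m

include hm hζ in
lemma U3_main [IsGalois F M] :
    Module.finrank F F⟮ζ⟯ = m ∧ ∀ x : F⟮ζ⟯, ∃ y : F, nm q x = nm q y := by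
  haveI := IF_tower q F⟮ζ⟯
  haveI := IF_finite q F⟮ζ⟯
  have hle := U3_finrank_le q m hm ζ hζ
  have hN := not_dvd_QQ_pow_sub_one q (F := F) m hm
  have hz : IsPrimitiveRoot (AdjoinSimple.gen F ζ) (QQ q F ^ m - 1) := by
    apply IsPrimitiveRoot.of_map_of_injective (f := algebraMap F⟮ζ⟯ M) _
      (algebraMap F⟮ζ⟯ M).injective
    rw [AdjoinSimple.algebraMap_gen]
    exact hζ
  have h1 := U3_le_QQ q hN hz
  obtain ⟨f, hf, hQ⟩ := exists_QQ_eq_pow q (IsScalarTower.toAlgHom ℚ_[q] F F⟮ζ⟯)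
  have h2 := U3_two_le_QQ q (F := F)
  have hmf : m ≤ f := by
    have h3 : QQ q F ^ m ≤ QQ q F ^ f := by
      have : 1 ≤ QQ q F ^ m := Nat.one_le_pow _ _ (by omega)
      rw [← hQ]; omega
    exact (Nat.pow_le_pow_iff_right (by omega)).1 h3
  obtain ⟨πF, hπF⟩ := exists_isUnif q (F := F)
  obtain ⟨πE, hπE⟩ := exists_isUnif q (F := F⟮ζ⟯)
  have hnm : nm q (algebraMap F F⟮ζ⟯ πF) = nm q πF := nm_algebraMap q πF
  obtain ⟨e, he⟩ := hπE.exists_pow_of_le (x := algebraMap F F⟮ζ⟯ πF)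
    (by rw [Ne, map_eq_zero]; exact hπF.ne_zero) (by rw [hnm]; exact hπF.1.le)
  rw [hnm] at he
  have hef := ef_eq q hπF hπE he hQ
  have he0 : e ≠ 0 := by
    intro h0
    rw [h0, pow_zero] at he
    exact absurd he hπF.1.ne
  have he1 : e = 1 := by
    have h3 : e * f ≤ 1 * f := by rw [one_mul, hef]; exact hle.trans hmf
    have := Nat.le_of_mul_le_mul_right h3 hf
    omega
  rw [he1, one_mul] at hef
  rw [he1, pow_one] at he
  refine ⟨le_antisymm hle (hef ▸ hmf), fun x => ?_⟩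
  by_cases hx : x = 0
  · exact ⟨0, by rw [hx, nm_zero, nm_zero]⟩
  · obtain ⟨k, hk⟩ := hπE.exists_zpow hx
    exact ⟨πF ^ k, by rw [hk, nm_zpow, he]⟩

include hm hζ in
/-- (U3) the Frobenius exists. -/
theorem unram_exists_frob [IsGalois F M] : ∃ σ : M ≃ₐ[F] M, σ ζ = ζ ^ QQ q F := by
  classical
  haveI : FiniteDimensional F M := FiniteDimensional.right ℚ_[q] F M
  have hcard : ((minpoly F ζ).rootSet M).toFinset.card = m := by
    rw [Set.toFinset_card, U3_card_rootSet ζ, (U3_main q m hm ζ hζ).1]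
  have hsub := U3_toFinset_subset q m hm ζ hζ
  have heq := Finset.eq_of_subset_of_card_le hsub (by
    rw [hcard]
    exact Finset.card_image_le.trans (Finset.card_range m).le)
  have hmem : ζ ^ QQ q F ∈ ((minpoly F ζ).rootSet M).toFinset := by
    rw [heq, Finset.mem_image]
    refine ⟨1 % m, Finset.mem_range.2 (Nat.mod_lt _ hm), ?_⟩
    rw [← U3_pow_mod q m ζ hζ, pow_one]
  rw [Set.mem_toFinset, mem_rootSet] at hmem
  exact minpoly.exists_algEquiv_of_root' (Algebra.IsAlgebraic.isAlgebraic ζ) hmem.2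

include hm hζ in
/-- (U3) `F(ζ)/F` is unramified. -/
theorem unram_nm [IsGalois F M] (x : M)
    (hx : ∀ τ : M ≃ₐ[F] M, τ ζ = ζ → τ x = x) : ∃ y : F, nm q x = nm q y := by
  haveI : FiniteDimensional F M := FiniteDimensional.right ℚ_[q] F M
  have hxE : x ∈ F⟮ζ⟯ := by
    rw [← IsGalois.fixedField_fixingSubgroup F⟮ζ⟯, IntermediateField.mem_fixedField_iff]
    intro τ hτ
    apply hx
    exact (IntermediateField.mem_fixingSubgroup_iff _ _).1 hτ ζ (mem_adjoin_simple_self F ζ)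
  obtain ⟨y, hy⟩ := (U3_main q m hm ζ hζ).2 ⟨x, hxE⟩
  exact ⟨y, by rw [← hy, ← IF_nm q F⟮ζ⟯ ⟨x, hxE⟩]⟩

end

end Fermat.Agent.S55Lib
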