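import Fermat.Agent.S55.L.InfResNF

/-!
# S55 chapter L, leaf (C4): inflation-restriction in degree 2 for `π : G ↠ Q`, `ι : B ≅ A^N`
-/

set_option autoImplicit false
set_option linter.unusedSectionVars false
set_option linter.unusedVariables false

namespace Fermat.Agent.S55Lib

open groupCohomology

variable {G : Type*} [Group G] {A : Type*} [AddCommGroup A] [DistribMulAction G A]

/-- (C4) exactness of `H²(Q,B) → H²(G,A) → H²(N,A)` for `π : G ↠ Q`,
`N = ker π`, `ι : B ≅ A^N`, when `H¹(N,A) = 0`. -/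
theorem infRes_descend {Q : Type*} [Group Q] {B : Type*} [AddCommGroup B] [DistribMulAction Q B]
    (π : G →* Q) (hπ : Function.Surjective π) (ι : B →+ A) (hι : Function.Injective ι)
    (hcomp : ∀ (g : G) (b : B), ι (π g • b) = g • ι b)
    (himg : ∀ a : A, (∀ ν ∈ π.ker, ν • a = a) → ∃ b, ι b = a)
    (h1 : ∀ f : π.ker → A, IsCocycle₁ f → IsCoboundary₁ f)
    (c : G × G → A) (hc : IsCocycle₂ c) (hres : IsCoboundary₂ (resC π.ker c)) :
    ∃ u : Q × Q → B, IsCocycle₂ u ∧ IsCoboundary₂ (c - fun x : G × G => ι (u (π x.1, π x.2))) := by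
  obtain ⟨c', hc', hcc', hinv⟩ := infRes_normalForm π.ker h1 c hc hres
  have hβ : ∀ g h : G, ∃ b, ι b = c' (g, h) := fun g h =>
    himg _ fun ν hν => (hinv g h ν hν).2.2
  choose β hβ using hβ
  obtain ⟨t, ht⟩ := hπ.hasRightInverse
  have hinv2 : ∀ g g' h h' : G, π g = π g' → π h = π h' → c' (g, h) = c' (g', h') := by
    intro g g' h h' hg hh
    have e1 : g' = g * (g⁻¹ * g') := by group
    have e2 : h' = h * (h⁻¹ * h') := by group
    have m1 : g⁻¹ * g' ∈ π.ker := by rw [MonoidHom.mem_ker, map_mul, map_inv, hg]; group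
    have m2 : h⁻¹ * h' ∈ π.ker := by rw [MonoidHom.mem_ker, map_mul, map_inv, hh]; group
    rw [e1, e2, (hinv g _ _ m1).1, (hinv g h _ m2).2.1]
  let u : Q × Q → B := fun x => β (t x.1) (t x.2)
  have key : ∀ g h : G, ι (u (π g, π h)) = c' (g, h) := by
    intro g h
    show ι (β (t (π g)) (t (π h))) = c' (g, h)
    rw [hβ]
    exact hinv2 _ _ _ _ (ht _) (ht _)
  refine ⟨u, ?_, ?_⟩
  · intro x y z
    obtain ⟨g, rfl⟩ := hπ x
    obtain ⟨h, rfl⟩ := hπ y
    obtain ⟨j, rfl⟩ := hπ z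
    apply hι
    rw [map_add, map_add, hcomp, ← map_mul, ← map_mul, key, key, key, key]
    exact hc' g h j
  · have : (fun x : G × G => ι (u (π x.1, π x.2))) = c' := by
      funext x
      exact key x.1 x.2
    rw [this]
    exact hcc'

/-- (C4) injectivity of inflation in degree 2 (same data). -/
theorem inf_injective {Q : Type*} [Group Q] {B : Type*} [AddCommGroup B] [DistribMulAction Q B]
    (π : G →* Q) (hπ : Function.Surjective π) (ι : B →+ A) (hι : Function.Injective ι)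
    (hcomp : ∀ (g : G) (b : B), ι (π g • b) = g • ι b)
    (himg : ∀ a : A, (∀ ν ∈ π.ker, ν • a = a) → ∃ b, ι b = a)
    (h1 : ∀ f : π.ker → A, IsCocycle₁ f → IsCoboundary₁ f)
    (u : Q × Q → B) (hu : IsCocycle₂ u)
    (hb : IsCoboundary₂ (fun x : G × G => ι (u (π x.1, π x.2)))) : IsCoboundary₂ u := by
  obtain ⟨b, hb⟩ := hb
  replace hb : ∀ g h : G, g • b h - b (g * h) + b g = ι (u (π g, π h)) := hb
  obtain ⟨a0, ha0⟩ : ∃ a0, a0 = ι (u (1, 1)) := ⟨_, rfl⟩
  have hker : ∀ ν ∈ π.ker, π ν = 1 := fun ν hν => hν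
  have ha0N : ∀ ν ∈ π.ker, ν • a0 = a0 := by
    intro ν hν
    rw [ha0, ← hcomp, hker ν hν, one_smul]
  have hu1 : ∀ x : Q, u (x, 1) = x • u (1, 1) := by
    intro x
    have := hu x 1 1
    rw [mul_one, mul_one] at this
    exact add_right_cancel this
  have hu2 : ∀ x : Q, u (1, x) = u (1, 1) := by
    intro x
    have := hu 1 1 x
    rw [mul_one, one_mul, one_smul] at this
    exact (add_left_cancel this).symm
  -- the cocycle on the kernel
  have hcoc : IsCocycle₁ (fun ν : π.ker => b (ν : G) - a0) := by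
    intro ν ν'
    have := hb (ν : G) (ν' : G)
    simp only [hker _ ν.2, hker _ ν'.2, ← ha0] at this
    show b ((ν : G) * (ν' : G)) - a0 = (ν : G) • (b (ν' : G) - a0) + (b (ν : G) - a0)
    rw [smul_sub, ha0N _ ν.2]
    have e : b ((ν : G) * (ν' : G)) = (ν : G) • b (ν' : G) + b (ν : G) - a0 := by
      rw [← this]; abel
    rw [e]; abel
  obtain ⟨y, hy⟩ := h1 _ hcoc
  have hy' : ∀ ν ∈ π.ker, ν • y - y = b ν - a0 := fun ν hν => hy ⟨ν, hν⟩
  let b2 : G → A := fun g => b g - (g • y - y)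
  have hb2 : ∀ g h : G, g • b2 h - b2 (g * h) + b2 g = ι (u (π g, π h)) := by
    intro g h
    rw [← hb g h]
    simp only [b2, smul_sub, mul_smul]
    abel
  have hb2N : ∀ ν ∈ π.ker, b2 ν = a0 := by
    intro ν hν
    simp only [b2, hy' ν hν]
    abel
  have hr : ∀ g : G, ∀ ν ∈ π.ker, b2 (g * ν) = b2 g := by
    intro g ν hν
    have := hb2 g ν
    rw [hker ν hν, hu1, hcomp, ← ha0, hb2N ν hν] at this
    have e : b2 (g * ν) = g • a0 + b2 g - g • a0 := by
      nth_rewrite 2 [← this]; abel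
    rw [e]; abel
  have hl : ∀ g : G, ∀ ν ∈ π.ker, ν • b2 g = b2 g := by
    intro g ν hν
    have := hb2 ν g
    rw [hker ν hν, hu2, ← ha0, hb2N ν hν] at this
    have e : ν • b2 g = b2 (ν * g) := by
      have h3 : ν • b2 g - b2 (ν * g) = 0 := add_right_cancel (b := a0) (by rw [this, zero_add])
      exact sub_eq_zero.1 h3
    rw [e]
    have e2 : ν * g = g * (g⁻¹ * ν * g) := by group
    rw [e2]
    refine hr g _ ?_
    rw [MonoidHom.mem_ker, map_mul, map_mul, hker ν hν, map_inv]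
    group
  have hβ : ∀ g : G, ∃ w, ι w = b2 g := fun g => himg _ (hl g)
  choose β hβ using hβ
  obtain ⟨t, ht⟩ := hπ.hasRightInverse
  have key : ∀ g : G, ι (β (t (π g))) = b2 g := by
    intro g
    rw [hβ]
    have e1 : t (π g) = g * (g⁻¹ * t (π g)) := by group
    rw [e1]
    refine hr g _ ?_
    rw [MonoidHom.mem_ker, map_mul, map_inv, ht]
    group
  refine ⟨fun x => β (t x), fun x y => ?_⟩
  obtain ⟨g, rfl⟩ := hπ x
  obtain ⟨h, rfl⟩ := hπ y
  apply hι
  rw [map_add, map_sub, hcomp, ← map_mul, key, key, key]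
  exact hb2 g h

end Fermat.Agent.S55Lib
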