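import Fermat.Agent.S55.L.Defs

/-!
# S55 chapter L, leaf (C6): class module from the devissage bound and the order of `res u`
-/

set_option autoImplicit false
set_option linter.unusedSectionVars false
set_option linter.unusedVariables false

namespace Fermat.Agent.S55Lib

open groupCohomology

variable {G : Type*} [Group G] {A : Type*} [AddCommGroup A] [DistribMulAction G A]

lemma C6_resC_isCocycle₂ (H : Subgroup G) {u : G × G → A} (hu : IsCocycle₂ u) :
    IsCocycle₂ (resC H u) := fun g h j => hu (g : G) (h : G) (j : G)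

/-- (C6) class module from the devissage bound and the order of `res u`. -/
theorem isClassModule_of_ord (p : ℕ) [Fact p.Prime] [Finite G] (u : G × G → A)
    (hu : IsCocycle₂ u)
    (hdev : ∀ H : Subgroup G, IsPGroup p H →
      (∀ f : H → A, IsCocycle₁ f → IsCoboundary₁ f) ∧
      (Finite (H2 H A) ∧ Nat.card (H2 H A) ≤ Nat.card H))
    (hord : ∀ H : Subgroup G, IsPGroup p H → ∀ k : ℤ,
      IsCoboundary₂ (k • resC H u) → (Nat.card H : ℤ) ∣ k) :
    IsClassModule p G A u := by
  refine ⟨hu, fun H hH => (hdev H hH).1, ?_, fun H hH k hk => hord H hH k hk⟩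
  intro H hH f hf
  obtain ⟨-, hfin, hcard⟩ := hdev H hH
  let z : Z2 H A := ⟨resC H u, C6_resC_isCocycle₂ H hu⟩
  let x : H2 H A := H2.mk z
  have hsm : ∀ k : ℤ, k • x = H2.mk (k • z) := fun k => rfl
  have hx : ∀ k : ℤ, k • x = 0 → (Nat.card H : ℤ) ∣ k := by
    intro k hk
    rw [hsm, H2.mk_eq_zero] at hk
    exact hord H hH k hk
  have hpos : 0 < addOrderOf x := addOrderOf_pos x
  have hdvd : Nat.card H ∣ addOrderOf x := by
    have := hx (addOrderOf x : ℤ) (by rw [natCast_zsmul, addOrderOf_nsmul_eq_zero])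
    exact_mod_cast this
  have hle : Nat.card H ≤ addOrderOf x := Nat.le_of_dvd hpos hdvd
  have htop : AddSubgroup.zmultiples x = ⊤ := by
    apply AddSubgroup.eq_top_of_le_card
    rw [Nat.card_zmultiples]
    exact hcard.trans hle
  have hmem : H2.mk (⟨f, hf⟩ : Z2 H A) ∈ AddSubgroup.zmultiples x := by rw [htop]; trivial
  obtain ⟨k, hk⟩ := AddSubgroup.mem_zmultiples_iff.1 hmem
  refine ⟨k, ?_⟩
  have h0 : H2.mk ((⟨f, hf⟩ : Z2 H A) - k • z) = 0 := by
    have : H2.mk ((⟨f, hf⟩ : Z2 H A) - k • z) = H2.mk (⟨f, hf⟩ : Z2 H A) - k • x := rfl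
    rw [this, hk, sub_self]
  rw [H2.mk_eq_zero] at h0
  exact h0

end Fermat.Agent.S55Lib
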