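import Fermat.Agent.S55.T.Devissage

/-!
# S55 chapter L, leaf (G3), abstract part: Hilbert 90 for a cyclic layer, characters of index `p`
-/

set_option autoImplicit false
set_option linter.unusedSectionVars false
set_option linter.unusedVariables false

namespace Fermat.Agent.S55Lib

open groupCohomology

/-- `H¹(P,C) = 0` implies Hilbert 90 for the cyclic quotient `P / ker χ`. -/
theorem G3_h90 (p : ℕ) [Fact p.Prime] {P : Type} [Group P] {C : Type} [AddCommGroup C]
    [DistribMulAction P C] (χ : P →* Multiplicative (ZMod p)) (s : P)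
    (hs : Multiplicative.toAdd (χ s) = ((1 : ℕ) : ZMod p))
    (h1 : ∀ f : P → C, IsCocycle₁ f → IsCoboundary₁ f)
    (c : C) (hc : ∀ ν ∈ χ.ker, ν • c = c) (hN : ∑ i ∈ Finset.range p, s ^ i • c = 0) :
    ∃ d : C, (∀ ν ∈ χ.ker, ν • d = d) ∧ c = s • d - d := by
  have hpp : p.Prime := Fact.out
  have hfix : ∀ j : ℕ, ∀ ν ∈ χ.ker, ν • (s ^ j • c) = s ^ j • c := by
    intro j ν hν
    have hn : (s ^ j)⁻¹ * ν * s ^ j ∈ χ.ker := by
      have := (inferInstance : χ.ker.Normal).conj_mem ν hν (s ^ j)⁻¹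
      simpa using this
    calc ν • (s ^ j • c) = s ^ j • (((s ^ j)⁻¹ * ν * s ^ j) • c) := by
          simp only [smul_smul]; congr 1; group
      _ = s ^ j • c := by rw [hc _ hn]
  obtain ⟨X, hX⟩ : ∃ X : ℕ → C, ∀ k, X k = ∑ j ∈ Finset.range k, s ^ j • c := ⟨_, fun _ => rfl⟩
  have hXfix : ∀ k, ∀ ν ∈ χ.ker, ν • X k = X k := by
    intro k ν hν
    rw [hX, Finset.smul_sum]
    exact Finset.sum_congr rfl fun j _ => hfix j ν hν
  have hsm : ∀ (g : P) (y : C), (∀ ν ∈ χ.ker, ν • y = y) → g • y = s ^ cycVal p χ g • y := by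
    intro g y hy
    have e1 : g = s ^ cycVal p χ g * ((s ^ cycVal p χ g)⁻¹ * g) := by group
    conv_lhs => rw [e1, mul_smul, hy _ (DV_dec p χ s hs g)]
  have hXadd : ∀ a b, X (a + b) = X a + s ^ a • X b := by
    intro a b
    rw [hX, hX, hX, Finset.sum_range_add, Finset.smul_sum]
    congr 1
    exact Finset.sum_congr rfl fun j _ => by rw [pow_add, mul_smul]
  have hXp : ∀ k, X (p + k) = X k := by
    intro k
    rw [hXadd, hX p, hN, zero_add]
    exact hXfix k _ (C2_pow_m_mem p χ p 1 (mul_one p) s hs)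
  have hXmod : ∀ a b, a < p → b < p → X ((a + b) % p) = X (a + b) := by
    intro a b ha hb
    rw [C1_mod p a b ha hb]
    split_ifs with h
    · conv_rhs => rw [show a + b = p + (a + b - p) by omega, hXp]
    · rfl
  have hcoc : IsCocycle₁ (fun g => X (cycVal p χ g)) := by
    intro g h
    show X (cycVal p χ (g * h)) = g • X (cycVal p χ h) + X (cycVal p χ g)
    rw [cycVal_mul, hXmod _ _ (cycVal_lt p χ g) (cycVal_lt p χ h), hXadd,
      hsm g _ (hXfix _), add_comm]
  obtain ⟨d, hd⟩ := h1 _ hcoc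
  refine ⟨d, fun ν hν => ?_, ?_⟩
  · have := hd ν
    simp only [(C2_mem_ker_iff p χ ν).1 hν] at this
    rw [hX 0, Finset.sum_range_zero, sub_eq_zero] at this
    exact this
  · have := hd s
    have h1' : cycVal p χ s = 1 := by
      have := C2_cycVal_pow_of_lt p χ p 1 (mul_one p) s hs hpp.one_lt
      rwa [pow_one, mul_one] at this
    simp only [h1'] at this
    rw [hX 1, Finset.sum_range_one, pow_zero, one_smul] at this
    exact this.symm

/-- a character with prescribed kernel of index `p` and value `1` at a prescribed element -/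
theorem G3_exists_chi (p : ℕ) [Fact p.Prime] {P : Type*} [Group P] (N : Subgroup P) [N.Normal]
    (hidx : N.index = p) (s : P) (hs : s ∉ N) :
    ∃ χ : P →* Multiplicative (ZMod p), χ.ker = N ∧
      Multiplicative.toAdd (χ s) = ((1 : ℕ) : ZMod p) := by
  have hq : Nat.card (P ⧸ N) = p := hidx
  have hz : Nat.card (Multiplicative (ZMod p)) = p := by
    rw [Nat.card_eq_fintype_card]
    simp [ZMod.card]
  let e : P ⧸ N ≃* Multiplicative (ZMod p) := mulEquivOfPrimeCardEq hq hz
  let χ₀ : P →* Multiplicative (ZMod p) := e.toMonoidHom.comp (QuotientGroup.mk' N)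
  have hχ₀ : ∀ x, χ₀ x = 1 ↔ x ∈ N := by
    intro x
    show e (QuotientGroup.mk' N x) = 1 ↔ _
    rw [map_eq_one_iff e e.injective]
    exact QuotientGroup.eq_one_iff x
  set a : ZMod p := Multiplicative.toAdd (χ₀ s) with ha
  have ha0 : a ≠ 0 := by
    intro h0
    exact hs ((hχ₀ s).1 (Multiplicative.toAdd.injective h0))
  let χ : P →* Multiplicative (ZMod p) :=
    (AddMonoidHom.toMultiplicative (AddMonoidHom.mulLeft a⁻¹)).comp χ₀
  have hχ : ∀ x, Multiplicative.toAdd (χ x) = a⁻¹ * Multiplicative.toAdd (χ₀ x) := fun x => rfl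
  refine ⟨χ, ?_, ?_⟩
  · ext x
    rw [MonoidHom.mem_ker, ← hχ₀ x]
    constructor
    · intro h
      have h2 : a⁻¹ * Multiplicative.toAdd (χ₀ x) = 0 := by rw [← hχ, h]; rfl
      rcases mul_eq_zero.1 h2 with h3 | h3
      · exact absurd h3 (inv_ne_zero ha0)
      · exact Multiplicative.toAdd.injective h3
    · intro h
      apply Multiplicative.toAdd.injective
      rw [hχ, h]
      simp
  · rw [hχ, ← ha, inv_mul_cancel₀ ha0]
    simp

end Fermat.Agent.S55Lib
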