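import Fermat.Agent.S55.L.Unram

/-!
# S55 chapter L, leaf (U9): the unramified character
-/

set_option autoImplicit false
set_option linter.unusedSectionVars false
set_option linter.unusedVariables false
set_option linter.style.haveILetI false

namespace Fermat.Agent.S55Lib

variable (q : ℕ) [Fact q.Prime]
variable {F : Type*} [Field F] [Algebra ℚ_[q] F] [FiniteDimensional ℚ_[q] F]
variable {M : Type*} [Field M] [Algebra ℚ_[q] M] [FiniteDimensional ℚ_[q] M] [Algebra F M]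
  [IsScalarTower ℚ_[q] F M]

/-- (U9) -/
theorem QQ_pow_inj_mod (n : ℕ) [NeZero n] (ζ : M) (hζ : IsPrimitiveRoot ζ (QQ q F ^ n - 1))
    (i j : ℕ) (h : ζ ^ (QQ q F ^ i) = ζ ^ (QQ q F ^ j)) : (i : ZMod n) = (j : ZMod n) := by
  have hn : 0 < n := Nat.pos_of_ne_zero (NeZero.ne n)
  have hQ := U3_two_le_QQ q (F := F)
  rw [ZMod.natCast_eq_natCast_iff']
  rcases Nat.eq_or_lt_of_le (Nat.succ_le_of_lt hn) with h1 | h1
  · rw [← h1]; simp [Nat.mod_one]
  rw [U3_pow_mod q n ζ hζ i, U3_pow_mod q n ζ hζ j] at h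
  have hlt : ∀ a < n, QQ q F ^ a < QQ q F ^ n - 1 := by
    intro a ha
    have h2 : QQ q F ^ a ≤ QQ q F ^ (n - 1) := Nat.pow_le_pow_right (by omega) (by omega)
    have h3 : QQ q F ^ n = QQ q F * QQ q F ^ (n - 1) := by
      rw [← pow_succ']; congr 1; omega
    have h4 : 2 ≤ QQ q F ^ (n - 1) := by
      calc 2 ≤ QQ q F := hQ
        _ = QQ q F ^ 1 := (pow_one _).symm
        _ ≤ QQ q F ^ (n - 1) := Nat.pow_le_pow_right (by omega) (by omega)
    have h5 : 2 * QQ q F ^ (n - 1) ≤ QQ q F * QQ q F ^ (n - 1) := Nat.mul_le_mul_right _ hQ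
    omega
  have h6 := hζ.pow_inj (hlt _ (Nat.mod_lt i hn)) (hlt _ (Nat.mod_lt j hn)) h
  exact Nat.pow_right_injective hQ h6

/-- (U9) the unramified character. -/
theorem exists_chi [IsGalois F M] (n : ℕ) [NeZero n] (ζ : M)
    (hζ : IsPrimitiveRoot ζ (QQ q F ^ n - 1)) :
    ∃ χ : (M ≃ₐ[F] M) →* Multiplicative (ZMod n), Function.Surjective χ ∧
      ∀ σ, σ ζ = ζ ^ (QQ q F ^ (Multiplicative.toAdd (χ σ)).val) := by
  have hn : 0 < n := Nat.pos_of_ne_zero (NeZero.ne n)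
  have hN := not_dvd_QQ_pow_sub_one q (F := F) n hn
  have hex : ∀ σ : M ≃ₐ[F] M, ∃ i : ℕ, σ ζ = ζ ^ (QQ q F ^ i) :=
    fun σ => exists_frob_pow q σ hN hζ.pow_eq_one
  choose I hI using hex
  let χ : (M ≃ₐ[F] M) →* Multiplicative (ZMod n) :=
    { toFun := fun σ => Multiplicative.ofAdd ((I σ : ℕ) : ZMod n)
      map_one' := by
        have : ((I 1 : ℕ) : ZMod n) = ((0 : ℕ) : ZMod n) := by
          apply QQ_pow_inj_mod q n ζ hζ
          rw [← hI 1, pow_zero, pow_one]; rfl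
        rw [this]; simp
      map_mul' := by
        intro σ τ
        have : ((I (σ * τ) : ℕ) : ZMod n) = ((I σ + I τ : ℕ) : ZMod n) := by
          apply QQ_pow_inj_mod q n ζ hζ
          rw [← hI (σ * τ), AlgEquiv.mul_apply, hI τ, map_pow, hI σ, ← pow_mul, ← pow_add]
        rw [this, Nat.cast_add, ofAdd_add] }
  have hχ : ∀ σ, Multiplicative.toAdd (χ σ) = ((I σ : ℕ) : ZMod n) := fun σ => rfl
  refine ⟨χ, ?_, ?_⟩
  · obtain ⟨σ₀, hσ₀⟩ := unram_exists_frob q n hn ζ hζ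
    have h1 : Multiplicative.toAdd (χ σ₀) = ((1 : ℕ) : ZMod n) := by
      rw [hχ]
      apply QQ_pow_inj_mod q n ζ hζ
      rw [← hI σ₀, hσ₀, pow_one]
    intro x
    refine ⟨σ₀ ^ (Multiplicative.toAdd x).val, ?_⟩
    apply Multiplicative.toAdd.injective
    rw [map_pow, toAdd_pow, h1, nsmul_eq_mul, Nat.cast_one, mul_one, ZMod.natCast_zmod_val]
  · intro σ
    rw [hχ, ZMod.val_natCast, ← U3_pow_mod q n ζ hζ]
    exact hI σ

end Fermat.Agent.S55Lib
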