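import Fermat.Agent.S55.L.Defs

/-!
# S55 chapter L, leaf (N7): the unit filtration is complete and separated
-/

set_option autoImplicit false
set_option linter.unusedSectionVars false
set_option linter.unusedVariables false

namespace Fermat.Agent.S55Lib

open groupCohomology IntermediateField

variable (q : ℕ) [Fact q.Prime]
variable {F : Type*} [Field F] [Algebra ℚ_[q] F] [FiniteDimensional ℚ_[q] F]

/-- completeness of `F` for `nm`, ultrametric form: a sequence with
`nm (P (k+1) - P k) ≤ C * r ^ k`, `r < 1`, has a limit `x` with `nm (x - P k) ≤ C * r ^ k`. -/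
lemma N7_exists_limit (P : ℕ → F) (C r : ℝ) (hC : 0 ≤ C) (hr0 : 0 ≤ r) (hr : r < 1)
    (hP : ∀ k, nm q (P (k + 1) - P k) ≤ C * r ^ k) :
    ∃ x : F, ∀ k, nm q (x - P k) ≤ C * r ^ k := by
  let _ : NormedField F := spectralNorm.normedField ℚ_[q] F
  have hcomp : CompleteSpace F := spectralNorm.completeSpace ℚ_[q] F
  have hnorm : ∀ x : F, ‖x‖ = nm q x := fun x => rfl
  have hcau : CauchySeq P := by
    apply cauchySeq_of_le_geometric r C hr
    intro k
    rw [dist_eq_norm, hnorm, nm_sub_comm]
    exact hP k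
  obtain ⟨x, hx⟩ := cauchySeq_tendsto_of_complete hcau
  refine ⟨x, fun k => ?_⟩
  have hbound : ∀ j, nm q (P (k + j) - P k) ≤ C * r ^ k := by
    intro j
    induction j with
    | zero =>
      rw [add_zero, sub_self, nm_zero]
      positivity
    | succ j ih =>
      have h1 : P (k + (j + 1)) - P k = (P (k + j + 1) - P (k + j)) + (P (k + j) - P k) := by
        rw [← add_assoc]; ring
      rw [h1]
      refine (nm_add_le q _ _).trans (max_le ((hP (k + j)).trans ?_) ih)
      exact mul_le_mul_of_nonneg_left (pow_le_pow_of_le_one hr0 hr.le (Nat.le_add_right k j)) hC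
  have ht : Filter.Tendsto (fun j => ‖P (k + j) - P k‖) Filter.atTop (nhds ‖x - P k‖) := by
    have h2 : Filter.Tendsto (fun j => P (k + j)) Filter.atTop (nhds x) := by
      have := (Filter.tendsto_add_atTop_iff_nat k).2 hx
      simpa [add_comm] using this
    exact (h2.sub_const (P k)).norm
  exact le_of_tendsto' ht hbound

/-- (N7) S55/L/Complete.lean : the unit filtration is complete and separated. -/
theorem UU_complete {π : F} (hπ : nm q π < 1) (n : ℕ) (a : ℕ → Fˣ)
    (ha : ∀ i, a i ∈ UU q π (n + i)) :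
    ∃ x ∈ UU q π n, ∀ k, x / ∏ i ∈ Finset.range k, a i ∈ UU q π (n + k) := by
  have hr0 : 0 ≤ nm q π := nm_nonneg q π
  set P : ℕ → F := fun k => ∏ i ∈ Finset.range k, (a i : F) with hPdef
  have hP1 : ∀ k, nm q (P k) = 1 := by
    intro k
    rw [hPdef]
    simp only
    rw [nm_prod]
    exact Finset.prod_eq_one fun i _ => (ha i).1
  have hstep : ∀ k, nm q (P (k + 1) - P k) ≤ nm q π ^ n * nm q π ^ k := by
    intro k
    have h1 : P (k + 1) - P k = P k * ((a k : F) - 1) := by
      simp only [hPdef, Finset.prod_range_succ]; ring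
    rw [h1, nm_mul, hP1, one_mul, ← pow_add]
    exact (ha k).2
  obtain ⟨x, hx⟩ := N7_exists_limit q P (nm q π ^ n) (nm q π) (pow_nonneg hr0 n) hr0 hπ hstep
  have hx1 : nm q x = 1 := by
    have h1 : nm q (x - P 1) < nm q (P 1) := by
      rw [hP1]
      refine (hx 1).trans_lt ?_
      rw [pow_one]
      exact mul_lt_one_of_nonneg_of_lt_one_right (pow_le_one₀ hr0 hπ.le) hr0 hπ
    have h2 := nm_add_eq_of_lt q h1
    rw [add_sub_cancel, hP1] at h2
    exact h2
  have hx0 : x ≠ 0 := by
    intro h0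
    rw [h0, nm_zero] at hx1
    exact zero_ne_one hx1
  have hk : ∀ k, Units.mk0 x hx0 / ∏ i ∈ Finset.range k, a i ∈ UU q π (n + k) := by
    intro k
    have hPk0 : P k ≠ 0 := by
      intro h0
      have := hP1 k
      rw [h0, nm_zero] at this
      exact zero_ne_one this
    have hval : ((Units.mk0 x hx0 / ∏ i ∈ Finset.range k, a i : Fˣ) : F) = x / P k := by
      rw [Units.val_div_eq_div_val, Units.val_mk0, Units.coe_prod]
    rw [mem_UU, hval]
    refine ⟨by rw [nm_div, hx1, hP1, div_one], ?_⟩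
    have h3 : x / P k - 1 = (x - P k) / P k := by
      field_simp
    rw [h3, nm_div, hP1, div_one, pow_add]
    exact hx k
  refine ⟨Units.mk0 x hx0, ?_, hk⟩
  have := hk 0
  simpa using this

/-- (N7) -/
theorem UU_sep {π : F} (hπ : nm q π < 1) (y : Fˣ) (hy : ∀ i, y ∈ UU q π i) : y = 1 := by
  have ht : Filter.Tendsto (fun i : ℕ => nm q π ^ i) Filter.atTop (nhds 0) :=
    tendsto_pow_atTop_nhds_zero_of_lt_one (nm_nonneg q π) hπ
  have h1 : nm q ((y : F) - 1) ≤ 0 := ge_of_tendsto' ht fun i => (hy i).2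
  have h2 : nm q ((y : F) - 1) = 0 := le_antisymm h1 (nm_nonneg q _)
  rw [nm_eq_zero, sub_eq_zero] at h2
  exact Units.ext h2

end Fermat.Agent.S55Lib
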