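import Mathlib

/-!
# S55 chapter L, leaf (C7): surjectivity by successive approximation
-/

set_option autoImplicit false

namespace Fermat.Agent.S55Lib

/-- (C7) surjectivity by successive approximation. -/
theorem surj_of_filtered {X Y : Type*} [CommGroup X] [CommGroup Y] (φ : X →* Y)
    (FX : ℕ → Subgroup X) (FY : ℕ → Subgroup Y)
    (hstep : ∀ i, ∀ y ∈ FY i, ∃ x ∈ FX i, y / φ x ∈ FY (i + 1))
    (hmap : ∀ i, ∀ x ∈ FX i, φ x ∈ FY i)
    (hcompl : ∀ a : ℕ → X, (∀ i, a i ∈ FX i) →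
      ∃ x ∈ FX 0, ∀ k, x / ∏ i ∈ Finset.range k, a i ∈ FX k)
    (hsep : ∀ y, (∀ i, y ∈ FY i) → y = 1) :
    ∀ y ∈ FY 0, ∃ x ∈ FX 0, φ x = y := by
  classical
  intro y hy
  -- a choice function for the step
  have hstep' : ∀ i (z : FY i), ∃ x : X, x ∈ FX i ∧ (z : Y) / φ x ∈ FY (i + 1) :=
    fun i z => hstep i z z.2
  choose st hst1 hst2 using hstep'
  -- the sequence of remainders
  let r : (i : ℕ) → FY i := fun i =>
    Nat.rec (motive := fun i => FY i) ⟨y, hy⟩ (fun i z => ⟨(z : Y) / φ (st i z), hst2 i z⟩) i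
  have hr0 : ((r 0 : FY 0) : Y) = y := rfl
  have hrs : ∀ i, ((r (i + 1) : FY (i + 1)) : Y) = (r i : Y) / φ (st i (r i)) := fun i => rfl
  let a : ℕ → X := fun i => st i (r i)
  have ha : ∀ i, a i ∈ FX i := fun i => hst1 i (r i)
  obtain ⟨x, hx0, hx⟩ := hcompl a ha
  have hprod : ∀ k, ((r k : FY k) : Y) = y / φ (∏ i ∈ Finset.range k, a i) := by
    intro k
    induction k with
    | zero => simp [hr0]
    | succ k ih =>
      rw [hrs, ih, Finset.prod_range_succ, map_mul, div_div]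
  refine ⟨x, hx0, ?_⟩
  have : y / φ x = 1 := by
    apply hsep
    intro k
    have h1 : y / φ x = (r k : Y) * (φ (x / ∏ i ∈ Finset.range k, a i))⁻¹ := by
      rw [hprod, map_div, inv_div, div_mul_div_cancel]
    rw [h1]
    exact (FY k).mul_mem (r k).2 ((FY k).inv_mem (hmap k _ (hx k)))
  exact (div_eq_one.1 this).symm

end Fermat.Agent.S55Lib
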