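import Fermat.Agent.S55.L.Defs

/-!
# S55 chapter L, leaf (U6): `∏ (1 + y_i) = 1 + ∑ y_i + O(R²)`
-/

set_option autoImplicit false
set_option linter.unusedSectionVars false
set_option linter.unusedVariables false

namespace Fermat.Agent.S55Lib

variable (q : ℕ) [Fact q.Prime]
variable {F : Type*} [Field F] [Algebra ℚ_[q] F] [FiniteDimensional ℚ_[q] F]

/-- (U6) S55/L/ProdExp.lean : `∏ (1 + y_i) = 1 + ∑ y_i + O(R²)`. -/
theorem nm_prod_one_add_sub {ι : Type*} (s : Finset ι) (y : ι → F) {R : ℝ} (hR0 : 0 ≤ R)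
    (hR : R ≤ 1) (hy : ∀ i ∈ s, nm q (y i) ≤ R) :
    nm q (∏ i ∈ s, (1 + y i) - 1 - ∑ i ∈ s, y i) ≤ R ^ 2 := by
  classical
  induction s using Finset.induction_on with
  | empty =>
    simp only [Finset.prod_empty, Finset.sum_empty, sub_self]
    rw [(nm_eq_zero q).2 rfl]
    positivity
  | insert a s ha ih =>
    have ih' := ih (fun i hi => hy i (Finset.mem_insert_of_mem hi))
    have hya := hy a (Finset.mem_insert_self a s)
    have hS : nm q (∑ i ∈ s, y i) ≤ R :=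
      nm_sum_le q s y hR0 (fun i hi => hy i (Finset.mem_insert_of_mem hi))
    have hR2 : R ^ 2 ≤ R := by nlinarith
    have hP : nm q (∏ i ∈ s, (1 + y i) - 1) ≤ R := by
      have e : ∏ i ∈ s, (1 + y i) - 1 = (∏ i ∈ s, (1 + y i) - 1 - ∑ i ∈ s, y i) + ∑ i ∈ s, y i := by
        ring
      rw [e]
      exact (nm_add_le q _ _).trans (max_le (ih'.trans hR2) hS)
    rw [Finset.prod_insert ha, Finset.sum_insert ha]
    have e : (1 + y a) * ∏ i ∈ s, (1 + y i) - 1 - (y a + ∑ i ∈ s, y i) =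
        (∏ i ∈ s, (1 + y i) - 1 - ∑ i ∈ s, y i) + y a * (∏ i ∈ s, (1 + y i) - 1) := by ring
    rw [e]
    refine (nm_add_le q _ _).trans (max_le ih' ?_)
    rw [nm_mul, pow_two]
    exact mul_le_mul hya hP (nm_nonneg q _) hR0

end Fermat.Agent.S55Lib
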