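import Fermat.Agent.S55.L.UnramTrace
import Fermat.Agent.S55.L.ProdExp
import Fermat.Agent.S55.L.Filtered
import Fermat.Agent.S55.L.Complete

/-!
# S55 chapter L, leaf (U7): units are norms of units in unramified extensions
-/

set_option autoImplicit false
set_option linter.unusedSectionVars false
set_option linter.unusedVariables false
set_option linter.style.haveILetI false

namespace Fermat.Agent.S55Lib

open groupCohomology IntermediateField

section S1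

variable (q : ℕ) [Fact q.Prime]
variable {F : Type*} [Field F] [Algebra ℚ_[q] F] [FiniteDimensional ℚ_[q] F]

variable {M : Type*} [Field M] [Algebra ℚ_[q] M] [FiniteDimensional ℚ_[q] M] [Algebra F M]
  [IsScalarTower ℚ_[q] F M]

/-- the unit filtration of the fixed field of a set of automorphisms -/
noncomputable def U7_Fil (T : Set (M ≃ₐ[F] M)) (π' : M) (i : ℕ) : Subgroup Mˣ where
  carrier := {u | u ∈ UU q π' i ∧ ∀ τ ∈ T, τ (u : M) = u}
  one_mem' := ⟨one_mem _, fun τ _ => by simp⟩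
  mul_mem' := fun {a b} ha hb => ⟨mul_mem ha.1 hb.1, fun τ hτ => by
    rw [Units.val_mul, map_mul, ha.2 τ hτ, hb.2 τ hτ]⟩
  inv_mem' := fun {a} ha => ⟨inv_mem ha.1, fun τ hτ => by
    rw [Units.val_inv_eq_inv_val, map_inv₀, ha.2 τ hτ]⟩

lemma U7_mem_Fil {T : Set (M ≃ₐ[F] M)} {π' : M} {i : ℕ} {u : Mˣ} :
    u ∈ U7_Fil q T π' i ↔ u ∈ UU q π' i ∧ ∀ τ ∈ T, τ (u : M) = u := Iff.rfl

/-- the norm `∏_{i<m} σ^i` -/
noncomputable def U7_N (σ : M ≃ₐ[F] M) (m : ℕ) : Mˣ →* Mˣ :=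
  ∏ i ∈ Finset.range m, Units.map ((σ ^ i : M ≃ₐ[F] M) : M →* M)

lemma U7_N_coe (σ : M ≃ₐ[F] M) (m : ℕ) (u : Mˣ) :
    ((U7_N σ m u : Mˣ) : M) = ∏ i ∈ Finset.range m, (σ ^ i) (u : M) := by
  rw [U7_N, MonoidHom.finsetProd_apply, Units.coe_prod]
  rfl

lemma U7_map_mem_UU (τ : M ≃ₐ[F] M) {π' : M} {i : ℕ} {u : Mˣ} (hu : u ∈ UU q π' i) :
    Units.map (τ : M →* M) u ∈ UU q π' i := by
  refine ⟨?_, ?_⟩
  · show nm q (τ (u : M)) = 1
    rw [nm_algEquiv]; exact hu.1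
  · show nm q (τ (u : M) - 1) ≤ _
    have : τ (u : M) - 1 = τ ((u : M) - 1) := by rw [map_sub, map_one]
    rw [this, nm_algEquiv]; exact hu.2

section Frob

variable (m : ℕ) (hm : 0 < m) (ζ : M) (hζ : IsPrimitiveRoot ζ (QQ q F ^ m - 1))
  (σ : M ≃ₐ[F] M) (hσ : σ ζ = ζ ^ QQ q F)

include hσ in
lemma U7_stab {c : M} (hc : ∀ τ : M ≃ₐ[F] M, τ ζ = ζ → τ c = c) :
    ∀ τ : M ≃ₐ[F] M, τ ζ = ζ → τ (σ c) = σ c := by
  intro τ hτ
  have h1 : (σ⁻¹ * τ * σ) ζ = ζ := by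
    rw [AlgEquiv.mul_apply, AlgEquiv.mul_apply, hσ, map_pow, hτ, ← hσ]
    exact σ.symm_apply_apply ζ
  have h2 := hc _ h1
  rw [AlgEquiv.mul_apply, AlgEquiv.mul_apply] at h2
  have h3 := congrArg σ h2
  rw [← AlgEquiv.mul_apply σ σ⁻¹, mul_inv_cancel, AlgEquiv.one_apply] at h3
  exact h3

include hσ in
lemma U7_stab_pow {c : M} (hc : ∀ τ : M ≃ₐ[F] M, τ ζ = ζ → τ c = c) (i : ℕ) :
    ∀ τ : M ≃ₐ[F] M, τ ζ = ζ → τ ((σ ^ i) c) = (σ ^ i) c := by
  induction i with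
  | zero => simpa using hc
  | succ i ih =>
    rw [pow_succ', AlgEquiv.mul_apply]
    exact U7_stab q ζ σ hσ ih

include hm hζ hσ in
lemma U7_fixed {c : M} (hc : ∀ τ : M ≃ₐ[F] M, τ ζ = ζ → τ c = c) (hσc : σ c = c) :
    ∀ τ : M ≃ₐ[F] M, τ c = c := by
  intro τ
  have hN := not_dvd_QQ_pow_sub_one q (F := F) m hm
  obtain ⟨i, hi⟩ := exists_frob_pow q τ hN hζ.pow_eq_one
  have hpow : ∀ i : ℕ, (σ ^ i) c = c := by
    intro i
    induction i with
    | zero => simp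
    | succ i ih => rw [pow_succ', AlgEquiv.mul_apply, ih, hσc]
  have h1 : ((σ ^ i)⁻¹ * τ) ζ = ζ := by
    rw [AlgEquiv.mul_apply, hi, ← U4_pow_apply (QQ q F) ζ σ hσ i]
    exact (σ ^ i).symm_apply_apply ζ
  have h2 := hc _ h1
  rw [AlgEquiv.mul_apply] at h2
  have h3 := congrArg (σ ^ i) h2
  rw [← AlgEquiv.mul_apply (σ ^ i) (σ ^ i)⁻¹, mul_inv_cancel, AlgEquiv.one_apply, hpow] at h3
  exact h3

include hζ hσ in
lemma U7_pow_m {c : M} (hc : ∀ τ : M ≃ₐ[F] M, τ ζ = ζ → τ c = c) : (σ ^ m) c = c :=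
  hc _ (by rw [U4_pow_apply (QQ q F) ζ σ hσ m, U3_pow_QQ_pow_m q m ζ hζ])

include hm hζ hσ in
lemma U7_prod_fixed {c : M} (hc0 : c ≠ 0) (hc : ∀ τ : M ≃ₐ[F] M, τ ζ = ζ → τ c = c) :
    ∀ τ : M ≃ₐ[F] M, τ (∏ i ∈ Finset.range m, (σ ^ i) c) = ∏ i ∈ Finset.range m, (σ ^ i) c := by
  apply U7_fixed q m hm ζ hζ σ hσ
  · intro τ hτ
    rw [map_prod]
    exact Finset.prod_congr rfl fun i _ => U7_stab_pow q ζ σ hσ hc i τ hτ
  · rw [map_prod]
    have h1 := Finset.prod_range_succ (fun i => (σ ^ i) c) m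
    have h2 := Finset.prod_range_succ' (fun i => (σ ^ i) c) m
    rw [h1] at h2
    simp only [U7_pow_m q m ζ hζ σ hσ hc, pow_zero, AlgEquiv.one_apply] at h2
    have h3 := mul_right_cancel₀ hc0 h2
    rw [h3]
    refine Finset.prod_congr rfl fun i _ => ?_
    rw [pow_succ', AlgEquiv.mul_apply]

include hm hζ hσ in
lemma U7_sum_fixed {c : M} (hc : ∀ τ : M ≃ₐ[F] M, τ ζ = ζ → τ c = c) :
    ∀ τ : M ≃ₐ[F] M, τ (∑ i ∈ Finset.range m, (σ ^ i) c) = ∑ i ∈ Finset.range m, (σ ^ i) c := by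
  apply U7_fixed q m hm ζ hζ σ hσ
  · intro τ hτ
    rw [map_sum]
    exact Finset.sum_congr rfl fun i _ => U7_stab_pow q ζ σ hσ hc i τ hτ
  · rw [map_sum]
    have h1 := Finset.sum_range_succ (fun i => (σ ^ i) c) m
    have h2 := Finset.sum_range_succ' (fun i => (σ ^ i) c) m
    rw [h1] at h2
    simp only [U7_pow_m q m ζ hζ σ hσ hc, pow_zero, AlgEquiv.one_apply] at h2
    have h3 := add_right_cancel h2
    rw [h3]
    refine Finset.sum_congr rfl fun i _ => ?_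
    rw [pow_succ', AlgEquiv.mul_apply]

end Frob

lemma U7_div_sub_one (y w : Mˣ) (hw : nm q (w : M) = 1) :
    nm q (((y / w : Mˣ) : M) - 1) = nm q ((y : M) - w) := by
  have : ((y / w : Mˣ) : M) - 1 = ((y : M) - w) / w := by
    rw [Units.val_div_eq_div_val, sub_div, div_self w.ne_zero]
  rw [this, nm_div, hw, div_one]

/-- (U7) S55/L/UnramUnits.lean : units are norms of units in unramified extensions. -/
theorem unram_units_norm [IsGalois F M] (m : ℕ) (hm : 0 < m) (ζ : M)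
    (hζ : IsPrimitiveRoot ζ (QQ q F ^ m - 1)) (σ : M ≃ₐ[F] M) (hσ : σ ζ = ζ ^ QQ q F)
    (x : F) (hx : nm q x = 1) :
    ∃ b : M, nm q b = 1 ∧ (∀ τ : M ≃ₐ[F] M, τ ζ = ζ → τ b = b) ∧
      algebraMap F M x = ∏ i ∈ Finset.range m, (σ ^ i) b := by
  haveI : FiniteDimensional F M := FiniteDimensional.right ℚ_[q] F M
  have hN : ¬ q ∣ QQ q F ^ m - 1 := not_dvd_QQ_pow_sub_one q m hm
  have hN0 : QQ q F ^ m - 1 ≠ 0 := fun h0 => hN (h0 ▸ dvd_zero q)
  have hnζ : nm q ζ = 1 := U1_nm_eq_one_of_pow q hN0 hζ.pow_eq_one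
  obtain ⟨π, hπ⟩ := exists_isUnif q (F := F)
  set π' : M := algebraMap F M π with hπ'
  have hnπ : nm q π' = nm q π := nm_algebraMap q π
  have hπ1 : nm q π' < 1 := hnπ ▸ hπ.1
  have hπ0 : 0 ≤ nm q π' := nm_nonneg q π'
  let S : Set (M ≃ₐ[F] M) := {τ | τ ζ = ζ}
  have hdesc : ∀ z : M, (∀ τ : M ≃ₐ[F] M, τ z = z) → nm q z < 1 → nm q z ≤ nm q π' := by
    intro z hz hz1
    obtain ⟨z0, rfl⟩ := (IsGalois.mem_range_algebraMap_iff_fixed z).2 hz
    rw [nm_algebraMap] at hz1 ⊢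
    rw [hnπ]; exact hπ.2 z0 hz1
  have hmap : ∀ i, ∀ u ∈ U7_Fil q S π' i, U7_N σ m u ∈ U7_Fil q (Set.univ : Set (M ≃ₐ[F] M)) π' i := by
    intro i u hu
    refine ⟨?_, fun τ _ => ?_⟩
    · rw [U7_N, MonoidHom.finsetProd_apply]
      exact Subgroup.prod_mem _ (fun l _ => U7_map_mem_UU q _ hu.1)
    · rw [U7_N_coe]
      exact U7_prod_fixed q m hm ζ hζ σ hσ u.ne_zero hu.2 τ
  have hsep : ∀ y : Mˣ, (∀ i, y ∈ U7_Fil q (Set.univ : Set (M ≃ₐ[F] M)) π' i) → y = 1 :=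
    fun y hy => UU_sep q hπ1 y (fun i => (hy i).1)
  have hcompl : ∀ a : ℕ → Mˣ, (∀ i, a i ∈ U7_Fil q S π' i) →
      ∃ x ∈ U7_Fil q S π' 0, ∀ k, x / ∏ i ∈ Finset.range k, a i ∈ U7_Fil q S π' k := by
    intro a ha
    obtain ⟨x, hx0, hxk⟩ := UU_complete q hπ1 0 a (fun i => by rw [zero_add]; exact (ha i).1)
    have hxk' : ∀ k, x / ∏ i ∈ Finset.range k, a i ∈ UU q π' k := by
      intro k
      have := hxk k
      rwa [zero_add] at this
    have hP : ∀ τ ∈ S, ∀ k, τ ((∏ i ∈ Finset.range k, a i : Mˣ) : M) =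
        (∏ i ∈ Finset.range k, a i : Mˣ) := by
      intro τ hτ k
      rw [Units.coe_prod, map_prod]
      exact Finset.prod_congr rfl fun i _ => (ha i).2 τ hτ
    have hfix : ∀ τ ∈ S, τ (x : M) = x := by
      intro τ hτ
      have h1 : Units.map (τ : M →* M) x / x = 1 := by
        apply UU_sep q hπ1
        intro k
        have hP' : Units.map (τ : M →* M) (∏ i ∈ Finset.range k, a i) =
            ∏ i ∈ Finset.range k, a i := Units.ext (hP τ hτ k)
        have e : Units.map (τ : M →* M) x / x =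
            Units.map (τ : M →* M) (x / ∏ i ∈ Finset.range k, a i) /
              (x / ∏ i ∈ Finset.range k, a i) := by
          rw [map_div, hP', div_div_div_cancel_right]
        rw [e]
        exact (UU q π' k).div_mem (U7_map_mem_UU q τ (hxk' k)) (hxk' k)
      have h2 := div_eq_one.1 h1
      exact congrArg Units.val h2
    refine ⟨x, ⟨hx0, hfix⟩, fun k => ⟨hxk' k, fun τ hτ => ?_⟩⟩
    rw [Units.val_div_eq_div_val, map_div₀, hfix τ hτ, hP τ hτ k]
  have hstep : ∀ i, ∀ y ∈ U7_Fil q (Set.univ : Set (M ≃ₐ[F] M)) π' i,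
      ∃ u ∈ U7_Fil q S π' i, y / U7_N σ m u ∈ U7_Fil q (Set.univ : Set (M ≃ₐ[F] M)) π' (i + 1) := by
    intro i y hy
    rcases Nat.eq_zero_or_pos i with rfl | hi
    · obtain ⟨x0, hx0⟩ := (IsGalois.mem_range_algebraMap_iff_fixed (y : M)).2
        (fun τ => hy.2 τ trivial)
      have hnx0 : nm q x0 = 1 := by rw [← nm_algebraMap q (E := M) x0, hx0]; exact hy.1.1
      obtain ⟨j, hj⟩ := unram_step_zero q m hm ζ hζ σ hσ x0 hnx0
      have hζj0 : ζ ^ j ≠ 0 := pow_ne_zero j (hζ.ne_zero hN0)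
      have hnζj : nm q (ζ ^ j) = 1 := by rw [nm_pow, hnζ, one_pow]
      have hu : Units.mk0 (ζ ^ j) hζj0 ∈ U7_Fil q S π' 0 := by
        refine ⟨⟨hnζj, ?_⟩, fun τ hτ => ?_⟩
        · rw [pow_zero]
          refine (nm_sub_le q _ _).trans (max_le hnζj.le ?_)
          rw [nm_one]
        · show τ (ζ ^ j) = ζ ^ j
          rw [map_pow, hτ]
      refine ⟨_, hu, ?_⟩
      have hNu := hmap 0 _ hu
      have hdiv := (U7_Fil q (Set.univ : Set (M ≃ₐ[F] M)) π' 0).div_mem hy hNu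
      refine ⟨⟨hdiv.1.1, ?_⟩, hdiv.2⟩
      rw [zero_add, pow_one]
      apply hdesc
      · intro τ
        rw [map_sub, map_one, hdiv.2 τ trivial]
      · rw [U7_div_sub_one q _ _ hNu.1.1, U7_N_coe, ← hx0]
        exact hj
    · set w : M := (y : M) - 1 with hw
      set R : ℝ := nm q π' ^ i with hR
      have hwR : nm q w ≤ R := hy.1.2
      have hwfix : ∀ τ : M ≃ₐ[F] M, τ w = w := by
        intro τ
        rw [hw, map_sub, map_one, hy.2 τ trivial]
      have hR0 : 0 ≤ R := pow_nonneg hπ0 i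
      have hRπ : R ≤ nm q π' := by
        calc R ≤ nm q π' ^ 1 := pow_le_pow_of_le_one hπ0 hπ1.le hi
          _ = nm q π' := pow_one _
      have hR1 : R < 1 := lt_of_le_of_lt hRπ hπ1
      obtain ⟨j, hj⟩ := unram_exists_trace_unit q (F := F) m hm ζ hζ
      set t : M := ζ ^ j with ht
      have hnt : nm q t = 1 := by rw [ht, nm_pow, hnζ, one_pow]
      have htS : ∀ τ : M ≃ₐ[F] M, τ ζ = ζ → τ t = t := by
        intro τ hτ
        rw [ht, map_pow, hτ]
      have hσt : ∀ l : ℕ, (σ ^ l) t = t ^ (QQ q F ^ l) := by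
        intro l
        rw [ht, map_pow, U4_pow_apply (QQ q F) ζ σ hσ l, ← pow_mul, ← pow_mul, mul_comm]
      set s : M := ∑ l ∈ Finset.range m, (σ ^ l) t with hs
      have hns : nm q s = 1 := by
        rw [hs, Finset.sum_congr rfl (fun l _ => hσt l)]
        exact hj
      have hs0 : s ≠ 0 := by
        intro h0
        rw [h0, nm_zero] at hns
        exact zero_ne_one hns
      have hsfix : ∀ τ : M ≃ₐ[F] M, τ s = s := U7_sum_fixed q m hm ζ hζ σ hσ htS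
      have hnc : ∀ l : ℕ, nm q (w / s * (σ ^ l) t) ≤ R := by
        intro l
        rw [nm_mul, nm_div, hns, div_one, nm_algEquiv, hnt, mul_one]
        exact hwR
      have hnc0 : nm q (w / s * t) ≤ R := by simpa using hnc 0
      have hnu : nm q (1 + w / s * t) = 1 := by
        rw [nm_add_eq_of_lt q (by rw [nm_one]; exact lt_of_le_of_lt hnc0 hR1), nm_one]
      have hu0 : 1 + w / s * t ≠ 0 := by
        intro h0
        rw [h0, nm_zero] at hnu
        exact zero_ne_one hnu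
      have hu : Units.mk0 (1 + w / s * t) hu0 ∈ U7_Fil q S π' i := by
        refine ⟨⟨hnu, ?_⟩, fun τ hτ => ?_⟩
        · show nm q (1 + w / s * t - 1) ≤ _
          rw [add_sub_cancel_left]
          exact hnc0
        · show τ (1 + w / s * t) = 1 + w / s * t
          rw [map_add, map_one, map_mul, map_div₀, hwfix, hsfix, htS τ hτ]
      refine ⟨_, hu, ?_⟩
      have hNu := hmap i _ hu
      have hdiv := (U7_Fil q (Set.univ : Set (M ≃ₐ[F] M)) π' i).div_mem hy hNu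
      refine ⟨⟨hdiv.1.1, ?_⟩, hdiv.2⟩
      rw [U7_div_sub_one q _ _ hNu.1.1, U7_N_coe]
      have e1 : ∀ l : ℕ, (σ ^ l) ((Units.mk0 (1 + w / s * t) hu0 : Mˣ) : M) =
          1 + w / s * (σ ^ l) t := by
        intro l
        show (σ ^ l) (1 + w / s * t) = _
        rw [map_add, map_one, map_mul, map_div₀, hwfix, hsfix]
      rw [Finset.prod_congr rfl (fun l _ => e1 l)]
      have h6 := nm_prod_one_add_sub q (Finset.range m) (fun l => w / s * (σ ^ l) t) hR0 hR1.le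
        (fun l _ => hnc l)
      rw [← Finset.mul_sum, ← hs, div_mul_cancel₀ _ hs0] at h6
      have e2 : (y : M) - ∏ l ∈ Finset.range m, (1 + w / s * (σ ^ l) t) =
          -(∏ l ∈ Finset.range m, (1 + w / s * (σ ^ l) t) - 1 - w) := by
        rw [hw]; ring
      rw [e2, nm_neg]
      refine h6.trans ?_
      rw [hR, ← pow_mul]
      exact pow_le_pow_of_le_one hπ0 hπ1.le (by omega)
  have hx0 : algebraMap F M x ≠ 0 := by
    intro h0
    have : nm q (algebraMap F M x) = 1 := by rw [nm_algebraMap, hx]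
    rw [h0, nm_zero] at this
    exact zero_ne_one this
  have hy : Units.mk0 (algebraMap F M x) hx0 ∈ U7_Fil q (Set.univ : Set (M ≃ₐ[F] M)) π' 0 := by
    refine ⟨⟨?_, ?_⟩, fun τ _ => τ.commutes x⟩
    · show nm q (algebraMap F M x) = 1
      rw [nm_algebraMap, hx]
    · show nm q (algebraMap F M x - 1) ≤ _
      rw [pow_zero]
      refine (nm_sub_le q _ _).trans (max_le ?_ ?_)
      · rw [nm_algebraMap, hx]
      · rw [nm_one]
  obtain ⟨b, hb, hbx⟩ := surj_of_filtered (U7_N σ m) (U7_Fil q S π')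
    (U7_Fil q (Set.univ : Set (M ≃ₐ[F] M)) π') hstep hmap hcompl hsep _ hy
  refine ⟨(b : M), hb.1.1, hb.2, ?_⟩
  rw [← U7_N_coe, hbx]
  rfl

end S1

end Fermat.Agent.S55Lib
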