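import Fermat.Agent.S55.L.Teich

/-!
# S55 chapter L, leaf (U2): automorphisms act on prime-to-`q` roots of unity by powers of Frobenius
-/

set_option autoImplicit false
set_option linter.unusedSectionVars false
set_option linter.unusedVariables false

namespace Fermat.Agent.S55Lib

variable (q : ℕ) [Fact q.Prime]

section Functor

variable {F E D : Type*} [Field F] [Algebra ℚ_[q] F] [Algebra.IsAlgebraic ℚ_[q] F]
  [Field E] [Algebra ℚ_[q] E] [Algebra.IsAlgebraic ℚ_[q] E]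
  [Field D] [Algebra ℚ_[q] D] [Algebra.IsAlgebraic ℚ_[q] D]

lemma kk.map_comp_apply (ψ : E →ₐ[ℚ_[q]] D) (φ : F →ₐ[ℚ_[q]] E) (x : kk q F) :
    kk.map q (ψ.comp φ) x = kk.map q ψ (kk.map q φ x) := by
  obtain ⟨x, rfl⟩ := red_surjective q x
  rfl

lemma kk.map_id_apply (x : kk q F) : kk.map q (AlgHom.id ℚ_[q] F) x = x := by
  obtain ⟨x, rfl⟩ := red_surjective q x
  rfl

lemma kk_charP : CharP (kk q F) q := by
  rw [CharP.charP_iff_prime_eq_zero (Fact.out : q.Prime)]
  have h : ((q : OO q F) : F) = (q : F) := by simp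
  have h2 : red q F (q : OO q F) = 0 := by
    rw [red_eq_zero, h, nm_q]
    exact inv_lt_one_of_one_lt₀ (by exact_mod_cast (Fact.out : q.Prime).one_lt)
  rw [← h2, map_natCast]

end Functor

variable {F : Type*} [Field F] [Algebra ℚ_[q] F] [FiniteDimensional ℚ_[q] F]
variable {M : Type*} [Field M] [Algebra ℚ_[q] M] [FiniteDimensional ℚ_[q] M] [Algebra F M]
  [IsScalarTower ℚ_[q] F M]

/-- the action on the residue field is a power of the Frobenius -/
lemma U2_exists_pow (σ : M ≃ₐ[F] M) :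
    ∃ i : ℕ, ∀ x : kk q M,
      kk.map q ((σ.restrictScalars ℚ_[q] : M ≃ₐ[ℚ_[q]] M) : M →ₐ[ℚ_[q]] M) x
        = x ^ (QQ q F ^ i) := by
  haveI : Finite (kk q F) := finite_kk q
  haveI : Finite (kk q M) := finite_kk q
  haveI : CharP (kk q F) q := kk_charP q
  letI : Algebra (kk q F) (kk q M) := (kk.map q (IsScalarTower.toAlgHom ℚ_[q] F M)).toAlgebra
  let s : M →ₐ[ℚ_[q]] M := ((σ.restrictScalars ℚ_[q] : M ≃ₐ[ℚ_[q]] M) : M →ₐ[ℚ_[q]] M)
  let s' : M →ₐ[ℚ_[q]] M := ((σ.symm.restrictScalars ℚ_[q] : M ≃ₐ[ℚ_[q]] M) : M →ₐ[ℚ_[q]] M)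
  have h1 : ∀ x, kk.map q s' (kk.map q s x) = x := by
    intro x
    rw [← kk.map_comp_apply]
    have : s'.comp s = AlgHom.id ℚ_[q] M := by
      ext y; exact σ.symm_apply_apply y
    rw [this, kk.map_id_apply]
  have h2 : ∀ x, kk.map q s (kk.map q s' x) = x := by
    intro x
    rw [← kk.map_comp_apply]
    have : s.comp s' = AlgHom.id ℚ_[q] M := by
      ext y; exact σ.apply_symm_apply y
    rw [this, kk.map_id_apply]
  let g : kk q M ≃ₐ[kk q F] kk q M :=
    { toFun := kk.map q s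
      invFun := kk.map q s'
      left_inv := h1
      right_inv := h2
      map_mul' := map_mul _
      map_add' := map_add _
      commutes' := by
        intro r
        show kk.map q s (kk.map q (IsScalarTower.toAlgHom ℚ_[q] F M) r) =
          kk.map q (IsScalarTower.toAlgHom ℚ_[q] F M) r
        rw [← kk.map_comp_apply]
        congr 2
        ext y
        exact σ.commutes y }
  obtain ⟨i, hi⟩ := FiniteField.exists_forall_apply_eq_pow (kk q F) q (kk q M) g
  exact ⟨i, hi⟩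

/-- (U2) automorphisms act on prime-to-`q` roots of unity by powers of the Frobenius. -/
theorem exists_frob_pow (σ : M ≃ₐ[F] M) {N : ℕ} (hN : ¬ q ∣ N) {ζ : M} (hζ : ζ ^ N = 1) :
    ∃ i : ℕ, σ ζ = ζ ^ (QQ q F ^ i) := by
  have hN0 : N ≠ 0 := fun h0 => hN (h0 ▸ dvd_zero q)
  obtain ⟨i, hi⟩ := U2_exists_pow q σ
  refine ⟨i, ?_⟩
  have hz : ζ ∈ OO q M := (U1_nm_eq_one_of_pow q hN0 hζ).le
  have h := hi (red q M ⟨ζ, hz⟩)
  rw [kk.map_red, ← map_pow, red_eq_red] at h
  apply eq_of_pow_eq_one_of_nm_sub_lt q hN _ _ h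
  · show (σ ζ) ^ N = 1
    rw [← map_pow, hζ, map_one]
  · show (ζ ^ (QQ q F ^ i)) ^ N = 1
    rw [← pow_mul, mul_comm, pow_mul, hζ, one_pow]

end Fermat.Agent.S55Lib
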