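import Mathlib

/-!
# S55, chapter L: the `q`-adic norm on algebraic extensions of `ℚ_[q]`

A *`q`-adic field* is a field `F` with `[Algebra ℚ_[q] F] [FiniteDimensional ℚ_[q] F]`.
The norm `nm q x` is the spectral norm; no instance is put on `F`.
-/

set_option autoImplicit false
set_option linter.unusedSectionVars false

namespace Fermat.Agent.S55Lib

variable (q : ℕ) [Fact q.Prime]

section Alg

variable {F : Type*} [Field F] [Algebra ℚ_[q] F]

/-- the `q`-adic norm -/
noncomputable def nm (x : F) : ℝ := spectralNorm ℚ_[q] F x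

lemma nm_def (x : F) : nm q x = spectralNorm ℚ_[q] F x := rfl

lemma nm_nonneg (x : F) : 0 ≤ nm q x := spectralNorm_nonneg x

@[simp] lemma nm_zero : nm q (0 : F) = 0 := spectralNorm_zero

@[simp] lemma nm_one : nm q (1 : F) = 1 := spectralNorm_one

lemma nm_padic (x : ℚ_[q]) : nm q (algebraMap ℚ_[q] F x) = ‖x‖ := spectralNorm_extends x

/-- `ℚ_[q]`-algebra homomorphisms are isometries. -/
lemma nm_algHom {E : Type*} [Field E] [Algebra ℚ_[q] E] (φ : F →ₐ[ℚ_[q]] E) (x : F) :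
    nm q (φ x) = nm q x := by
  unfold nm spectralNorm
  rw [minpoly.algHom_eq φ φ.injective]

lemma nm_algebraMap {E : Type*} [Field E] [Algebra ℚ_[q] E] [Algebra F E]
    [IsScalarTower ℚ_[q] F E] (x : F) : nm q (algebraMap F E x) = nm q x :=
  (spectralNorm.eq_of_tower x).symm

lemma nm_algEquiv {E : Type*} [Field E] [Algebra ℚ_[q] E] [Algebra F E]
    [IsScalarTower ℚ_[q] F E] (σ : E ≃ₐ[F] E) (x : E) : nm q (σ x) = nm q x :=
  nm_algHom q ((σ.restrictScalars ℚ_[q] : E ≃ₐ[ℚ_[q]] E) : E →ₐ[ℚ_[q]] E) x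

variable [Algebra.IsAlgebraic ℚ_[q] F]

lemma nm_mul (x y : F) : nm q (x * y) = nm q x * nm q y :=
  spectralAlgNorm_mul (K := ℚ_[q]) x y

lemma nm_eq_zero {x : F} : nm q x = 0 ↔ x = 0 :=
  ⟨fun h => eq_zero_of_map_spectralNorm_eq_zero h (Algebra.IsAlgebraic.isAlgebraic x),
    fun h => by rw [h, nm_zero]⟩

lemma nm_pos {x : F} : 0 < nm q x ↔ x ≠ 0 := by
  rw [lt_iff_le_and_ne, ne_comm, Ne, nm_eq_zero]
  exact ⟨fun h => h.2, fun h => ⟨nm_nonneg q x, h⟩⟩

@[simp] lemma nm_neg (x : F) : nm q (-x) = nm q x :=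
  spectralNorm_neg (Algebra.IsAlgebraic.isAlgebraic x)

lemma nm_sub_comm (x y : F) : nm q (x - y) = nm q (y - x) := by
  rw [← nm_neg, neg_sub]

lemma nm_isNonarchimedean : IsNonarchimedean (nm q : F → ℝ) :=
  isNonarchimedean_spectralNorm (K := ℚ_[q]) (L := F)

lemma nm_add_le (x y : F) : nm q (x + y) ≤ max (nm q x) (nm q y) :=
  nm_isNonarchimedean q x y

lemma nm_sub_le (x y : F) : nm q (x - y) ≤ max (nm q x) (nm q y) := by
  rw [sub_eq_add_neg, ← nm_neg q y]
  exact nm_add_le q x (-y)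

/-- the norm as a monoid-with-zero homomorphism -/
noncomputable def nmHom : F →*₀ ℝ where
  toFun := nm q
  map_zero' := nm_zero q
  map_one' := nm_one q
  map_mul' := nm_mul q

@[simp] lemma nmHom_apply (x : F) : nmHom q x = nm q x := rfl

lemma nm_pow (x : F) (n : ℕ) : nm q (x ^ n) = nm q x ^ n := map_pow (nmHom q) x n

lemma nm_inv (x : F) : nm q x⁻¹ = (nm q x)⁻¹ := map_inv₀ (nmHom q) x

lemma nm_div (x y : F) : nm q (x / y) = nm q x / nm q y := map_div₀ (nmHom q) x y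

lemma nm_zpow (x : F) (n : ℤ) : nm q (x ^ n) = nm q x ^ n := map_zpow₀ (nmHom q) x n

lemma nm_prod {ι : Type*} (s : Finset ι) (f : ι → F) :
    nm q (∏ i ∈ s, f i) = ∏ i ∈ s, nm q (f i) := map_prod (nmHom q) f s

/-- strict ultrametric equality -/
lemma nm_add_eq_of_lt {x y : F} (h : nm q y < nm q x) : nm q (x + y) = nm q x := by
  apply le_antisymm
  · exact (nm_add_le q x y).trans (max_le le_rfl h.le)
  · by_contra hlt
    rw [not_le] at hlt
    have h1 : nm q x ≤ max (nm q (x + y)) (nm q y) := by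
      have := nm_sub_le q (x + y) y
      rwa [add_sub_cancel_right] at this
    exact absurd h1 (not_le.2 (max_lt hlt h))

lemma nm_sub_eq_of_lt {x y : F} (h : nm q y < nm q x) : nm q (x - y) = nm q x := by
  rw [sub_eq_add_neg]
  exact nm_add_eq_of_lt q (by rwa [nm_neg])

lemma nm_sum_le {ι : Type*} (s : Finset ι) (f : ι → F) {C : ℝ} (hC : 0 ≤ C)
    (h : ∀ i ∈ s, nm q (f i) ≤ C) : nm q (∑ i ∈ s, f i) ≤ C := by
  classical
  induction s using Finset.induction_on with
  | empty => simpa using hC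
  | insert a s ha ih =>
    rw [Finset.sum_insert ha]
    exact (nm_add_le q _ _).trans (max_le (h a (Finset.mem_insert_self a s))
      (ih fun i hi => h i (Finset.mem_insert_of_mem hi)))

lemma nm_natCast_le_one (n : ℕ) : nm q (n : F) ≤ 1 := by
  rw [← map_natCast (algebraMap ℚ_[q] F), nm_padic]
  exact Padic.norm_int_le_one (n : ℤ)

lemma nm_intCast_le_one (n : ℤ) : nm q (n : F) ≤ 1 := by
  rw [← map_intCast (algebraMap ℚ_[q] F), nm_padic]
  exact Padic.norm_int_le_one n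

lemma nm_q : nm q ((q : ℕ) : F) = (q : ℝ)⁻¹ := by
  rw [← map_natCast (algebraMap ℚ_[q] F), nm_padic, Padic.norm_p]

lemma nm_natCast_eq_one {n : ℕ} (h : ¬ q ∣ n) : nm q (n : F) = 1 := by
  rw [← map_natCast (algebraMap ℚ_[q] F), nm_padic, Padic.norm_natCast_eq_one_iff]
  exact ((Nat.Prime.coprime_iff_not_dvd (Fact.out : q.Prime)).2 h)

lemma nm_unit_pos (x : Fˣ) : 0 < nm q (x : F) := (nm_pos q).2 x.ne_zero

end Alg

end Fermat.Agent.S55Lib
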