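import Fermat.Agent.S55.L.Defs

/-!
# S55 chapter L, leaf (G6): a finite Galois extension of `K` containing `L` and `μ_N`
-/

set_option autoImplicit false
set_option linter.unusedSectionVars false
set_option linter.unusedVariables false
set_option linter.style.haveILetI false

namespace Fermat.Agent.S55Lib

open Polynomial

lemma G6_exists_splitting (K L : Type*) [Field K] [Field L] [Algebra K L] [Normal K L]
    [FiniteDimensional K L] : ∃ p : K[X], p ≠ 0 ∧ IsSplittingField K L p := by
  obtain ⟨p, hp⟩ := Normal.exists_isSplittingField K L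
  by_cases h0 : p = 0
  · subst h0
    refine ⟨1, one_ne_zero, ⟨by simp, ?_⟩⟩
    have := hp.adjoin_rootSet'
    rw [rootSet_zero] at this
    rw [rootSet_one]
    exact this
  · exact ⟨p, h0, hp⟩

variable (q : ℕ) [Fact q.Prime]

/-- (G6) a finite Galois extension of `K` containing `L` and a primitive
`N`-th root of unity. -/
theorem exists_big_field {K L : Type} [Field K] [Field L] [Algebra ℚ_[q] K] [Algebra ℚ_[q] L]
    [Algebra K L] [IsScalarTower ℚ_[q] K L] [FiniteDimensional ℚ_[q] L] [IsGalois K L]
    (N : ℕ) (hN : 0 < N) :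
    ∃ (M : Type) (_ : Field M) (_ : Algebra ℚ_[q] M) (_ : Algebra K M) (_ : Algebra L M)
      (_ : IsScalarTower ℚ_[q] K M) (_ : IsScalarTower ℚ_[q] L M) (_ : IsScalarTower K L M)
      (_ : FiniteDimensional ℚ_[q] M) (_ : IsGalois K M), ∃ ζ : M, IsPrimitiveRoot ζ N := by
  haveI : NeZero N := ⟨hN.ne'⟩
  haveI : CharZero K := charZero_of_injective_algebraMap (algebraMap ℚ_[q] K).injective
  haveI : CharZero L := charZero_of_injective_algebraMap (algebraMap ℚ_[q] L).injective
  haveI : FiniteDimensional K L := FiniteDimensional.right ℚ_[q] K L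
  haveI : NeZero (N : L) := ⟨by exact_mod_cast hN.ne'⟩
  let M := CyclotomicField N L
  haveI tQK : IsScalarTower ℚ_[q] K M := IsScalarTower.of_algebraMap_eq fun x => by
    rw [IsScalarTower.algebraMap_apply ℚ_[q] L M, IsScalarTower.algebraMap_apply K L M,
      ← IsScalarTower.algebraMap_apply ℚ_[q] K L]
  haveI : IsCyclotomicExtension {N} L M := CyclotomicField.isCyclotomicExtension N L
  haveI fLM : FiniteDimensional L M := IsCyclotomicExtension.finiteDimensional {N} L M
  haveI fQM : FiniteDimensional ℚ_[q] M := FiniteDimensional.trans ℚ_[q] L M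
  haveI fKM : FiniteDimensional K M := FiniteDimensional.trans K L M
  obtain ⟨p, hp0, hp⟩ := G6_exists_splitting K L
  haveI := hp
  haveI : IsSplittingField L M (map (algebraMap K L) (X ^ N - 1 : K[X])) := by
    have : map (algebraMap K L) (X ^ N - 1 : K[X]) = X ^ N - 1 := by simp
    rw [this]
    exact IsCyclotomicExtension.isSplittingField_X_pow_sub_one N L M
  haveI : IsSplittingField K M (p * (X ^ N - 1)) :=
    IsSplittingField.mul (K := L) M p (X ^ N - 1) hp0 (X_pow_sub_C_ne_zero hN 1)
  haveI : Normal K M := Normal.of_isSplittingField (p * (X ^ N - 1))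
  exact ⟨M, inferInstance, inferInstance, inferInstance, inferInstance, tQK, inferInstance,
    inferInstance, fQM, ⟨⟩,
    IsCyclotomicExtension.zeta N L M, IsCyclotomicExtension.zeta_spec N L M⟩

end Fermat.Agent.S55Lib
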