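import Fermat.Agent.S55.L.Defs

/-!
# S55 chapter L, leaf (C1): the carry cochain is a cocycle
-/

set_option autoImplicit false
set_option linter.unusedSectionVars false
set_option linter.unusedVariables false

namespace Fermat.Agent.S55Lib

open groupCohomology

variable {G : Type*} [Group G] {A : Type*} [AddCommGroup A] [DistribMulAction G A]

lemma C1_mod (n i j : ℕ) (hi : i < n) (hj : j < n) :
    (i + j) % n = if n ≤ i + j then i + j - n else i + j := by
  split_ifs with h
  · rw [Nat.mod_eq_sub_mod h, Nat.mod_eq_of_lt (by omega)]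
  · exact Nat.mod_eq_of_lt (by omega)

lemma C1_key (n : ℕ) (a : A) (i j k : ℕ) (hi : i < n) (hj : j < n) (hk : k < n) :
    (if n ≤ (i + j) % n + k then a else 0) + (if n ≤ i + j then a else 0) =
      (if n ≤ j + k then a else 0) + (if n ≤ i + (j + k) % n then a else 0) := by
  rw [C1_mod n i j hi hj, C1_mod n j k hj hk]
  split_ifs <;> first | rfl | (exfalso; omega) | abel

/-- the representative in `[0,n)` of `χ g` -/
def cycVal (n : ℕ) (χ : G →* Multiplicative (ZMod n)) (g : G) : ℕ :=
  (Multiplicative.toAdd (χ g)).val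

lemma cycVal_lt (n : ℕ) [NeZero n] (χ : G →* Multiplicative (ZMod n)) (g : G) :
    cycVal n χ g < n := ZMod.val_lt _

lemma cycVal_mul (n : ℕ) [NeZero n] (χ : G →* Multiplicative (ZMod n)) (g h : G) :
    cycVal n χ (g * h) = (cycVal n χ g + cycVal n χ h) % n := by
  unfold cycVal
  rw [map_mul, toAdd_mul, ZMod.val_add]

lemma cyc_eq (n : ℕ) (χ : G →* Multiplicative (ZMod n)) (a : A) (g h : G) :
    cyc n χ a (g, h) = if n ≤ cycVal n χ g + cycVal n χ h then a else 0 := rfl

/-- (C1) -/
theorem cyc_isCocycle₂ (n : ℕ) [NeZero n] (χ : G →* Multiplicative (ZMod n)) (a : A)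
    (ha : ∀ g : G, g • a = a) : IsCocycle₂ (cyc n χ a) := by
  intro g h j
  have hsm : g • cyc n χ a (h, j) = cyc n χ a (h, j) := by
    rw [cyc_eq]
    split_ifs
    · exact ha g
    · exact smul_zero g
  rw [hsm]
  simp only [cyc_eq, cycVal_mul]
  exact C1_key n a _ _ _ (cycVal_lt n χ g) (cycVal_lt n χ h) (cycVal_lt n χ j)

/-- (C1) -/
theorem zsmul_cyc (n : ℕ) (χ : G →* Multiplicative (ZMod n)) (a : A) (k : ℤ) :
    k • cyc n χ a = cyc n χ (k • a) := by
  funext x
  obtain ⟨g, h⟩ := x
  simp only [Pi.smul_apply, cyc_eq]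
  split_ifs
  · rfl
  · exact smul_zero k

/-- (C1) -/
theorem resC_cyc (n : ℕ) (χ : G →* Multiplicative (ZMod n)) (a : A) (H : Subgroup G) :
    resC H (cyc n χ a) = cyc n (χ.comp H.subtype) a := rfl

end Fermat.Agent.S55Lib
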