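import Fermat.Agent.S55.L.Cyc

/-!
# S55 chapter L, leaf (C2): the carry cocycle is a coboundary iff `a` is a norm
-/

set_option autoImplicit false
set_option linter.unusedSectionVars false
set_option linter.unusedVariables false

namespace Fermat.Agent.S55Lib

open groupCohomology

variable {G : Type*} [Group G] {A : Type*} [AddCommGroup A] [DistribMulAction G A]

section

variable (n : ℕ) [NeZero n] (χ : G →* Multiplicative (ZMod n))
  (m d : ℕ) (hmd : m * d = n) (σ : G) (hσ : Multiplicative.toAdd (χ σ) = (d : ZMod n))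

include hσ in
lemma C2_cycVal_pow (i : ℕ) : cycVal n χ (σ ^ i) = (i * d) % n := by
  unfold cycVal
  rw [map_pow, toAdd_pow, hσ, nsmul_eq_mul, ← Nat.cast_mul, ZMod.val_natCast]

include hmd hσ in
lemma C2_cycVal_pow_of_lt {i : ℕ} (hi : i < m) : cycVal n χ (σ ^ i) = i * d := by
  rw [C2_cycVal_pow n χ d σ hσ, Nat.mod_eq_of_lt]
  have hd : 0 < d := by
    rcases Nat.eq_zero_or_pos d with h | h
    · exfalso; rw [h, mul_zero] at hmd; exact NeZero.ne n hmd.symm
    · exact h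
  rw [← hmd]
  exact Nat.mul_lt_mul_of_pos_right hi hd

lemma C2_mem_ker_iff (g : G) : g ∈ χ.ker ↔ cycVal n χ g = 0 := by
  unfold cycVal
  rw [MonoidHom.mem_ker, ZMod.val_eq_zero]
  exact Iff.rfl

include hmd hσ in
lemma C2_pow_m_mem : σ ^ m ∈ χ.ker := by
  rw [C2_mem_ker_iff, C2_cycVal_pow n χ d σ hσ, hmd, Nat.mod_self]

lemma C2_eq_of_cycVal_eq {g h : G} (e : cycVal n χ g = cycVal n χ h) : χ g = χ h := by
  have := ZMod.val_injective n e
  exact Multiplicative.toAdd.injective this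

end

/-- (C2), direction `⇒`. -/
lemma C2_norm_of_cob (n : ℕ) [NeZero n] (χ : G →* Multiplicative (ZMod n)) (a : A)
    (ha : ∀ g : G, g • a = a)
    (h1 : ∀ f : χ.ker → A, IsCocycle₁ f → IsCoboundary₁ f)
    (m d : ℕ) (hmd : m * d = n) (σ : G) (hσ : Multiplicative.toAdd (χ σ) = (d : ZMod n))
    (hcob : IsCoboundary₂ (cyc n χ a)) :
    ∃ b : A, (∀ τ ∈ χ.ker, τ • b = b) ∧ a = ∑ i ∈ Finset.range m, σ ^ i • b := by
  have hn : 0 < n := Nat.pos_of_ne_zero (NeZero.ne n)
  have hm : 0 < m := by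
    rcases Nat.eq_zero_or_pos m with h | h
    · exfalso; rw [h, zero_mul] at hmd; exact NeZero.ne n hmd.symm
    · exact h
  have hd : 0 < d := by
    rcases Nat.eq_zero_or_pos d with h | h
    · exfalso; rw [h, mul_zero] at hmd; exact NeZero.ne n hmd.symm
    · exact h
  rcases Nat.eq_or_lt_of_le (Nat.succ_le_of_lt hm) with hm1 | hm1
  · -- `m = 1`
    refine ⟨a, fun τ _ => ha τ, ?_⟩
    rw [← hm1]
    simp
  obtain ⟨x, hx⟩ := hcob
  have hcl : ∀ ν ∈ χ.ker, ∀ g, cyc n χ a (ν, g) = 0 := by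
    intro ν hν g
    rw [cyc_eq, (C2_mem_ker_iff n χ ν).1 hν, zero_add, if_neg (not_le.2 (cycVal_lt n χ g))]
  have hcr : ∀ ν ∈ χ.ker, ∀ g, cyc n χ a (g, ν) = 0 := by
    intro ν hν g
    rw [cyc_eq, (C2_mem_ker_iff n χ ν).1 hν, add_zero, if_neg (not_le.2 (cycVal_lt n χ g))]
  have hcoc : IsCocycle₁ (fun ν : χ.ker => x (ν : G)) := by
    intro ν ν'
    have := hx (ν : G) (ν' : G)
    rw [hcl _ ν.2] at this
    show x ((ν : G) * (ν' : G)) = (ν : G) • x (ν' : G) + x (ν : G)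
    have e := sub_eq_zero.1 (show (ν : G) • x (ν' : G) + x (ν : G) - x ((ν : G) * (ν' : G)) = 0 by
      rw [← this]; abel)
    exact e.symm
  obtain ⟨y, hy⟩ := h1 _ hcoc
  have hy' : ∀ ν ∈ χ.ker, ν • y - y = x ν := fun ν hν => hy ⟨ν, hν⟩
  let x2 : G → A := fun g => x g - (g • y - y)
  have hx2 : ∀ g h : G, g • x2 h - x2 (g * h) + x2 g = cyc n χ a (g, h) := by
    intro g h
    rw [← hx g h]
    simp only [x2, smul_sub, mul_smul]
    abel
  have hx2N : ∀ ν ∈ χ.ker, x2 ν = 0 := by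
    intro ν hν
    simp only [x2, hy' ν hν, sub_self]
  have hr : ∀ g : G, ∀ ν ∈ χ.ker, x2 (g * ν) = x2 g := by
    intro g ν hν
    have := hx2 g ν
    rw [hcr ν hν, hx2N ν hν, smul_zero, zero_sub] at this
    have e : x2 g - x2 (g * ν) = 0 := by rw [← this]; abel
    exact (sub_eq_zero.1 e).symm
  have hl : ∀ g : G, ∀ ν ∈ χ.ker, ν • x2 g = x2 g := by
    intro g ν hν
    have := hx2 ν g
    rw [hcl ν hν, hx2N ν hν, add_zero] at this
    rw [sub_eq_zero.1 this]
    have e2 : ν * g = g * (g⁻¹ * ν * g) := by group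
    rw [e2]
    refine hr g _ ?_
    have := (inferInstance : χ.ker.Normal).conj_mem ν hν g⁻¹
    simpa using this
  refine ⟨x2 σ, hl σ, ?_⟩
  have hsum : ∑ i ∈ Finset.range m, cyc n χ a (σ ^ i, σ) = a := by
    have hσ1 : cycVal n χ σ = d := by
      have := C2_cycVal_pow_of_lt n χ m d hmd σ hσ (i := 1) hm1
      rwa [pow_one, one_mul] at this
    have : ∀ i ∈ Finset.range m, cyc n χ a (σ ^ i, σ) = if i = m - 1 then a else 0 := by
      intro i hi
      rw [Finset.mem_range] at hi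
      rw [cyc_eq, C2_cycVal_pow_of_lt n χ m d hmd σ hσ hi, hσ1, ← hmd]
      have e : i * d + d = (i + 1) * d := by ring
      rw [e]
      by_cases h : i = m - 1
      · rw [if_pos h, if_pos]
        exact Nat.mul_le_mul_right d (by omega)
      · rw [if_neg h, if_neg]
        rw [not_le]
        exact Nat.mul_lt_mul_of_pos_right (by omega) hd
    rw [Finset.sum_congr rfl this, Finset.sum_ite_eq' (Finset.range m) (m - 1) (fun _ => a), if_pos]
    rw [Finset.mem_range]; omega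
  rw [← hsum]
  have : ∀ i ∈ Finset.range m, cyc n χ a (σ ^ i, σ) =
      σ ^ i • x2 σ - (x2 (σ ^ (i + 1)) - x2 (σ ^ i)) := by
    intro i _
    rw [← hx2, pow_succ]
    abel
  rw [Finset.sum_congr rfl this, Finset.sum_sub_distrib, Finset.sum_range_sub (fun i => x2 (σ ^ i)),
    hx2N _ (C2_pow_m_mem n χ m d hmd σ hσ), pow_zero, hx2N 1 (one_mem _)]
  simp

/-- (C2), direction `⇐`. -/
lemma C2_cob_of_norm (n : ℕ) [NeZero n] (χ : G →* Multiplicative (ZMod n))
    (m d : ℕ) (hmd : m * d = n) (σ : G) (hσ : Multiplicative.toAdd (χ σ) = (d : ZMod n))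
    (hgen : ∀ g : G, ∃ i : ℕ, χ g = χ σ ^ i)
    (b : A) (hb : ∀ τ ∈ χ.ker, τ • b = b) :
    IsCoboundary₂ (cyc n χ (∑ i ∈ Finset.range m, σ ^ i • b)) := by
  have hn : 0 < n := Nat.pos_of_ne_zero (NeZero.ne n)
  have hm : 0 < m := by
    rcases Nat.eq_zero_or_pos m with h | h
    · exfalso; rw [h, zero_mul] at hmd; exact NeZero.ne n hmd.symm
    · exact h
  have hd : 0 < d := by
    rcases Nat.eq_zero_or_pos d with h | h
    · exfalso; rw [h, mul_zero] at hmd; exact NeZero.ne n hmd.symm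
    · exact h
  -- the index function
  have hI : ∀ g : G, ∃ i < m, cycVal n χ g = i * d ∧ χ g = χ (σ ^ i) := by
    intro g
    obtain ⟨i, hi⟩ := hgen g
    have h1 : cycVal n χ g = cycVal n χ (σ ^ i) := by
      unfold cycVal; rw [hi, ← map_pow]
    have h2 : cycVal n χ g = (i % m) * d := by
      rw [h1, C2_cycVal_pow n χ d σ hσ, ← hmd, Nat.mul_mod_mul_right]
    refine ⟨i % m, Nat.mod_lt _ hm, h2, ?_⟩
    apply C2_eq_of_cycVal_eq
    rw [h2, C2_cycVal_pow_of_lt n χ m d hmd σ hσ (Nat.mod_lt _ hm)]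
  choose I hIm hId hIχ using hI
  -- `ker χ` fixes all `σ^j b`
  have hfix : ∀ ν ∈ χ.ker, ∀ j : ℕ, ν • σ ^ j • b = σ ^ j • b := by
    intro ν hν j
    have h1 : (σ ^ j)⁻¹ * ν * σ ^ j ∈ χ.ker := by
      have := (inferInstance : χ.ker.Normal).conj_mem ν hν (σ ^ j)⁻¹
      simpa using this
    have h2 := hb _ h1
    calc ν • σ ^ j • b = σ ^ j • ((σ ^ j)⁻¹ * ν * σ ^ j) • b := by
          simp only [smul_smul]; congr 1; group
      _ = σ ^ j • b := by rw [h2]
  have hact : ∀ (g : G) (j : ℕ), g • σ ^ j • b = σ ^ (I g + j) • b := by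
    intro g j
    have h1 : (σ ^ I g)⁻¹ * g ∈ χ.ker := by
      rw [MonoidHom.mem_ker, map_mul, map_inv, hIχ g]; group
    calc g • σ ^ j • b = σ ^ I g • ((σ ^ I g)⁻¹ * g) • σ ^ j • b := by
          simp only [smul_smul]; congr 1; group
      _ = σ ^ I g • σ ^ j • b := by rw [hfix _ h1]
      _ = σ ^ (I g + j) • b := by rw [smul_smul, pow_add]
  let S : ℕ → A := fun k => ∑ j ∈ Finset.range k, σ ^ j • b
  have hS_add : ∀ (g : G) (k : ℕ), g • S k = S (I g + k) - S (I g) := by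
    intro g k
    simp only [S]
    rw [Finset.sum_range_add, add_sub_cancel_left, Finset.smul_sum]
    exact Finset.sum_congr rfl fun j _ => hact g j
  have hperiod : ∀ j : ℕ, σ ^ (m + j) • b = σ ^ j • b := by
    intro j
    rw [pow_add, mul_smul]
    exact hfix _ (C2_pow_m_mem n χ m d hmd σ hσ) j
  have hS_m : ∀ k : ℕ, S (m + k) = S m + S k := by
    intro k
    simp only [S]
    rw [Finset.sum_range_add]
    congr 1
    exact Finset.sum_congr rfl fun j _ => hperiod j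
  have hImul : ∀ g h : G, I (g * h) = (I g + I h) % m := by
    intro g h
    have h1 := cycVal_mul n χ g h
    rw [hId, hId, hId, ← add_mul, ← hmd, Nat.mul_mod_mul_right] at h1
    exact Nat.eq_of_mul_eq_mul_right hd h1
  refine ⟨fun g => S (I g), fun g h => ?_⟩
  show g • S (I h) - S (I (g * h)) + S (I g) = _
  rw [hS_add, hImul, cyc_eq, hId, hId, ← add_mul, ← hmd, C1_mod m _ _ (hIm g) (hIm h)]
  by_cases hle : m ≤ I g + I h
  · rw [if_pos hle, if_pos (Nat.mul_le_mul_right d hle)]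
    have e : I g + I h = m + (I g + I h - m) := by omega
    conv_lhs => rw [e, hS_m]
    have e2 : m + (I g + I h - m) - m = I g + I h - m := by omega
    rw [e2]
    show S m + S (I g + I h - m) - S (I g) - S (I g + I h - m) + S (I g) = S m
    abel
  · rw [if_neg hle, if_neg]
    · abel
    · rw [not_le] at hle ⊢
      exact Nat.mul_lt_mul_of_pos_right hle hd

/-- (C2) the carry cocycle is a coboundary iff `a` is a norm from `A^{ker χ}`.
`im χ` is generated by `χ σ = d`, `m d = n`. -/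
theorem cyc_isCoboundary₂_iff (n : ℕ) [NeZero n] (χ : G →* Multiplicative (ZMod n)) (a : A)
    (ha : ∀ g : G, g • a = a)
    (h1 : ∀ f : χ.ker → A, IsCocycle₁ f → IsCoboundary₁ f)
    (m d : ℕ) (hmd : m * d = n) (σ : G) (hσ : Multiplicative.toAdd (χ σ) = (d : ZMod n))
    (hgen : ∀ g : G, ∃ i : ℕ, χ g = χ σ ^ i) :
    IsCoboundary₂ (cyc n χ a) ↔
      ∃ b : A, (∀ τ ∈ χ.ker, τ • b = b) ∧ a = ∑ i ∈ Finset.range m, σ ^ i • b := by
  constructor
  · exact C2_norm_of_cob n χ a ha h1 m d hmd σ hσ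
  · rintro ⟨b, hb, rfl⟩
    exact C2_cob_of_norm n χ m d hmd σ hσ hgen b hb

end Fermat.Agent.S55Lib
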