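import Fermat.Agent.S55.L.Defs

/-!
# S55 chapter L, leaf (C3): inflation-restriction in degree 2, normal form
-/

set_option autoImplicit false
set_option linter.unusedSectionVars false
set_option linter.unusedVariables false

namespace Fermat.Agent.S55Lib

open groupCohomology

variable {G : Type*} [Group G] {A : Type*} [AddCommGroup A] [DistribMulAction G A]

/-- the coboundary of a 1-cochain, as a plain function -/
def C3_d (x : G → A) : G × G → A := fun gh => gh.1 • x gh.2 - x (gh.1 * gh.2) + x gh.1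

lemma C3_d_apply (x : G → A) (g h : G) : C3_d x (g, h) = g • x h - x (g * h) + x g := rfl

lemma C3_d_isCocycle₂ (x : G → A) : IsCocycle₂ (C3_d x) := by
  intro g h j
  simp only [C3_d_apply, smul_add, smul_sub, mul_smul, mul_assoc]
  abel

lemma C3_d_isCoboundary₂ (x : G → A) : IsCoboundary₂ (C3_d x) := ⟨x, fun _ _ => rfl⟩

lemma C3_add_isCocycle₂ {c c' : G × G → A} (hc : IsCocycle₂ c) (hc' : IsCocycle₂ c') :
    IsCocycle₂ (c + c') := by
  intro g h j
  have h1 := hc g h j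
  have h2 := hc' g h j
  simp only [Pi.add_apply, smul_add]
  calc c (g * h, j) + c' (g * h, j) + (c (g, h) + c' (g, h))
      = (c (g * h, j) + c (g, h)) + (c' (g * h, j) + c' (g, h)) := by abel
    _ = _ := by rw [h1, h2]; abel

/-- Step 3: a cocycle vanishing on `N × G` and `G × N` is inflated. -/
lemma C3_step3 (N : Subgroup G) [hN : N.Normal] (c : G × G → A) (hc : IsCocycle₂ c)
    (hl : ∀ n ∈ N, ∀ g, c (n, g) = 0) (hr : ∀ n ∈ N, ∀ g, c (g, n) = 0) :
    ∀ g h : G, ∀ ν ∈ N, c (g * ν, h) = c (g, h) ∧ c (g, h * ν) = c (g, h) ∧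
        ν • c (g, h) = c (g, h) := by
  have hA : ∀ n ∈ N, ∀ g h, c (n * g, h) = n • c (g, h) := by
    intro n hn g h
    have := hc n g h
    rw [hl n hn g, hl n hn (g * h), add_zero, add_zero] at this
    exact this
  have hB : ∀ n ∈ N, ∀ g h, c (g, h * n) = c (g, h) := by
    intro n hn g h
    have := hc g h n
    rw [hr n hn (g * h), hr n hn h, smul_zero, zero_add, zero_add] at this
    exact this.symm
  have hC : ∀ n ∈ N, ∀ g h, c (g * n, h) = c (g, h) := by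
    intro n hn g h
    have := hc g n h
    rw [hr n hn g, hl n hn h, smul_zero, zero_add, add_zero] at this
    rw [this]
    have h2 : n * h = h * (h⁻¹ * n * h) := by group
    rw [h2]
    refine hB _ ?_ g h
    have := hN.conj_mem n hn h⁻¹
    simpa using this
  intro g h ν hν
  refine ⟨hC ν hν g h, hB ν hν g h, ?_⟩
  rw [← hA ν hν g h]
  have h2 : ν * g = g * (g⁻¹ * ν * g) := by group
  rw [h2]
  refine hC _ ?_ g h
  have := hN.conj_mem ν hν g⁻¹
  simpa using this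

/-- coset representatives -/
lemma C3_exists_rep (N : Subgroup G) [hN : N.Normal] :
    ∃ s : G → G, (∀ g, g * (s g)⁻¹ ∈ N) ∧ (∀ n ∈ N, ∀ g, s (n * g) = s g) := by
  refine ⟨fun g => (g : G ⧸ N).out, fun g => ?_, fun n hn g => ?_⟩
  · have h1 : (((g : G ⧸ N).out : G) : G ⧸ N) = (g : G ⧸ N) := QuotientGroup.out_eq' _
    have h2 : ((g : G ⧸ N).out)⁻¹ * g ∈ N := QuotientGroup.eq.1 h1
    have := hN.conj_mem _ h2 ((g : G ⧸ N).out)
    have h3 : (g : G ⧸ N).out * (((g : G ⧸ N).out)⁻¹ * g) * ((g : G ⧸ N).out)⁻¹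
        = g * ((g : G ⧸ N).out)⁻¹ := by group
    rwa [h3] at this
  · have : ((n * g : G) : G ⧸ N) = (g : G ⧸ N) := by
      rw [QuotientGroup.eq]
      have := hN.conj_mem _ (N.inv_mem hn) g⁻¹
      have h3 : g⁻¹ * n⁻¹ * g⁻¹⁻¹ = (n * g)⁻¹ * g := by group
      rwa [h3] at this
    simp only [this]

/-- Step 1: kill `c` on `N × G`. -/
lemma C3_step1 (N : Subgroup G) [hN : N.Normal] (c : G × G → A) (hc : IsCocycle₂ c)
    (h0 : ∀ n ∈ N, ∀ n' ∈ N, c (n, n') = 0) :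
    ∃ b : G → A, ∀ n ∈ N, ∀ g, (c + C3_d b) (n, g) = 0 := by
  obtain ⟨s, hs1, hs2⟩ := C3_exists_rep N
  refine ⟨fun g => c (g * (s g)⁻¹, s g), fun n hn g => ?_⟩
  have hs1N : s 1 ∈ N := by
    have := N.inv_mem (hs1 1)
    simpa using this
  have hsn : s n = s 1 := by
    have := hs2 n hn 1
    rwa [mul_one] at this
  have hbn : c (n * (s n)⁻¹, s n) = 0 := by
    rw [hsn]
    exact h0 _ (N.mul_mem hn (N.inv_mem hs1N)) _ hs1N
  have key := hc n (g * (s g)⁻¹) (s g)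
  rw [h0 n hn _ (hs1 g), add_zero, inv_mul_cancel_right] at key
  simp only [Pi.add_apply, C3_d_apply, hs2 n hn g, hbn, add_zero]
  have h2 : n * g * (s g)⁻¹ = n * (g * (s g)⁻¹) := by group
  rw [h2, key]
  abel

/-- Step 2: kill `c` on `G × N` as well. -/
lemma C3_step2 (N : Subgroup G) [hN : N.Normal]
    (h1 : ∀ f : N → A, IsCocycle₁ f → IsCoboundary₁ f)
    (c : G × G → A) (hc : IsCocycle₂ c) (hl : ∀ n ∈ N, ∀ g, c (n, g) = 0) :
    ∃ x : G → A, (∀ n ∈ N, ∀ g, (c + C3_d x) (n, g) = 0) ∧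
      (∀ n ∈ N, ∀ g, (c + C3_d x) (g, n) = 0) := by
  classical
  obtain ⟨s, hs1, hs2⟩ := C3_exists_rep N
  have hA : ∀ n ∈ N, ∀ g h, c (n * g, h) = n • c (g, h) := by
    intro n hn g h
    have := hc n g h
    rw [hl n hn g, hl n hn (g * h), add_zero, add_zero] at this
    exact this
  have hconj : ∀ (g : G), ∀ μ ∈ N, g⁻¹ * μ * g ∈ N := by
    intro g μ hμ
    have := hN.conj_mem μ hμ g⁻¹
    simpa using this
  -- the twisted cocycles
  have hX : ∀ g : G, ∃ X : A, ∀ μ ∈ N, μ • X - X = c (g, g⁻¹ * μ * g) := by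
    intro g
    have hcoc : IsCocycle₁ (fun μ : N => c (g, g⁻¹ * (μ : G) * g)) := by
      intro μ μ'
      have := hc g (g⁻¹ * (μ : G) * g) (g⁻¹ * (μ' : G) * g)
      rw [hl _ (hconj g μ μ.2), smul_zero, zero_add] at this
      have e1 : g * (g⁻¹ * (μ : G) * g) = (μ : G) * g := by group
      have e2 : g⁻¹ * (μ : G) * g * (g⁻¹ * (μ' : G) * g) = g⁻¹ * ((μ * μ' : N) : G) * g := by
        rw [Subgroup.coe_mul]; group
      rw [e1, e2, hA _ μ.2] at this
      exact this.symm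
    obtain ⟨X, hX⟩ := h1 _ hcoc
    exact ⟨X, fun μ hμ => hX ⟨μ, hμ⟩⟩
  choose X0 hX0 using hX
  -- normalise `X` on `N`
  let X : G → A := fun g => if g ∈ N then 0 else X0 g
  have hXp : ∀ g : G, ∀ μ ∈ N, μ • X g - X g = c (g, g⁻¹ * μ * g) := by
    intro g μ hμ
    by_cases hg : g ∈ N
    · simp only [X, if_pos hg, smul_zero, sub_zero]
      exact (hl g hg _).symm
    · simp only [X, if_neg hg]
      exact hX0 g μ hμ
  let x : G → A := fun g => (g * (s g)⁻¹) • X (s g)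
  have hs1N : s 1 ∈ N := by
    have := N.inv_mem (hs1 1)
    simpa using this
  have hxN : ∀ n ∈ N, x n = 0 := by
    intro n hn
    have hsn : s n = s 1 := by
      have := hs2 n hn 1
      rwa [mul_one] at this
    simp only [x, X, hsn, if_pos hs1N, smul_zero]
  have hxl : ∀ n ∈ N, ∀ g, x (n * g) = n • x g := by
    intro n hn g
    simp only [x, hs2 n hn g, smul_smul]
    congr 1
    group
  have hxp : ∀ g : G, ∀ μ ∈ N, μ • x g - x g = c (g, g⁻¹ * μ * g) := by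
    intro g μ hμ
    obtain ⟨n, hn⟩ : ∃ n, n = g * (s g)⁻¹ := ⟨_, rfl⟩
    have hnN : n ∈ N := hn ▸ hs1 g
    have hg : g = n * s g := by rw [hn]; group
    have e1 : c (g, g⁻¹ * μ * g) = n • c (s g, (s g)⁻¹ * (n⁻¹ * μ * n) * s g) := by
      rw [← hA n hnN, ← hg]
      congr 2
      conv_lhs => rw [hg]
      group
    have e2 : n * (n⁻¹ * μ * n) = μ * n := by group
    have e3 : x g = n • X (s g) := by rw [hn]
    rw [e1, ← hXp (s g) _ (hconj n μ hμ), smul_sub, e3, ← mul_smul n, e2, mul_smul]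
  refine ⟨x, fun n hn g => ?_, fun n hn g => ?_⟩
  · simp only [Pi.add_apply, C3_d_apply, hl n hn g, hxl n hn g, hxN n hn]
    abel
  · have e1 : g * n = (g * n * g⁻¹) * g := by group
    have hm : g * n * g⁻¹ ∈ N := hN.conj_mem n hn g
    have h3 := hxp g _ hm
    have e2 : g⁻¹ * (g * n * g⁻¹) * g = n := by group
    rw [e2] at h3
    simp only [Pi.add_apply, C3_d_apply, hxN n hn, smul_zero]
    rw [e1, hxl _ hm g, ← h3]
    abel

/-- (C3) inflation-restriction in degree 2, normal form. -/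
theorem infRes_normalForm (N : Subgroup G) [N.Normal]
    (h1 : ∀ f : N → A, IsCocycle₁ f → IsCoboundary₁ f)
    (c : G × G → A) (hc : IsCocycle₂ c) (hres : IsCoboundary₂ (resC N c)) :
    ∃ c' : G × G → A, IsCocycle₂ c' ∧ IsCoboundary₂ (c - c') ∧
      ∀ g h : G, ∀ ν ∈ N, c' (g * ν, h) = c' (g, h) ∧ c' (g, h * ν) = c' (g, h) ∧
        ν • c' (g, h) = c' (g, h) := by
  classical
  obtain ⟨b0, hb0⟩ := hres
  let b : G → A := fun g => if h : g ∈ N then -b0 ⟨g, h⟩ else 0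
  have hc0 : IsCocycle₂ (c + C3_d b) := C3_add_isCocycle₂ hc (C3_d_isCocycle₂ b)
  have h0 : ∀ n ∈ N, ∀ n' ∈ N, (c + C3_d b) (n, n') = 0 := by
    intro n hn n' hn'
    have := hb0 ⟨n, hn⟩ ⟨n', hn'⟩
    simp only [resC_apply] at this
    simp only [Pi.add_apply, C3_d_apply, b, dif_pos hn, dif_pos hn', dif_pos (N.mul_mem hn hn'),
      ← this, smul_neg]
    have e : (⟨n, hn⟩ : N) * ⟨n', hn'⟩ = ⟨n * n', N.mul_mem hn hn'⟩ := rfl
    rw [e]
    have e2 : (⟨n, hn⟩ : N) • b0 ⟨n', hn'⟩ = n • b0 ⟨n', hn'⟩ := rfl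
    rw [e2]
    abel
  obtain ⟨b1, hb1⟩ := C3_step1 N _ hc0 h0
  have hc1 : IsCocycle₂ (c + C3_d b + C3_d b1) := C3_add_isCocycle₂ hc0 (C3_d_isCocycle₂ b1)
  obtain ⟨x, hx1, hx2⟩ := C3_step2 N h1 _ hc1 hb1
  have hc2 : IsCocycle₂ (c + C3_d b + C3_d b1 + C3_d x) :=
    C3_add_isCocycle₂ hc1 (C3_d_isCocycle₂ x)
  refine ⟨_, hc2, ⟨-b - b1 - x, fun g h => ?_⟩, C3_step3 N _ hc2 hx1 hx2⟩
  simp only [Pi.sub_apply, Pi.add_apply, Pi.neg_apply, C3_d_apply, smul_sub, smul_neg]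
  abel

end Fermat.Agent.S55Lib
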