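import Fermat.Agent.S55.L.CycCob
import Fermat.Agent.S55.L.InfResNF

/-!
# S55 chapter L: every class of `H²(G,A)` dying on `ker χ` is a carry class
-/

set_option autoImplicit false
set_option linter.unusedSectionVars false
set_option linter.unusedVariables false

namespace Fermat.Agent.S55Lib

open groupCohomology

variable {G : Type*} [Group G] {A : Type*} [AddCommGroup A] [DistribMulAction G A]

/-- the inflated case -/
lemma CR_of_normalForm (n : ℕ) [NeZero n] (χ : G →* Multiplicative (ZMod n)) (σ : G)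
    (hσ : Multiplicative.toAdd (χ σ) = ((1 : ℕ) : ZMod n))
    (c : G × G → A) (hc : IsCocycle₂ c)
    (hinv : ∀ g h : G, ∀ ν ∈ χ.ker, c (g * ν, h) = c (g, h) ∧ c (g, h * ν) = c (g, h) ∧
        ν • c (g, h) = c (g, h)) :
    ∃ a : A, (∀ g : G, g • a = a) ∧ IsCoboundary₂ (c - cyc n χ a) := by
  have hn : 0 < n := Nat.pos_of_ne_zero (NeZero.ne n)
  have hmd : n * 1 = n := mul_one n
  have hσn : σ ^ n ∈ χ.ker := C2_pow_m_mem n χ n 1 hmd σ hσ
  -- decomposition `g = σ^(I g) ν`
  have hdec : ∀ g : G, (σ ^ cycVal n χ g)⁻¹ * g ∈ χ.ker := by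
    intro g
    have h1 : χ g = χ (σ ^ cycVal n χ g) := by
      apply C2_eq_of_cycVal_eq
      rw [C2_cycVal_pow_of_lt n χ n 1 hmd σ hσ (cycVal_lt n χ g), mul_one]
    rw [MonoidHom.mem_ker, map_mul, map_inv, h1]; group
  have hcI : ∀ g h : G, c (g, h) = c (σ ^ cycVal n χ g, σ ^ cycVal n χ h) := by
    intro g h
    have e1 : g = σ ^ cycVal n χ g * ((σ ^ cycVal n χ g)⁻¹ * g) := by group
    have e2 : h = σ ^ cycVal n χ h * ((σ ^ cycVal n χ h)⁻¹ * h) := by group
    conv_lhs => rw [e1, e2]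
    rw [(hinv _ _ _ (hdec g)).1, (hinv _ _ _ (hdec h)).2.1]
  have hsm : ∀ (g : G) (y : A), (∀ ν ∈ χ.ker, ν • y = y) → g • y = σ ^ cycVal n χ g • y := by
    intro g y hy
    have e1 : g = σ ^ cycVal n χ g * ((σ ^ cycVal n χ g)⁻¹ * g) := by group
    conv_lhs => rw [e1, mul_smul, hy _ (hdec g)]
  let T : ℕ → A := fun l => c (σ ^ l, σ)
  have hTN : ∀ l, ∀ ν ∈ χ.ker, ν • T l = T l := fun l ν hν => (hinv _ _ ν hν).2.2
  have hTper : ∀ l, T (n + l) = T l := by
    intro l
    show c (σ ^ (n + l), σ) = c (σ ^ l, σ)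
    rw [add_comm, pow_add, (hinv _ _ _ hσn).1]
  let X : ℕ → A := fun k => ∑ l ∈ Finset.range k, T l
  have hXN : ∀ k, ∀ ν ∈ χ.ker, ν • X k = X k := by
    intro k ν hν
    show ν • ∑ l ∈ Finset.range k, T l = _
    rw [Finset.smul_sum]
    exact Finset.sum_congr rfl fun l _ => hTN l ν hν
  have hXper : ∀ k, X (n + k) = X n + X k := by
    intro k
    show ∑ l ∈ Finset.range (n + k), T l = _
    rw [Finset.sum_range_add]
    congr 1
    exact Finset.sum_congr rfl fun l _ => hTper l
  have hc1 : ∀ g : G, c (g, 1) = g • c (1, 1) := by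
    intro g
    have := hc g 1 1
    rw [mul_one, mul_one] at this
    exact add_right_cancel this
  -- the main formula
  have hmain : ∀ i J : ℕ, c (σ ^ i, σ ^ J) = σ ^ i • c (1, 1) + X (i + J) - X i - σ ^ i • X J := by
    intro i J
    induction J with
    | zero =>
      rw [pow_zero, hc1, add_zero]
      show _ = _ - σ ^ i • (∑ l ∈ Finset.range 0, T l)
      simp
    | succ J ih =>
      have h := hc (σ ^ i) (σ ^ J) σ
      rw [← pow_add, ← pow_succ] at h
      have e1 : X (i + (J + 1)) = X (i + J) + T (i + J) := by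
        show ∑ l ∈ Finset.range (i + (J + 1)), T l = _
        rw [← add_assoc, Finset.sum_range_succ]
      have e2 : X (J + 1) = X J + T J := Finset.sum_range_succ _ _
      have e3 : c (σ ^ i, σ ^ (J + 1)) = T (i + J) + c (σ ^ i, σ ^ J) - σ ^ i • T J := by
        show _ = c (σ ^ (i + J), σ) + _ - σ ^ i • c (σ ^ J, σ)
        rw [h]; abel
      rw [e3, ih, e1, e2, smul_add]
      abel
  refine ⟨X n, ?_, ?_⟩
  · -- invariance of `a`
    have hσa : σ • X n = X n := by
      have h1 : ∀ l, σ • T l = T (l + 1) + (c (σ, σ ^ l) - c (σ, σ ^ (l + 1))) := by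
        intro l
        have h := hc σ (σ ^ l) σ
        rw [← pow_succ', ← pow_succ] at h
        show σ • c (σ ^ l, σ) = c (σ ^ (l + 1), σ) + _
        have : σ • c (σ ^ l, σ) = c (σ ^ (l + 1), σ) + c (σ, σ ^ l) - c (σ, σ ^ (l + 1)) := by
          rw [h]; abel
        rw [this]; abel
      show σ • ∑ l ∈ Finset.range n, T l = _
      rw [Finset.smul_sum, Finset.sum_congr rfl fun l _ => h1 l, Finset.sum_add_distrib,
        Finset.sum_range_sub', pow_zero]
      have e1 : c (σ, σ ^ n) = c (σ, 1) := by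
        have := (hinv σ 1 _ hσn).2.1
        rwa [one_mul] at this
      rw [e1, sub_self, add_zero]
      have e2 : ∑ l ∈ Finset.range n, T (l + 1) = X (n + 1) - T 0 := by
        show _ = ∑ l ∈ Finset.range (n + 1), T l - T 0
        rw [Finset.sum_range_succ']; abel
      have e3 : X (n + 1) = X n + T n := Finset.sum_range_succ _ _
      have e4 : T n = T 0 := by
        have := hTper 0
        rwa [add_zero] at this
      rw [e2, e3, e4]
      abel
    have hσpow : ∀ i : ℕ, σ ^ i • X n = X n := by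
      intro i
      induction i with
      | zero => simp
      | succ i ih => rw [pow_succ, mul_smul, hσa, ih]
    intro g
    rw [hsm g _ (hXN n), hσpow]
  · refine ⟨fun g => c (1, 1) - X (cycVal n χ g), fun g h => ?_⟩
    have hfix1 : ∀ ν ∈ χ.ker, ν • c (1, 1) = c (1, 1) := fun ν hν => (hinv _ _ ν hν).2.2
    show g • (c (1, 1) - X (cycVal n χ h)) - (c (1, 1) - X (cycVal n χ (g * h))) +
      (c (1, 1) - X (cycVal n χ g)) = _
    rw [Pi.sub_apply, hcI g h, hmain, cyc_eq, smul_sub, hsm g _ hfix1, hsm g _ (hXN _),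
      cycVal_mul, C1_mod n _ _ (cycVal_lt n χ g) (cycVal_lt n χ h)]
    by_cases hle : n ≤ cycVal n χ g + cycVal n χ h
    · rw [if_pos hle, if_pos hle]
      have e : cycVal n χ g + cycVal n χ h = n + (cycVal n χ g + cycVal n χ h - n) := by omega
      have e5 : X (cycVal n χ g + cycVal n χ h) =
          X n + X (cycVal n χ g + cycVal n χ h - n) := by
        conv_lhs => rw [e]
        exact hXper _
      rw [e5]
      abel
    · rw [if_neg hle, if_neg hle]
      abel

/-- every class of `H²(G,A)` dying on `ker χ` is a carry class. -/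
theorem exists_cyc_of_res_ker (n : ℕ) [NeZero n] (χ : G →* Multiplicative (ZMod n)) (σ : G)
    (hσ : Multiplicative.toAdd (χ σ) = ((1 : ℕ) : ZMod n))
    (h1 : ∀ f : χ.ker → A, IsCocycle₁ f → IsCoboundary₁ f)
    (c : G × G → A) (hc : IsCocycle₂ c) (hres : IsCoboundary₂ (resC χ.ker c)) :
    ∃ a : A, (∀ g : G, g • a = a) ∧ IsCoboundary₂ (c - cyc n χ a) := by
  obtain ⟨c', hc', hcc', hinv⟩ := infRes_normalForm χ.ker h1 c hc hres
  obtain ⟨a, ha, hca⟩ := CR_of_normalForm n χ σ hσ c' hc' hinv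
  refine ⟨a, ha, ?_⟩
  have : c - cyc n χ a = (c - c') + (c' - cyc n χ a) := by abel
  rw [this]
  exact (B2 G A).add_mem hcc' hca

end Fermat.Agent.S55Lib
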