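import Fermat.Agent.S55.L.Norm

/-!
# S55, chapter L: integers, maximal ideal, residue field, uniformizers (definitions + basic API)
-/

set_option autoImplicit false
set_option linter.unusedSectionVars false

namespace Fermat.Agent.S55Lib

variable (q : ℕ) [Fact q.Prime]

section Defs

variable (F : Type*) [Field F] [Algebra ℚ_[q] F] [Algebra.IsAlgebraic ℚ_[q] F]

/-- the ring of integers `{x | nm x ≤ 1}` -/
noncomputable def OO : Subring F where
  carrier := {x | nm q x ≤ 1}
  mul_mem' := fun {a b} ha hb => by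
    simp only [Set.mem_setOf_eq] at *
    rw [nm_mul]
    exact mul_le_one₀ ha (nm_nonneg q b) hb
  one_mem' := by simp
  add_mem' := fun {a b} ha hb => (nm_add_le q a b).trans (max_le ha hb)
  zero_mem' := by simp
  neg_mem' := fun {a} ha => by simpa using ha

variable {F}

lemma mem_OO {x : F} : x ∈ OO q F ↔ nm q x ≤ 1 := Iff.rfl

variable (F)

/-- the maximal ideal `{x | nm x < 1}` -/
noncomputable def mm : Ideal (OO q F) where
  carrier := {x | nm q (x : F) < 1}
  add_mem' := fun {a b} ha hb => (nm_add_le q (a : F) (b : F)).trans_lt (max_lt ha hb)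
  zero_mem' := by simp
  smul_mem' := fun c x hx => by
    simp only [Set.mem_setOf_eq, smul_eq_mul, Subring.coe_mul] at *
    rw [nm_mul]
    exact mul_lt_one_of_nonneg_of_lt_one_right c.2 (nm_nonneg q _) hx

variable {F}

lemma mem_mm {x : OO q F} : x ∈ mm q F ↔ nm q (x : F) < 1 := Iff.rfl

lemma isUnit_OO_iff {x : OO q F} : IsUnit x ↔ nm q (x : F) = 1 := by
  constructor
  · rintro ⟨u, rfl⟩
    have h1 : nm q ((u : OO q F) : F) * nm q (((u⁻¹ : (OO q F)ˣ) : OO q F) : F) = 1 := by
      rw [← nm_mul, ← Subring.coe_mul, Units.mul_inv]; simp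
    have h2 := (u : OO q F).2
    have h3 := ((u⁻¹ : (OO q F)ˣ) : OO q F).2
    rw [mem_OO] at h2 h3
    by_contra hne
    have hlt : nm q ((u : OO q F) : F) < 1 := lt_of_le_of_ne h2 hne
    have : nm q ((u : OO q F) : F) * nm q (((u⁻¹ : (OO q F)ˣ) : OO q F) : F) < 1 :=
      mul_lt_one_of_nonneg_of_lt_one_left (nm_nonneg q _) hlt h3
    exact absurd h1 this.ne
  · intro h
    have hx0 : (x : F) ≠ 0 := by
      intro h0; rw [h0, nm_zero] at h; exact zero_ne_one h
    refine ⟨⟨x, ⟨(x : F)⁻¹, by rw [mem_OO, nm_inv, h, inv_one]⟩, ?_, ?_⟩, rfl⟩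
    · exact Subtype.ext (mul_inv_cancel₀ hx0)
    · exact Subtype.ext (inv_mul_cancel₀ hx0)

instance mm_isMaximal : (mm q F).IsMaximal := by
  rw [Ideal.isMaximal_iff]
  refine ⟨fun h => by simp [mem_mm] at h, fun J x _ hx hxJ => ?_⟩
  have hx1 : nm q (x : F) = 1 := le_antisymm x.2 (not_lt.1 hx)
  obtain ⟨u, rfl⟩ := (isUnit_OO_iff q).2 hx1
  have := J.mul_mem_left ((u⁻¹ : (OO q F)ˣ) : OO q F) hxJ
  rwa [Units.inv_mul] at this

variable (F)

/-- the residue field -/
abbrev kk : Type _ := OO q F ⧸ mm q F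

noncomputable instance kk_field : Field (kk q F) := Ideal.Quotient.field (mm q F)

/-- reduction -/
noncomputable def red : OO q F →+* kk q F := Ideal.Quotient.mk (mm q F)

/-- the cardinality of the residue field -/
noncomputable def QQ : ℕ := Nat.card (kk q F)

variable {F}

lemma red_surjective : Function.Surjective (red q F) := Ideal.Quotient.mk_surjective

lemma red_eq_zero {x : OO q F} : red q F x = 0 ↔ nm q (x : F) < 1 :=
  Ideal.Quotient.eq_zero_iff_mem

lemma red_eq_red {x y : OO q F} : red q F x = red q F y ↔ nm q ((x : F) - y) < 1 := by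
  rw [← sub_eq_zero, ← map_sub, red_eq_zero]; rfl

/-- `π` is a uniformizer: an element of maximal norm `< 1`. -/
def IsUnif (π : F) : Prop := nm q π < 1 ∧ ∀ x : F, nm q x < 1 → nm q x ≤ nm q π

/-- the map on integers induced by a `ℚ_[q]`-algebra homomorphism -/
noncomputable def OO.map {E : Type*} [Field E] [Algebra ℚ_[q] E] [Algebra.IsAlgebraic ℚ_[q] E]
    (φ : F →ₐ[ℚ_[q]] E) : OO q F →+* OO q E :=
  (φ.toRingHom.comp (OO q F).subtype).codRestrict (OO q E) (fun x => by
    show nm q (φ (x : F)) ≤ 1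
    rw [nm_algHom]; exact x.2)

@[simp] lemma OO.coe_map {E : Type*} [Field E] [Algebra ℚ_[q] E] [Algebra.IsAlgebraic ℚ_[q] E]
    (φ : F →ₐ[ℚ_[q]] E) (x : OO q F) : ((OO.map q φ x : OO q E) : E) = φ (x : F) := rfl

/-- the map on residue fields induced by a `ℚ_[q]`-algebra homomorphism -/
noncomputable def kk.map {E : Type*} [Field E] [Algebra ℚ_[q] E] [Algebra.IsAlgebraic ℚ_[q] E]
    (φ : F →ₐ[ℚ_[q]] E) : kk q F →+* kk q E :=
  Ideal.Quotient.lift (mm q F) ((red q E).comp (OO.map q φ)) (fun x hx => by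
    rw [RingHom.comp_apply, red_eq_zero, OO.coe_map, nm_algHom]; exact hx)

@[simp] lemma kk.map_red {E : Type*} [Field E] [Algebra ℚ_[q] E] [Algebra.IsAlgebraic ℚ_[q] E]
    (φ : F →ₐ[ℚ_[q]] E) (x : OO q F) : kk.map q φ (red q F x) = red q E (OO.map q φ x) := rfl

end Defs

end Fermat.Agent.S55Lib
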