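import Fermat.Agent.S55.RootDefs
import Fermat.Agent.S55.L.Res

/-!
# S55, chapter L: remaining definitions (cyclic cocycles, restriction, unit filtration)
-/

set_option autoImplicit false
set_option linter.unusedSectionVars false

namespace Fermat.Agent.S55Lib

open groupCohomology

section Coh

variable {G : Type*} [Group G] {A : Type*} [AddCommGroup A]

/-- restriction of a 2-cochain to a subgroup (the expression used in `IsClassModule`) -/
def resC (H : Subgroup G) (u : G × G → A) : H × H → A := fun x => u ((x.1 : G), (x.2 : G))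

@[simp] lemma resC_apply (H : Subgroup G) (u : G × G → A) (x : H × H) :
    resC H u x = u ((x.1 : G), (x.2 : G)) := rfl

/-- the "carry" 2-cochain attached to a character `χ : G → ℤ/n` and `a : A`:
`(g,h) ↦ a` if `χ̃ g + χ̃ h ≥ n` and `0` otherwise (`χ̃` = representative in `[0,n)`). -/
def cyc (n : ℕ) (χ : G →* Multiplicative (ZMod n)) (a : A) : G × G → A :=
  fun x => if n ≤ (Multiplicative.toAdd (χ x.1)).val + (Multiplicative.toAdd (χ x.2)).val
    then a else 0

lemma cyc_apply (n : ℕ) (χ : G →* Multiplicative (ZMod n)) (a : A) (g h : G) :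
    cyc n χ a (g, h) = if n ≤ (Multiplicative.toAdd (χ g)).val + (Multiplicative.toAdd (χ h)).val
    then a else 0 := rfl

end Coh

section Units

variable (q : ℕ) [Fact q.Prime]
variable {F : Type*} [Field F] [Algebra ℚ_[q] F] [Algebra.IsAlgebraic ℚ_[q] F]

/-- the unit filtration `U^(i) = {u | nm u = 1, nm (u - 1) ≤ (nm π)^i}`; `U^(0)` = all units. -/
noncomputable def UU (π : F) (i : ℕ) : Subgroup Fˣ where
  carrier := {u | nm q (u : F) = 1 ∧ nm q ((u : F) - 1) ≤ nm q π ^ i}
  one_mem' := by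
    refine ⟨by simp, ?_⟩
    simp only [Units.val_one, sub_self, nm_zero]
    exact pow_nonneg (nm_nonneg q π) i
  mul_mem' := fun {a b} ha hb => by
    refine ⟨by rw [Units.val_mul, nm_mul, ha.1, hb.1, one_mul], ?_⟩
    have h : ((a * b : Fˣ) : F) - 1 = (a : F) * ((b : F) - 1) + ((a : F) - 1) := by
      rw [Units.val_mul]; ring
    rw [h]
    refine (nm_add_le q _ _).trans (max_le ?_ ha.2)
    rw [nm_mul, ha.1, one_mul]
    exact hb.2
  inv_mem' := fun {a} ha => by
    refine ⟨by rw [Units.val_inv_eq_inv_val, nm_inv, ha.1, inv_one], ?_⟩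
    have h : ((a⁻¹ : Fˣ) : F) - 1 = -((a⁻¹ : Fˣ) : F) * ((a : F) - 1) := by
      have : ((a⁻¹ : Fˣ) : F) * (a : F) = 1 := by rw [← Units.val_mul]; simp
      linear_combination this
    rw [h, nm_mul, nm_neg, Units.val_inv_eq_inv_val, nm_inv, ha.1, inv_one, one_mul]
    exact ha.2

lemma mem_UU {π : F} {i : ℕ} {u : Fˣ} :
    u ∈ UU q π i ↔ nm q (u : F) = 1 ∧ nm q ((u : F) - 1) ≤ nm q π ^ i := Iff.rfl

end Units

end Fermat.Agent.S55Lib
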