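import Fermat.Agent.S55.L.UClass
import Fermat.Agent.S55.L.BigField
import Fermat.Agent.S55.L.InfRes

/-!
# S55 chapter L, leaf (G7): the fundamental class
-/

set_option autoImplicit false
set_option linter.unusedSectionVars false
set_option linter.unusedVariables false
set_option linter.style.haveILetI false

namespace Fermat.Agent.S55Lib

open groupCohomology

section Aux

variable {G : Type*} [Group G] {A : Type*} [AddCommGroup A] [DistribMulAction G A]

lemma G7_resC_isCoboundary₂ (H : Subgroup G) {f : G × G → A} (hf : IsCoboundary₂ f) :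
    IsCoboundary₂ (resC H f) := by
  obtain ⟨x, hx⟩ := hf
  exact ⟨fun h => x (h : G), fun g h => hx (g : G) (h : G)⟩

lemma G7_zsmul_isCoboundary₂ (k : ℤ) {f : G × G → A} (hf : IsCoboundary₂ f) :
    IsCoboundary₂ (k • f) := (B2 G A).zsmul_mem hf k

lemma G7_add_isCoboundary₂ {f f' : G × G → A} (hf : IsCoboundary₂ f) (hf' : IsCoboundary₂ f') :
    IsCoboundary₂ (f + f') := (B2 G A).add_mem hf hf'

end Aux

variable (q : ℕ) [Fact q.Prime]

/-- (G7) the fundamental class. -/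
theorem exists_fund_class {K L : Type} [Field K] [Field L] [Algebra ℚ_[q] K] [Algebra ℚ_[q] L]
    [Algebra K L] [IsScalarTower ℚ_[q] K L] [FiniteDimensional ℚ_[q] L] [IsGalois K L] :
    ∃ u : (L ≃ₐ[K] L) × (L ≃ₐ[K] L) → Additive Lˣ, IsCocycle₂ u ∧
      ∀ (H : Subgroup (L ≃ₐ[K] L)) (k : ℤ), IsCoboundary₂ (k • resC H u) →
        (Nat.card H : ℤ) ∣ k := by
  haveI fK : FiniteDimensional ℚ_[q] K := base_finite q (F := K) (M := L)
  haveI fKL : FiniteDimensional K L := FiniteDimensional.right ℚ_[q] K L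
  obtain ⟨n, hn⟩ : ∃ n, n = Module.finrank K L := ⟨_, rfl⟩
  have hn0 : 0 < n := hn ▸ Module.finrank_pos
  haveI : NeZero n := ⟨hn0.ne'⟩
  have hQ := U3_two_le_QQ q (F := K)
  have hN0 : 0 < QQ q K ^ n - 1 := by
    have : 2 ≤ QQ q K ^ n := by
      calc 2 ≤ QQ q K := hQ
        _ = QQ q K ^ 1 := (pow_one _).symm
        _ ≤ QQ q K ^ n := Nat.pow_le_pow_right (by omega) hn0
    omega
  obtain ⟨M, iF, iQ, iK, iL, tQK, tQL, tKL, fM, gM, ζ, hζ⟩ :=
    exists_big_field q (K := K) (L := L) (QQ q K ^ n - 1) hN0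
  haveI fKM : FiniteDimensional K M := FiniteDimensional.right ℚ_[q] K M
  haveI fLM : FiniteDimensional L M := FiniteDimensional.right ℚ_[q] L M
  haveI gLM : IsGalois L M := IsGalois.tower_top_of_isGalois K L M
  obtain ⟨χ, -, hχ⟩ := exists_chi q (F := K) (M := M) n ζ hζ
  obtain ⟨π, hπ⟩ := exists_isUnif q (F := K)
  obtain ⟨π', hπ'⟩ : ∃ π' : Kˣ, (π' : K) = π := ⟨Units.mk0 π hπ.ne_zero, rfl⟩
  obtain ⟨a, ha⟩ : ∃ a : Additive Mˣ,
      a = Additive.ofMul (Units.map (algebraMap K M).toMonoidHom π') := ⟨_, rfl⟩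
  have hafix : ∀ g : M ≃ₐ[K] M, g • a = a := by
    intro g
    rw [ha]
    apply Additive.toMul.injective
    apply Units.ext
    exact g.commutes (π' : K)
  have hc : IsCocycle₂ (cyc n χ a) := cyc_isCocycle₂ n χ a hafix
  let ρ : (M ≃ₐ[K] M) →* (L ≃ₐ[K] L) := AlgEquiv.restrictNormalHom L
  have hρ : Function.Surjective ρ := AlgEquiv.restrictNormalHom_surjective M
  let ι : Additive Lˣ →+ Additive Mˣ := (Units.map (algebraMap L M).toMonoidHom).toAdditive
  have hι : Function.Injective ι := by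
    intro x y hxy
    apply Additive.toMul.injective
    apply Units.ext
    apply (algebraMap L M).injective
    exact congrArg (fun c : Additive Mˣ => ((Additive.toMul c : Mˣ) : M)) hxy
  have hcomp : ∀ (g : M ≃ₐ[K] M) (b : Additive Lˣ), ι (ρ g • b) = g • ι b := by
    intro g b
    apply Additive.toMul.injective
    apply Units.ext
    exact AlgEquiv.restrictNormal_commutes g L ((Additive.toMul b : Lˣ) : L)
  have himg : ∀ x : Additive Mˣ, (∀ ν ∈ ρ.ker, ν • x = x) → ∃ b, ι b = x := by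
    intro x hx
    have hfix : ∀ σ : M ≃ₐ[L] M, σ ((Additive.toMul x : Mˣ) : M) = ((Additive.toMul x : Mˣ) : M) := by
      intro σ
      have hker : (σ.restrictScalars K) ∈ ρ.ker := by
        rw [MonoidHom.mem_ker]
        ext b
        apply (algebraMap L M).injective
        have := AlgEquiv.restrictNormal_commutes (σ.restrictScalars K) L b
        rw [show ρ (σ.restrictScalars K) b = (σ.restrictScalars K).restrictNormal L b from rfl,
          this]
        exact σ.commutes b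
      exact congrArg (fun c : Additive Mˣ => ((Additive.toMul c : Mˣ) : M)) (hx _ hker)
    obtain ⟨y, hy⟩ := (IsGalois.mem_range_algebraMap_iff_fixed _).2 hfix
    have hy0 : y ≠ 0 := by
      intro h0
      rw [h0, map_zero] at hy
      exact Units.ne_zero _ hy.symm
    refine ⟨Additive.ofMul (Units.mk0 y hy0), ?_⟩
    apply Additive.toMul.injective
    apply Units.ext
    exact hy
  have hcardD : Nat.card (L ≃ₐ[K] L) = n := by rw [hn, IsGalois.card_aut_eq_finrank]
  have hidx : ρ.ker.index * 1 = n := by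
    rw [mul_one, Subgroup.index_ker, MonoidHom.range_eq_top.2 hρ, Nat.card_congr
      (Subgroup.topEquiv (G := L ≃ₐ[K] L)).toEquiv, hcardD]
  have hres : IsCoboundary₂ (resC ρ.ker (cyc n χ a)) := by
    have := (unram_class_order q n ζ hζ χ hχ hπ π' hπ' ρ.ker 1 hidx 1).2 (by simp)
    rw [one_smul, ← ha] at this
    exact this
  obtain ⟨u, hu, hcu⟩ := infRes_descend ρ hρ ι hι hcomp himg (hilbert90_subgroup ρ.ker)
    (cyc n χ a) hc hres
  refine ⟨u, hu, fun H k hk => ?_⟩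
  have hidxH : (H.comap ρ).index * Nat.card H = n := by
    rw [Subgroup.index_comap_of_surjective H hρ, Subgroup.index_mul_card, hcardD]
  refine (unram_class_order q n ζ hζ χ hχ hπ π' hπ' (H.comap ρ) (Nat.card H) hidxH k).1 ?_
  rw [← ha]
  -- `c = (c - inf u) + inf u`
  have h1 : IsCoboundary₂ (k • resC (H.comap ρ)
      (cyc n χ a - fun x : (M ≃ₐ[K] M) × (M ≃ₐ[K] M) => ι (u (ρ x.1, ρ x.2)))) :=
    G7_zsmul_isCoboundary₂ k (G7_resC_isCoboundary₂ _ hcu)
  have h2 : IsCoboundary₂ (k • resC (H.comap ρ)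
      (fun x : (M ≃ₐ[K] M) × (M ≃ₐ[K] M) => ι (u (ρ x.1, ρ x.2)))) := by
    obtain ⟨x, hx⟩ := hk
    refine ⟨fun g => ι (x ⟨ρ (g : M ≃ₐ[K] M), g.2⟩), fun g h => ?_⟩
    have := hx ⟨ρ (g : M ≃ₐ[K] M), g.2⟩ ⟨ρ (h : M ≃ₐ[K] M), h.2⟩
    have h3 := congrArg ι this
    rw [map_add, map_sub] at h3
    have h4 : ι ((⟨ρ (g : M ≃ₐ[K] M), g.2⟩ : H) • x ⟨ρ (h : M ≃ₐ[K] M), h.2⟩) =
        g • ι (x ⟨ρ (h : M ≃ₐ[K] M), h.2⟩) := hcomp (g : M ≃ₐ[K] M) _
    rw [h4] at h3
    have h5 : (⟨ρ (g : M ≃ₐ[K] M), g.2⟩ : H) * ⟨ρ (h : M ≃ₐ[K] M), h.2⟩ =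
        ⟨ρ ((g * h : H.comap ρ) : M ≃ₐ[K] M), (g * h).2⟩ := by
      apply Subtype.ext
      exact (map_mul ρ _ _).symm
    rw [h5] at h3
    rw [h3]
    simp only [Pi.smul_apply, resC_apply, map_zsmul]
  have h3 := G7_add_isCoboundary₂ h1 h2
  have h4 : k • resC (H.comap ρ)
      (cyc n χ a - fun x : (M ≃ₐ[K] M) × (M ≃ₐ[K] M) => ι (u (ρ x.1, ρ x.2))) +
      k • resC (H.comap ρ) (fun x : (M ≃ₐ[K] M) × (M ≃ₐ[K] M) => ι (u (ρ x.1, ρ x.2))) =
      k • resC (H.comap ρ) (cyc n χ a) := by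
    funext x
    simp only [Pi.add_apply, Pi.smul_apply, resC_apply, Pi.sub_apply]
    rw [zsmul_sub, sub_add_cancel]
  rw [h4] at h3
  exact h3

end Fermat.Agent.S55Lib
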