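import Fermat.Agent.S55.L.Defs

/-!
# S55 chapter L, leaf (G1): Hilbert 90 for subgroups of `Gal(L/K)`
-/

set_option autoImplicit false
set_option linter.unusedSectionVars false
set_option linter.unusedVariables false
set_option linter.style.haveILetI false

namespace Fermat.Agent.S55Lib

open groupCohomology

/-- (G1) Hilbert 90 for subgroups. -/
theorem hilbert90_subgroup {K L : Type*} [Field K] [Field L] [Algebra K L] [FiniteDimensional K L]
    (H : Subgroup (L ≃ₐ[K] L)) (f : H → Additive Lˣ) (hf : IsCocycle₁ f) : IsCoboundary₁ f := by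
  classical
  letI : Fintype H := Fintype.ofFinite H
  let Ff : H → L := fun h => ((Additive.toMul (f h) : Lˣ) : L)
  have hFf : ∀ g h : H, Ff (g * h) = (g : L ≃ₐ[K] L) (Ff h) * Ff g := by
    intro g h
    have := hf g h
    show ((Additive.toMul (f (g * h)) : Lˣ) : L) = _
    rw [this]
    rfl
  have hFf0 : ∀ h : H, Ff h ≠ 0 := fun h => Units.ne_zero _
  have hli : LinearIndependent L (fun h : H => (((h : L ≃ₐ[K] L) : L →* L) : L → L)) :=
    LinearIndependent.comp (linearIndependent_monoidHom L L)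
      (fun h : H => ((h : L ≃ₐ[K] L) : L →* L))
      (fun x y h => by
        apply Subtype.ext
        ext z
        exact DFunLike.congr_fun h z)
  obtain ⟨z, hz⟩ : ∃ z, ∑ h : H, Ff h * (h : L ≃ₐ[K] L) z ≠ 0 := by
    by_contra hcon
    have hcon' : ∀ z, ∑ h : H, Ff h * (h : L ≃ₐ[K] L) z = 0 := by
      intro z
      by_contra h0
      exact hcon ⟨z, h0⟩
    have := Fintype.linearIndependent_iff.1 hli Ff (by
      funext z
      simp only [Finset.sum_apply, Pi.smul_apply, smul_eq_mul, Pi.zero_apply]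
      exact hcon' z) 1
    exact hFf0 1 this
  set a : L := ∑ h : H, Ff h * (h : L ≃ₐ[K] L) z with ha
  have hga : ∀ g : H, (g : L ≃ₐ[K] L) a * Ff g = a := by
    intro g
    rw [ha, map_sum, Finset.sum_mul]
    rw [← Fintype.sum_bijective (fun i : H => g * i) (Group.mulLeft_bijective g)
      (fun i => (g : L ≃ₐ[K] L) (Ff i * (i : L ≃ₐ[K] L) z) * Ff g)
      (fun i => Ff i * (i : L ≃ₐ[K] L) z)]
    intro i
    rw [hFf, map_mul]
    show _ = _ * ((g : L ≃ₐ[K] L) * (i : L ≃ₐ[K] L)) z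
    rw [AlgEquiv.mul_apply]
    ring
  refine ⟨Additive.ofMul (Units.mk0 a hz)⁻¹, fun g => ?_⟩
  apply Additive.toMul.injective
  apply Units.ext
  show (g : L ≃ₐ[K] L) ((Units.mk0 a hz)⁻¹ : Lˣ) * (((Units.mk0 a hz)⁻¹ : Lˣ)⁻¹ : Lˣ) = Ff g
  rw [inv_inv, Units.val_inv_eq_inv_val, Units.val_mk0, map_inv₀]
  have hga0 : (g : L ≃ₐ[K] L) a ≠ 0 := by
    rw [Ne, map_eq_zero]; exact hz
  have h3 := hga g
  field_simp
  exact h3.symm

end Fermat.Agent.S55Lib
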