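import Fermat.Agent.S55.H.QIndex

/-!
# S55 chapter L, leaf (C8): the `p`-index does not change on a subgroup of finite index
-/

set_option autoImplicit false
set_option linter.unusedSectionVars false
set_option linter.unusedVariables false

namespace Fermat.Agent.S55Lib

/-- (C8), `qInd` form -/
theorem C8_qInd_of_finiteIndex (p : ℕ) {A' A : Type} [AddCommGroup A'] [AddCommGroup A]
    (i : A' →+ A) (hi : Function.Injective i) (hidx : i.range.index ≠ 0)
    (h : QFin (mulp p A')) : QFin (mulp p A) ∧ qInd (mulp p A) = qInd (mulp p A') := by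
  have : i.range.FiniteIndex := ⟨hidx⟩
  have hfin : Finite (A ⧸ i.range) := AddSubgroup.finite_quotient_of_finiteIndex
  obtain ⟨h1, h2⟩ := qInd_of_finite (mulp p (A ⧸ i.range))
  have := qInd_ses i (QuotientAddGroup.mk' i.range) hi (QuotientAddGroup.mk'_surjective _)
    (fun a => by
      rw [QuotientAddGroup.mk'_apply, QuotientAddGroup.eq_zero_iff, AddMonoidHom.mem_range])
    (mulp p A') (mulp p A) (mulp p (A ⧸ i.range))
    (fun a => by simp) (fun a => by simp) h h1
  rw [h2, mul_one] at this
  exact this

/-- translation of `QFin`, `qInd` for multiplication by `p` -/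
theorem C8_card_of_qInd (p : ℕ) {A : Type} [AddCommGroup A] (h : QFin (mulp p A)) (c : ℕ)
    (hc : qInd (mulp p A) = c) :
    Finite (modp p A) ∧ Finite (torp p A) ∧ Nat.card (modp p A) = Nat.card (torp p A) * c := by
  refine ⟨h.1, h.2, ?_⟩
  have : Finite (torp p A) := h.2
  have h0 : (Nat.card (torp p A) : ℚ) ≠ 0 := by
    exact_mod_cast Nat.card_pos.ne'
  have h1 : (Nat.card (modp p A) : ℚ) / Nat.card (torp p A) = c := hc
  rw [div_eq_iff h0] at h1
  have h2 : (Nat.card (modp p A) : ℚ) = ((Nat.card (torp p A) * c : ℕ) : ℚ) := by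
    rw [h1]; push_cast; ring
  exact_mod_cast h2

end Fermat.Agent.S55Lib
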