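import Fermat.Agent.S55.L.Defs
import Fermat.Agent.S55.L.Unif
import Fermat.Agent.S55.L.ResFinite
import Fermat.Agent.S55.L.CardModPi

/-!
# S55 chapter L, leaf (N8): indices in the unit filtration
-/

set_option autoImplicit false
set_option linter.unusedSectionVars false
set_option linter.unusedVariables false

namespace Fermat.Agent.S55Lib

open groupCohomology IntermediateField

variable (q : ℕ) [Fact q.Prime]
variable {F : Type*} [Field F] [Algebra ℚ_[q] F] [FiniteDimensional ℚ_[q] F]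

/-- the unit filtration is decreasing -/
lemma N8_UU_le {π : F} (hπ : nm q π ≤ 1) {i j : ℕ} (hij : i ≤ j) : UU q π j ≤ UU q π i :=
  fun _ hu => ⟨hu.1, hu.2.trans (pow_le_pow_of_le_one (nm_nonneg q π) hπ hij)⟩

lemma N8_mem_OO {π : F} (i : ℕ) {u : Fˣ} (hu : u ∈ UU q π i) :
    ((u : F) - 1) / π ^ i ∈ OO q F := by
  rw [mem_OO, nm_div, nm_pow]
  exact div_le_one_of_le₀ hu.2 (pow_nonneg (nm_nonneg q π) i)

/-- the homomorphism `U^(i) → k`, `u ↦ (u - 1)/π^i mod m` (`i ≥ 1`) -/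
noncomputable def N8_theta {π : F} (hπ : nm q π < 1) (i : ℕ) (hi : 1 ≤ i) :
    UU q π i →* Multiplicative (kk q F) where
  toFun u := Multiplicative.ofAdd (red q F ⟨(((u : Fˣ) : F) - 1) / π ^ i, N8_mem_OO q i u.2⟩)
  map_one' := by
    rw [← ofAdd_zero, ← map_zero (red q F)]
    congr 2
    apply Subtype.ext
    simp
  map_mul' := fun u v => by
    rw [← ofAdd_add, ← map_add]
    congr 1
    rw [red_eq_red]
    have h1 : (((((u * v : UU q π i) : Fˣ) : F) - 1) / π ^ i) -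
        (((((u : Fˣ) : F) - 1) / π ^ i) + ((((v : Fˣ) : F) - 1) / π ^ i)) =
        ((((u : Fˣ) : F) - 1) / π ^ i) * (((v : Fˣ) : F) - 1) := by
      rw [Subgroup.coe_mul, Units.val_mul]
      ring
    show nm q ((((((u * v : UU q π i) : Fˣ) : F) - 1) / π ^ i) -
        (((((u : Fˣ) : F) - 1) / π ^ i) + ((((v : Fˣ) : F) - 1) / π ^ i))) < 1
    rw [h1, nm_mul]
    refine mul_lt_one_of_nonneg_of_lt_one_right (N8_mem_OO q i u.2) (nm_nonneg q _) ?_
    exact v.2.2.trans_lt (pow_lt_one₀ (nm_nonneg q π) hπ (by omega))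

lemma N8_theta_apply {π : F} (hπ : nm q π < 1) (i : ℕ) (hi : 1 ≤ i) (u : UU q π i) :
    N8_theta q hπ i hi u =
      Multiplicative.ofAdd (red q F ⟨(((u : Fˣ) : F) - 1) / π ^ i, N8_mem_OO q i u.2⟩) := rfl

lemma N8_theta_ker {π : F} (hπ : IsUnif q π) (i : ℕ) (hi : 1 ≤ i) :
    (N8_theta q hπ.1 i hi).ker = (UU q π (i + 1)).subgroupOf (UU q π i) := by
  have hpos : 0 < nm q π := (nm_pos q).2 hπ.ne_zero
  ext u
  rw [MonoidHom.mem_ker, Subgroup.mem_subgroupOf, N8_theta_apply, ofAdd_eq_one, red_eq_zero,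
    N5_lt_one_iff q hπ, mem_UU]
  show nm q ((((u : Fˣ) : F) - 1) / π ^ i) ≤ nm q π ↔ _
  rw [nm_div, nm_pow, div_le_iff₀ (pow_pos hpos i), pow_succ, mul_comm]
  exact ⟨fun h => ⟨u.2.1, h⟩, fun h => h.2⟩

lemma N8_theta_surjective {π : F} (hπ : IsUnif q π) (i : ℕ) (hi : 1 ≤ i) :
    Function.Surjective (N8_theta q hπ.1 i hi) := by
  have hπ0 : π ≠ 0 := hπ.ne_zero
  intro c
  obtain ⟨x, hx⟩ := red_surjective q (Multiplicative.toAdd c)
  have hlt : nm q (π ^ i * (x : F)) < nm q (1 : F) := by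
    rw [nm_one, nm_mul, nm_pow]
    exact mul_lt_one_of_nonneg_of_lt_one_left (pow_nonneg (nm_nonneg q π) i)
      (pow_lt_one₀ (nm_nonneg q π) hπ.1 (by omega)) x.2
  have h1 : nm q (1 + π ^ i * (x : F)) = 1 := by
    rw [nm_add_eq_of_lt q hlt, nm_one]
  have h0 : 1 + π ^ i * (x : F) ≠ 0 := by
    intro h
    rw [h, nm_zero] at h1
    exact zero_ne_one h1
  have hmem : Units.mk0 _ h0 ∈ UU q π i := by
    rw [mem_UU, Units.val_mk0]
    refine ⟨h1, ?_⟩
    rw [add_sub_cancel_left, nm_mul, nm_pow]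
    exact mul_le_of_le_one_right (pow_nonneg (nm_nonneg q π) i) x.2
  refine ⟨⟨Units.mk0 _ h0, hmem⟩, ?_⟩
  rw [N8_theta_apply, ← ofAdd_toAdd c, ← hx]
  congr 2
  apply Subtype.ext
  show (1 + π ^ i * (x : F) - 1) / π ^ i = x
  field_simp
  ring

lemma N8_relIndex_succ {π : F} (hπ : IsUnif q π) (i : ℕ) (hi : 1 ≤ i) :
    (UU q π (i + 1)).relIndex (UU q π i) = QQ q F := by
  rw [Subgroup.relIndex, ← N8_theta_ker q hπ i hi, Subgroup.index_ker,
    MonoidHom.range_eq_top.2 (N8_theta_surjective q hπ i hi), Subgroup.card_top]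
  rfl

/-- (N8) S55/L/UnitIndex.lean : `(U^(i) : U^(i+j)) = Q^j` for `i ≥ 1`; `U^(i)` has finite index
in `U^(0)`. -/
theorem relIndex_UU {π : F} (hπ : IsUnif q π) (i j : ℕ) (hi : 1 ≤ i) :
    (UU q π (i + j)).relIndex (UU q π i) = QQ q F ^ j := by
  induction j with
  | zero => rw [add_zero, Subgroup.relIndex_self, pow_zero]
  | succ j ih =>
    rw [← Subgroup.relIndex_mul_relIndex (UU q π (i + (j + 1))) (UU q π (i + j)) (UU q π i)
      (N8_UU_le q hπ.1.le (by omega)) (N8_UU_le q hπ.1.le (by omega)), ih, ← add_assoc,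
      N8_relIndex_succ q hπ (i + j) (by omega), pow_succ, mul_comm]

/-- reduction of units `U^(0) → k` -/
noncomputable def N8_redU (π : F) : UU q π 0 →* kk q F where
  toFun u := red q F ⟨((u : Fˣ) : F), u.2.1.le⟩
  map_one' := by
    rw [← map_one (red q F)]
    rfl
  map_mul' := fun u v => by
    rw [← map_mul]
    rfl

lemma N8_redU_ker {π : F} (hπ : IsUnif q π) :
    (N8_redU q π).toHomUnits.ker = (UU q π 1).subgroupOf (UU q π 0) := by
  ext u
  rw [MonoidHom.mem_ker, Subgroup.mem_subgroupOf, Units.ext_iff, MonoidHom.coe_toHomUnits,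
    Units.val_one, mem_UU, pow_one, ← N5_lt_one_iff q hπ]
  show red q F ⟨((u : Fˣ) : F), u.2.1.le⟩ = 1 ↔ _
  rw [← map_one (red q F), red_eq_red]
  exact ⟨fun h => ⟨u.2.1, h⟩, fun h => h.2⟩

/-- (N8) -/
theorem relIndex_UU_zero {π : F} (hπ : IsUnif q π) (i : ℕ) :
    (UU q π i).relIndex (UU q π 0) ≠ 0 := by
  have := finite_kk q (F := F)
  have h01 : (UU q π 1).relIndex (UU q π 0) ≠ 0 := by
    rw [Subgroup.relIndex, ← N8_redU_ker q hπ, Subgroup.index_ker]
    exact Nat.card_pos.ne'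
  rcases Nat.eq_zero_or_pos i with h0 | h0
  · rw [h0, Subgroup.relIndex_self]
    exact one_ne_zero
  · obtain ⟨j, rfl⟩ : ∃ j, i = 1 + j := ⟨i - 1, by omega⟩
    rw [← Subgroup.relIndex_mul_relIndex (UU q π (1 + j)) (UU q π 1) (UU q π 0)
      (N8_UU_le q hπ.1.le (by omega)) (N8_UU_le q hπ.1.le (by omega)),
      relIndex_UU q hπ 1 j le_rfl]
    refine mul_ne_zero (pow_ne_zero _ ?_) h01
    rw [QQ]
    exact Nat.card_pos.ne'

end Fermat.Agent.S55Lib
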