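import Fermat.Agent.S55.L.PowEst
import Fermat.Agent.S55.L.Filtered
import Fermat.Agent.S55.L.Complete
import Fermat.Agent.S55.L.UnitIndex

/-!
# S55 chapter L, leaf (X2): `x ↦ x^p` is a bijection `U^(n) → U^(n+e)` for `n > e`
-/

set_option autoImplicit false
set_option linter.unusedSectionVars false
set_option linter.unusedVariables false

namespace Fermat.Agent.S55Lib

variable (q : ℕ) [Fact q.Prime] (p : ℕ) [Fact p.Prime]

lemma X2_div_sub_one {F : Type*} [Field F] [Algebra ℚ_[q] F] [FiniteDimensional ℚ_[q] F]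
    (y w : Fˣ) (hw : nm q (w : F) = 1) :
    nm q (((y / w : Fˣ) : F) - 1) = nm q ((y : F) - w) := by
  have : ((y / w : Fˣ) : F) - 1 = ((y : F) - w) / w := by
    rw [Units.val_div_eq_div_val, sub_div, div_self w.ne_zero]
  rw [this, nm_div, hw, div_one]

lemma X2_key {F : Type*} [Field F] [Algebra ℚ_[q] F] [FiniteDimensional ℚ_[q] F]
    {π y : F} (hπ : nm q π < 1) (hp0 : (p : F) ≠ 0) (hy : nm q y ≤ nm q π * nm q (p : F)) :
    nm q ((1 + y) ^ p - 1) = nm q (p : F) * nm q y := by
  rcases eq_or_ne y 0 with rfl | hy0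
  · simp
  have h1 := nm_one_add_pow_sub q p hπ hy
  have hpos : 0 < nm q (p : F) * nm q y := mul_pos ((nm_pos q).2 hp0) ((nm_pos q).2 hy0)
  have h2 : nm q ((1 + y) ^ p - 1 - p * y) < nm q ((p : F) * y) := by
    rw [nm_mul]
    calc _ ≤ nm q π * (nm q (p : F) * nm q y) := by rw [← mul_assoc]; exact h1
      _ < 1 * (nm q (p : F) * nm q y) := mul_lt_mul_of_pos_right hπ hpos
      _ = _ := one_mul _
  have e : (1 + y) ^ p - 1 = (p : F) * y + ((1 + y) ^ p - 1 - p * y) := by ring
  rw [e, nm_add_eq_of_lt q h2, nm_mul]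

/-- (X2) S55/L/PowBij.lean : `x ↦ x^p` is a bijection `U^(n) → U^(n+e)`, `nm p = (nm π)^e`,
`n ≥ e + 1`. -/
theorem pow_p_UU {F : Type*} [Field F] [Algebra ℚ_[q] F] [FiniteDimensional ℚ_[q] F]
    {π : F} (hπ : IsUnif q π) {e n : ℕ} (he : nm q (p : F) = nm q π ^ e) (hn : e + 1 ≤ n) :
    (∀ u ∈ UU q π n, u ^ p = 1 → u = 1) ∧
    (∀ u ∈ UU q π n, u ^ p ∈ UU q π (n + e)) ∧
    (∀ v ∈ UU q π (n + e), ∃ u ∈ UU q π n, u ^ p = v) := by
  have hπ0 : π ≠ 0 := hπ.ne_zero
  have hr0 : 0 < nm q π := (nm_pos q).2 hπ0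
  have hr1 : nm q π < 1 := hπ.1
  have hp0 : (p : F) ≠ 0 := by
    intro h0
    rw [h0, nm_zero] at he
    exact (pow_pos hr0 e).ne he
  have hnp : 0 < nm q (p : F) := (nm_pos q).2 hp0
  -- the basic estimate at every level `k ≥ e + 1`
  have hsmall : ∀ k, e + 1 ≤ k → ∀ y : F, nm q y ≤ nm q π ^ k →
      nm q y ≤ nm q π * nm q (p : F) := by
    intro k hk y hy
    rw [he, ← pow_succ']
    exact hy.trans (pow_le_pow_of_le_one hr0.le hr1.le hk)
  have hest : ∀ k, e + 1 ≤ k → ∀ u ∈ UU q π k,
      nm q (((u ^ p : Fˣ) : F) - 1) = nm q (p : F) * nm q ((u : F) - 1) := by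
    intro k hk u hu
    have := X2_key q p hr1 hp0 (hsmall k hk _ hu.2)
    rw [add_sub_cancel] at this
    rw [Units.val_pow_eq_pow_val]
    exact this
  have hmapk : ∀ k, e + 1 ≤ k → ∀ u ∈ UU q π k, u ^ p ∈ UU q π (k + e) := by
    intro k hk u hu
    refine ⟨?_, ?_⟩
    · rw [Units.val_pow_eq_pow_val, nm_pow, hu.1, one_pow]
    · rw [hest k hk u hu, he, pow_add, mul_comm]
      exact mul_le_mul_of_nonneg_right hu.2 (pow_nonneg hr0.le e)
  refine ⟨?_, hmapk n hn, ?_⟩
  · intro u hu hup
    have h := hest n hn u hu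
    rw [hup, Units.val_one, sub_self, nm_zero] at h
    have h2 : nm q ((u : F) - 1) = 0 := by
      rcases mul_eq_zero.1 h.symm with h3 | h3
      · exact absurd h3 hnp.ne'
      · exact h3
    rw [nm_eq_zero, sub_eq_zero] at h2
    exact Units.ext h2
  · have key := surj_of_filtered (powMonoidHom p : Fˣ →* Fˣ) (fun i => UU q π (n + i))
      (fun i => UU q π (n + e + i)) ?_ ?_ ?_ ?_
    · intro v hv
      obtain ⟨u, hu, huv⟩ := key v hv
      exact ⟨u, hu, huv⟩
    · -- step
      intro i v hv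
      set w : F := (v : F) - 1 with hw
      have hwn : nm q w ≤ nm q π ^ (n + e + i) := hv.2
      have hyn : nm q (w / p) ≤ nm q π ^ (n + i) := by
        rw [nm_div, he, div_le_iff₀ (pow_pos hr0 e), ← pow_add]
        have : n + i + e = n + e + i := by omega
        rw [this]; exact hwn
      have hy1 : nm q (w / p) < 1 := by
        refine lt_of_le_of_lt hyn ?_
        exact pow_lt_one₀ hr0.le hr1 (by omega)
      have hnu : nm q (1 + w / p) = 1 := by
        rw [nm_add_eq_of_lt q (by rw [nm_one]; exact hy1), nm_one]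
      have hu0 : 1 + w / p ≠ 0 := by
        intro h0
        rw [h0, nm_zero] at hnu
        exact zero_ne_one hnu
      have hu : Units.mk0 (1 + w / p) hu0 ∈ UU q π (n + i) := by
        refine ⟨hnu, ?_⟩
        show nm q (1 + w / p - 1) ≤ _
        rw [add_sub_cancel_left]; exact hyn
      refine ⟨_, hu, ?_⟩
      have hup := hmapk (n + i) (by omega) _ hu
      refine ⟨?_, ?_⟩
      · rw [Units.val_div_eq_div_val, nm_div, hv.1]
        show 1 / nm q ((Units.mk0 (1 + w / p) hu0 ^ p : Fˣ) : F) = 1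
        rw [hup.1, div_one]
      · have h1 := nm_one_add_pow_sub q p hr1 (hsmall (n + i) (by omega) _ hyn)
        rw [mul_div_cancel₀ _ hp0] at h1
        have e1 : nm q π * nm q (p : F) * nm q (w / p) = nm q π * nm q w := by
          rw [nm_div]; field_simp
        rw [e1] at h1
        show nm q (((v / (Units.mk0 (1 + w / p) hu0 ^ p) : Fˣ) : F) - 1) ≤ _
        rw [X2_div_sub_one q _ _ hup.1]
        rw [Units.val_pow_eq_pow_val, Units.val_mk0]
        have e2 : (v : F) - (1 + w / p) ^ p = -((1 + w / p) ^ p - 1 - w) := by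
          rw [hw]; ring
        rw [e2, nm_neg]
        refine h1.trans ?_
        rw [← add_assoc, pow_succ']
        exact mul_le_mul_of_nonneg_left hwn hr0.le
    · -- map
      intro i u hu
      have := hmapk (n + i) (by omega) u hu
      have e1 : n + i + e = n + e + i := by omega
      rw [e1] at this
      exact this
    · -- completeness
      intro a ha
      exact UU_complete q hr1 n a ha
    · -- separation
      intro y hy
      exact UU_sep q hr1 y (fun i => N8_UU_le q hr1.le (by omega) (hy i))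

end Fermat.Agent.S55Lib
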