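import Fermat.Agent.S55.L.IndexP
import Fermat.Agent.S55.L.PowBij
import Fermat.Agent.S55.L.EF

/-!
# S55 chapter L, leaf (X3): `(U : U^p)`
-/

set_option autoImplicit false
set_option linter.unusedSectionVars false
set_option linter.unusedVariables false

namespace Fermat.Agent.S55Lib

variable (q : ℕ) [Fact q.Prime] (p : ℕ) [Fact p.Prime]
variable {F : Type} [Field F] [Algebra ℚ_[q] F] [FiniteDimensional ℚ_[q] F]

/-- `q_p(U^(n)) = Q^e` for `n > e` -/
lemma X3_qInd_UU {π : F} (hπ : IsUnif q π) {e n : ℕ} (he : nm q (p : F) = nm q π ^ e)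
    (hn : e + 1 ≤ n) :
    QFin (mulp p (Additive (UU q π n))) ∧
      qInd (mulp p (Additive (UU q π n))) = (QQ q F ^ e : ℕ) := by
  obtain ⟨h1, h2, h3⟩ := pow_p_UU q p hπ he hn
  have hker : (mulp p (Additive (UU q π n))).ker = ⊥ := by
    rw [eq_bot_iff]
    intro x hx
    rw [AddMonoidHom.mem_ker] at hx
    have hx' : ((Additive.toMul x : UU q π n) : Fˣ) ^ p = 1 := by
      have := congrArg (fun z : Additive (UU q π n) => ((Additive.toMul z : UU q π n) : Fˣ)) hx
      simpa using this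
    have := h1 _ (Additive.toMul x : UU q π n).2 hx'
    rw [AddSubgroup.mem_bot]
    apply Additive.toMul.injective
    exact Subtype.ext this
  have hrange : (mulp p (Additive (UU q π n))).range =
      Subgroup.toAddSubgroup ((UU q π (n + e)).subgroupOf (UU q π n)) := by
    ext x
    rw [AddMonoidHom.mem_range]
    constructor
    · rintro ⟨y, rfl⟩
      show ((Additive.toMul y : UU q π n) : Fˣ) ^ p ∈ UU q π (n + e)
      exact h2 _ (Additive.toMul y : UU q π n).2
    · intro hx
      obtain ⟨u, hu, hux⟩ := h3 _ (show ((Additive.toMul x : UU q π n) : Fˣ) ∈ UU q π (n + e)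
        from hx)
      refine ⟨Additive.ofMul ⟨u, hu⟩, ?_⟩
      apply Additive.toMul.injective
      apply Subtype.ext
      exact hux
  have hidx : (mulp p (Additive (UU q π n))).range.index = QQ q F ^ e := by
    rw [hrange, Subgroup.index_toAddSubgroup]
    exact relIndex_UU q hπ n e (by omega)
  have hQ : QQ q F ^ e ≠ 0 := by
    obtain ⟨f, -, hf⟩ := exists_QQ_eq q (F := F)
    rw [hf]
    exact pow_ne_zero _ (pow_ne_zero _ (Fact.out : q.Prime).ne_zero)
  refine ⟨Chev_qFin_iff.2 ⟨by rw [hidx]; exact hQ, by rw [hker, AddSubgroup.card_bot]; exact one_ne_zero⟩, ?_⟩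
  rw [Chev_qInd_eq, hidx, hker, AddSubgroup.card_bot]
  simp

/-- `q_p(U^(0)) = Q^e` -/
lemma X3_qInd_U0 {π : F} (hπ : IsUnif q π) {e : ℕ} (he : nm q (p : F) = nm q π ^ e) :
    QFin (mulp p (Additive (UU q π 0))) ∧
      qInd (mulp p (Additive (UU q π 0))) = (QQ q F ^ e : ℕ) := by
  obtain ⟨h1, h2⟩ := X3_qInd_UU q p hπ he (le_refl (e + 1))
  have hle : UU q π (e + 1) ≤ UU q π 0 := N8_UU_le q hπ.1.le (Nat.zero_le _)
  let i : Additive (UU q π (e + 1)) →+ Additive (UU q π 0) :=
    MonoidHom.toAdditive (Subgroup.inclusion hle)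
  have hi : Function.Injective i := fun a b h =>
    Additive.toMul.injective (Subgroup.inclusion_injective hle (congrArg Additive.toMul h))
  have hrange : i.range = Subgroup.toAddSubgroup ((UU q π (e + 1)).subgroupOf (UU q π 0)) := by
    ext x
    rw [AddMonoidHom.mem_range]
    constructor
    · rintro ⟨y, rfl⟩
      exact (Additive.toMul y : UU q π (e + 1)).2
    · intro hx
      exact ⟨Additive.ofMul ⟨((Additive.toMul x : UU q π 0) : Fˣ), hx⟩, rfl⟩
  have hidx : i.range.index ≠ 0 := by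
    rw [hrange, Subgroup.index_toAddSubgroup]
    exact relIndex_UU_zero q hπ (e + 1)
  obtain ⟨h3, h4⟩ := C8_qInd_of_finiteIndex p i hi hidx h1
  exact ⟨h3, h4.trans h2⟩

/-- the exponent `e` and the value of `Q^e` -/
lemma X3_exists_e {π : F} (hπ : IsUnif q π) :
    ∃ e : ℕ, nm q (p : F) = nm q π ^ e ∧
      QQ q F ^ e = if q = p then p ^ Module.finrank ℚ_[q] F else 1 := by
  by_cases hqp : q = p
  · subst hqp
    obtain ⟨e, -, he⟩ := N6_exists_pow q hπ
    refine ⟨e, by rw [he, nm_q], ?_⟩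
    rw [if_pos rfl]
    exact QQ_pow_eq q hπ he
  · refine ⟨0, ?_, by rw [if_neg hqp, pow_zero]⟩
    rw [pow_zero]
    apply nm_natCast_eq_one
    intro h
    exact hqp ((Nat.prime_dvd_prime_iff_eq Fact.out Fact.out).1 h)

/-- (X3) S55/L/IndexUnits.lean -/
theorem card_modp_U0 {π : F} (hπ : IsUnif q π) :
    Finite (modp p (Additive (UU q π 0))) ∧ Finite (torp p (Additive (UU q π 0))) ∧
    Nat.card (modp p (Additive (UU q π 0))) =
      Nat.card (torp p (Additive (UU q π 0))) *
        (if q = p then p ^ Module.finrank ℚ_[q] F else 1) := by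
  obtain ⟨e, he, hQ⟩ := X3_exists_e q p hπ
  obtain ⟨h1, h2⟩ := X3_qInd_U0 q p hπ he
  rw [← hQ]
  exact C8_card_of_qInd p h1 _ h2

end Fermat.Agent.S55Lib
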