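import Fermat.Agent.S55.L.Defs

/-!
# S55 chapter L, leaf (G2): `(L^×)^H = (L^H)^×`
-/

set_option autoImplicit false
set_option linter.unusedSectionVars false
set_option linter.unusedVariables false

namespace Fermat.Agent.S55Lib

open groupCohomology IntermediateField

lemma G2_mem_inv_iff {K L : Type*} [Field K] [Field L] [Algebra K L]
    (H : Subgroup (L ≃ₐ[K] L)) (c : Additive Lˣ) :
    c ∈ inv H (Additive Lˣ) ↔ ((Additive.toMul c : Lˣ) : L) ∈ IntermediateField.fixedField H := by
  rw [IntermediateField.mem_fixedField_iff]
  constructor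
  · intro h g hg
    have := h g hg
    exact congrArg (fun z : Additive Lˣ => ((Additive.toMul z : Lˣ) : L)) this
  · intro h g hg
    apply Additive.toMul.injective
    apply Units.ext
    exact h g hg

/-- (G2) S55/L/InvUnits.lean : `(L^×)^H = (L^H)^×`. -/
theorem exists_inv_units_equiv {K L : Type*} [Field K] [Field L] [Algebra K L]
    [FiniteDimensional K L] (H : Subgroup (L ≃ₐ[K] L)) :
    ∃ e : inv H (Additive Lˣ) ≃+ Additive (IntermediateField.fixedField H)ˣ,
      ∀ c, ((Additive.toMul (e c) : (IntermediateField.fixedField H)ˣ) : L) =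
        ((Additive.toMul (c : Additive Lˣ) : Lˣ) : L) := by
  let f : inv H (Additive Lˣ) → Additive (IntermediateField.fixedField H)ˣ := fun c =>
    Additive.ofMul (Units.mk0 (⟨((Additive.toMul (c : Additive Lˣ) : Lˣ) : L),
      (G2_mem_inv_iff H c).1 c.2⟩ : IntermediateField.fixedField H)
      (fun h => Units.ne_zero (Additive.toMul (c : Additive Lˣ) : Lˣ) (congrArg Subtype.val h)))
  let g : Additive (IntermediateField.fixedField H)ˣ → inv H (Additive Lˣ) := fun y =>
    ⟨Additive.ofMul (Units.map (algebraMap (IntermediateField.fixedField H) L).toMonoidHom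
      (Additive.toMul y)), (G2_mem_inv_iff H _).2 (Additive.toMul y : _ˣ).1.2⟩
  refine ⟨{ toFun := f, invFun := g, left_inv := ?_, right_inv := ?_, map_add' := ?_ },
    fun c => rfl⟩
  · intro c
    apply Subtype.ext
    apply Additive.toMul.injective
    apply Units.ext
    rfl
  · intro y
    apply Additive.toMul.injective
    apply Units.ext
    apply Subtype.ext
    rfl
  · intro a b
    apply Additive.toMul.injective
    apply Units.ext
    apply Subtype.ext
    rfl

end Fermat.Agent.S55Lib
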