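import Fermat.Agent.S55.L.LayerChev
import Fermat.Agent.S55.L.IndexField
import Fermat.Agent.S55.L.InvUnits
import Fermat.Agent.S55.L.H90
import Fermat.Agent.S55.L.IF

/-!
# S55 chapter L, leaf (G3): the cyclic layers of degree `p` of a local Galois extension
-/

set_option autoImplicit false
set_option linter.unusedSectionVars false
set_option linter.unusedVariables false

namespace Fermat.Agent.S55Lib

open groupCohomology IntermediateField

section S1

variable (q : ℕ) [Fact q.Prime] (p : ℕ) [Fact p.Prime]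

/-- the index formula for `(L^×)^H` -/
lemma G3_card_inv {K L : Type} [Field K] [Field L] [Algebra ℚ_[q] K] [Algebra ℚ_[q] L]
    [Algebra K L] [IsScalarTower ℚ_[q] K L] [FiniteDimensional ℚ_[q] L] [IsGalois K L]
    (H : Subgroup (L ≃ₐ[K] L)) :
    Finite (modp p (inv H (Additive Lˣ))) ∧ Finite (torp p (inv H (Additive Lˣ))) ∧
    Nat.card (modp p (inv H (Additive Lˣ))) =
      p * Nat.card (torp p (inv H (Additive Lˣ))) *
        (if q = p then p ^ Module.finrank ℚ_[q] (IntermediateField.fixedField H) else 1) := by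
  have : FiniteDimensional K L := FiniteDimensional.right ℚ_[q] K L
  have := IF_finite q (IntermediateField.fixedField H)
  obtain ⟨e, -⟩ := exists_inv_units_equiv H
  obtain ⟨h1, h2, h3⟩ := card_modp_units q p (F := IntermediateField.fixedField H)
  refine ⟨Finite.of_equiv _ (G3_modpCongr p e).symm.toEquiv,
    Finite.of_equiv _ (G3_torpCongr p e).symm, ?_⟩
  rw [Nat.card_congr (G3_modpCongr p e).toEquiv, Nat.card_congr (G3_torpCongr p e)]
  exact h3

/-- (G3) S55/L/Layer.lean : the cyclic layers of degree `p` (input of `pgroup_devissage`). -/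
theorem local_layer {K L : Type} [Field K] [Field L] [Algebra ℚ_[q] K] [Algebra ℚ_[q] L]
    [Algebra K L] [IsScalarTower ℚ_[q] K L] [FiniteDimensional ℚ_[q] L] [IsGalois K L]
    (H H' : Subgroup (L ≃ₐ[K] L)) (hH : IsPGroup p H) (hle : H' ≤ H)
    (hn : (H'.subgroupOf H).Normal) (hidx : H'.relIndex H = p) (s : L ≃ₐ[K] L) (hs : s ∈ H)
    (hs' : s ∉ H') :
    (∀ c ∈ inv H' (Additive Lˣ), (∑ i ∈ Finset.range p, s ^ i • c) = 0 →
      ∃ d ∈ inv H' (Additive Lˣ), c = s • d - d) ∧
    (∃ c0 ∈ inv H (Additive Lˣ), ∀ c ∈ inv H (Additive Lˣ), ∃ k : ℤ,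
      ∃ d ∈ inv H' (Additive Lˣ), c = k • c0 + ∑ i ∈ Finset.range p, s ^ i • d) := by
  have hpp : p.Prime := Fact.out
  have : FiniteDimensional K L := FiniteDimensional.right ℚ_[q] K L
  obtain ⟨a1, a2, a3⟩ := G3_card_inv q p H'
  obtain ⟨b1, b2, b3⟩ := G3_card_inv q p H
  have hfr : Module.finrank ℚ_[q] (IntermediateField.fixedField H') =
      Module.finrank ℚ_[q] (IntermediateField.fixedField H) * p := by
    have := IF_tower q (IntermediateField.fixedField H)
    have := IF_tower q (IntermediateField.fixedField H')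
    have e1 := Module.finrank_mul_finrank ℚ_[q] (IntermediateField.fixedField H) L
    have e2 := Module.finrank_mul_finrank ℚ_[q] (IntermediateField.fixedField H') L
    rw [IntermediateField.finrank_fixedField_eq_card] at e1 e2
    have e3 := Subgroup.relIndex_mul_relIndex ⊥ H' H bot_le hle
    rw [Subgroup.relIndex_bot_left, Subgroup.relIndex_bot_left, hidx] at e3
    have hpos : 0 < Nat.card H' := Nat.card_pos
    apply Nat.eq_of_mul_eq_mul_right hpos
    rw [e2, ← e1, ← e3]
    ring
  refine G3_layer_abs p H H' hle hn hidx s hs hs' (hilbert90_subgroup H)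
    (if q = p then p ^ Module.finrank ℚ_[q] (IntermediateField.fixedField H) else 1) ?_
    a1 a2 b2 ?_ b3
  · split_ifs
    · exact pow_pos hpp.pos _
    · exact one_pos
  · rw [a3, hfr]
    split_ifs
    · rw [pow_mul]
    · rw [one_pow]

end S1

end Fermat.Agent.S55Lib
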