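import Fermat.Agent.S55.L.LayerAbs
import Fermat.Agent.S55.H.Chevalley

/-!
# S55 chapter L, leaf (G3), abstract part: a cyclic layer of degree `p` via Chevalley's formula
-/

set_option autoImplicit false
set_option linter.unusedSectionVars false
set_option linter.unusedVariables false

namespace Fermat.Agent.S55Lib

open groupCohomology

/-- transport of `A/p` -/
noncomputable def G3_modpCongr (p : ℕ) {A B : Type} [AddCommGroup A] [AddCommGroup B]
    (e : A ≃+ B) : modp p A ≃+ modp p B :=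
  QuotientAddGroup.congr _ _ e (by
    ext b
    constructor
    · rintro ⟨_, ⟨a, rfl⟩, rfl⟩
      exact ⟨e a, by simp⟩
    · rintro ⟨b, rfl⟩
      exact ⟨_, ⟨e.symm b, rfl⟩, by simp⟩)

/-- transport of `A[p]` -/
noncomputable def G3_torpCongr (p : ℕ) {A B : Type} [AddCommGroup A] [AddCommGroup B]
    (e : A ≃+ B) : torp p A ≃ torp p B :=
  e.toEquiv.subtypeEquiv (fun a => by
    show p • AddMonoidHom.id A a = 0 ↔ p • AddMonoidHom.id B (e a) = 0
    simp only [AddMonoidHom.id_apply, ← map_nsmul]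
    exact (map_eq_zero_iff e e.injective).symm)

theorem G3_layer_abs (p : ℕ) [Fact p.Prime] {G : Type} [Group G] {C : Type} [AddCommGroup C]
    [DistribMulAction G C]
    (H H' : Subgroup G) (hle : H' ≤ H) (hn : (H'.subgroupOf H).Normal)
    (hidx : H'.relIndex H = p) (s : G) (hs : s ∈ H) (hs' : s ∉ H')
    (h1 : ∀ f : H → C, IsCocycle₁ f → IsCoboundary₁ f)
    (X : ℕ) (hX : 0 < X)
    (hf1 : Finite (modp p (inv H' C))) (hf2 : Finite (torp p (inv H' C)))
    (hf3 : Finite (torp p (inv H C)))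
    (hc1 : Nat.card (modp p (inv H' C)) = p * Nat.card (torp p (inv H' C)) * X ^ p)
    (hc2 : Nat.card (modp p (inv H C)) = p * Nat.card (torp p (inv H C)) * X) :
    (∀ c ∈ inv H' C, (∑ i ∈ Finset.range p, s ^ i • c) = 0 → ∃ d ∈ inv H' C, c = s • d - d) ∧
    (∃ c0 ∈ inv H C, ∀ c ∈ inv H C, ∃ k : ℤ, ∃ d ∈ inv H' C,
      c = k • c0 + ∑ i ∈ Finset.range p, s ^ i • d) := by
  have hpp : p.Prime := Fact.out
  obtain ⟨χ, hχker, hχs⟩ := G3_exists_chi p (H'.subgroupOf H) hidx ⟨s, hs⟩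
    (by rw [Subgroup.mem_subgroupOf]; exact hs')
  have hmemker : ∀ ν : H, ν ∈ χ.ker ↔ (ν : G) ∈ H' := by
    intro ν
    rw [hχker, Subgroup.mem_subgroupOf]
  have hkerfix : ∀ c : C, (∀ ν ∈ χ.ker, ν • c = c) ↔ c ∈ inv H' C := by
    intro c
    constructor
    · intro h n hn'
      exact h ⟨n, hle hn'⟩ ((hmemker _).2 hn')
    · intro h ν hν
      exact h (ν : G) ((hmemker ν).1 hν)
  have hpowsm : ∀ (i : ℕ) (c : C), ((⟨s, hs⟩ : H) ^ i) • c = s ^ i • c := fun i c => rfl
  -- part 1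
  have part1 : ∀ c ∈ inv H' C, (∑ i ∈ Finset.range p, s ^ i • c) = 0 →
      ∃ d ∈ inv H' C, c = s • d - d := by
    intro c hc hN
    obtain ⟨d, hd, hcd⟩ := G3_h90 p χ ⟨s, hs⟩ hχs h1 c ((hkerfix c).2 hc) hN
    exact ⟨d, (hkerfix d).1 hd, hcd⟩
  refine ⟨part1, ?_⟩
  -- group theory
  have g1 : ∀ ν ∈ H', s⁻¹ * ν * s ∈ H' := by
    intro ν hν
    have := hn.conj_mem ⟨ν, hle hν⟩ (Subgroup.mem_subgroupOf.2 hν) (⟨s, hs⟩ : H)⁻¹
    rw [Subgroup.mem_subgroupOf] at this
    simpa using this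
  have g2 : s ^ p ∈ H' := (hmemker _).1 (C2_pow_m_mem p χ p 1 (mul_one p) ⟨s, hs⟩ hχs)
  have g3 : ∀ h ∈ H, ∃ i : ℕ, (s ^ i)⁻¹ * h ∈ H' := by
    intro h hh
    exact ⟨_, (hmemker _).1 (DV_dec p χ ⟨s, hs⟩ hχs ⟨h, hh⟩)⟩
  have hsmem : ∀ a ∈ inv H' C, s • a ∈ inv H' C := by
    intro a ha ν hν
    calc ν • s • a = s • ((s⁻¹ * ν * s) • a) := by simp only [smul_smul]; congr 1; group
      _ = s • a := by rw [ha _ (g1 ν hν)]
  let σ : AddMonoid.End (inv H' C) :=
    { toFun := fun a => ⟨s • (a : C), hsmem a a.2⟩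
      map_zero' := Subtype.ext (smul_zero s)
      map_add' := fun a b => Subtype.ext (smul_add s (a : C) (b : C)) }
  have hσ1 : ∀ a : inv H' C, ((σ a : inv H' C) : C) = s • (a : C) := fun a => rfl
  have hσpow : ∀ (i : ℕ) (a : inv H' C), (((σ ^ i) a : inv H' C) : C) = s ^ i • (a : C) := by
    intro i
    induction i with
    | zero => intro a; simp
    | succ i ih =>
      intro a
      rw [pow_succ]
      show (((σ ^ i) (σ a) : inv H' C) : C) = _
      rw [ih, hσ1, pow_succ, mul_smul]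
  have hσp : σ ^ p = 1 := by
    ext a
    rw [hσpow]
    exact a.2 _ g2
  have hnorm : ∀ a : inv H' C, ((normσ p σ a : inv H' C) : C) =
      ∑ i ∈ Finset.range p, s ^ i • (a : C) := by
    intro a
    have h1 : normσ p σ a = ∑ i ∈ Finset.range p, (σ ^ i) a := by
      unfold normσ
      exact AddMonoidHom.finsetSum_apply _ _ _
    rw [h1, AddSubmonoidClass.coe_finsetSum]
    exact Finset.sum_congr rfl fun i _ => hσpow i a
  have hfixiff : ∀ a : inv H' C, a ∈ fixσ σ ↔ (a : C) ∈ inv H C := by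
    intro a
    have e0 : a ∈ fixσ σ ↔ σ a = a := by
      show (σ - 1 : AddMonoid.End (inv H' C)) a = 0 ↔ _
      exact sub_eq_zero
    rw [e0]
    constructor
    · intro h g hg
      have hsa : s • (a : C) = a := congrArg Subtype.val h
      have hpow : ∀ i : ℕ, s ^ i • (a : C) = a := by
        intro i
        induction i with
        | zero => simp
        | succ i ih => rw [pow_succ, mul_smul, hsa, ih]
      obtain ⟨i, hi⟩ := g3 g hg
      calc g • (a : C) = s ^ i • (((s ^ i)⁻¹ * g) • (a : C)) := by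
            simp only [smul_smul]; congr 1; group
        _ = a := by rw [a.2 _ hi, hpow]
    · intro h
      exact Subtype.ext (h s hs)
  -- `A^σ = C^H`
  let eF : fixσ σ ≃+ inv H C :=
    { toFun := fun a => ⟨((a : inv H' C) : C), (hfixiff a).1 a.2⟩
      invFun := fun c => ⟨⟨(c : C), fun n hn' => c.2 n (hle hn')⟩, (hfixiff _).2 c.2⟩
      left_inv := fun a => rfl
      right_inv := fun c => rfl
      map_add' := fun a b => rfl }
  obtain ⟨F0, F1, F2, hform⟩ := chevalley p σ hσp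
  -- `Ĥ¹ = 0`
  have hH1 : Nat.card (Hhat1 p σ) = 1 := by
    have : (AddMonoidHom.range (σ - 1 : AddMonoid.End (inv H' C))).addSubgroupOf
        (AddMonoidHom.ker (normσ p σ)) = ⊤ := by
      rw [AddSubgroup.addSubgroupOf_eq_top]
      intro a ha
      have ha' : ∑ i ∈ Finset.range p, s ^ i • (a : C) = 0 := by
        rw [← hnorm]
        exact congrArg Subtype.val (show normσ p σ a = 0 from ha)
      obtain ⟨d, hd, had⟩ := part1 a a.2 ha'
      refine ⟨⟨d, hd⟩, ?_⟩
      apply Subtype.ext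
      exact had.symm
    show AddSubgroup.index _ = 1
    rw [this, AddSubgroup.index_top]
  have e1 : Nat.card (modp p (fixσ σ)) = Nat.card (modp p (inv H C)) :=
    Nat.card_congr (G3_modpCongr p eF).toEquiv
  have e2 : Nat.card (torp p (fixσ σ)) = Nat.card (torp p (inv H C)) :=
    Nat.card_congr (G3_torpCongr p eF)
  have hcard0 : Nat.card (Hhat0 p σ) = p := by
    rw [hH1, e1, e2, hc1, hc2, one_pow, one_mul] at hform
    set t0 := Nat.card (torp p (inv H' C)) with ht0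
    set t1 := Nat.card (torp p (inv H C)) with ht1
    have ht0pos : 0 < t0 := Nat.card_pos
    have ht1pos : 0 < t1 := Nat.card_pos
    have hp1 : p = (p - 1) + 1 := by have := hpp.one_lt; omega
    have h3 : Nat.card (Hhat0 p σ) ^ (p - 1) * (p * t0 * X ^ p * t1 ^ p) =
        p ^ (p - 1) * (p * t0 * X ^ p * t1 ^ p) := by
      calc _ = Nat.card (Hhat0 p σ) ^ (p - 1) * (p * t0 * X ^ p) * t1 ^ p := by ring
        _ = t0 * (p * t1 * X) ^ p := hform
        _ = t0 * (p ^ p * t1 ^ p * X ^ p) := by rw [mul_pow, mul_pow]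
        _ = t0 * (p ^ ((p - 1) + 1) * t1 ^ p * X ^ p) := by rw [← hp1]
        _ = _ := by rw [pow_succ]; ring
    have hpos : 0 < p * t0 * X ^ p * t1 ^ p :=
      Nat.mul_pos (Nat.mul_pos (Nat.mul_pos hpp.pos ht0pos) (pow_pos hX p)) (pow_pos ht1pos p)
    have h4 := Nat.eq_of_mul_eq_mul_right hpos h3
    exact Nat.pow_left_injective (n := p - 1) (by have := hpp.one_lt; omega) h4
  -- a generator
  have hnt : Nontrivial (Hhat0 p σ) := by
    rw [← Finite.one_lt_card_iff_nontrivial, hcard0]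
    exact hpp.one_lt
  obtain ⟨g0, hg0⟩ := exists_ne (0 : Hhat0 p σ)
  obtain ⟨c0, rfl⟩ := QuotientAddGroup.mk_surjective g0
  refine ⟨((c0 : inv H' C) : C), (hfixiff c0).1 c0.2, ?_⟩
  intro c hc
  let c' : fixσ σ := eF.symm ⟨c, hc⟩
  have hmem := mem_zmultiples_of_prime_card hcard0 (g' := (QuotientAddGroup.mk c' : Hhat0 p σ)) hg0
  obtain ⟨k, hk⟩ := AddSubgroup.mem_zmultiples_iff.1 hmem
  have h5 : (QuotientAddGroup.mk (c' - k • c0) : Hhat0 p σ) = 0 := by
    rw [QuotientAddGroup.mk_sub, QuotientAddGroup.mk_zsmul, hk, sub_self]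
  rw [QuotientAddGroup.eq_zero_iff, AddSubgroup.mem_addSubgroupOf] at h5
  obtain ⟨d, hd⟩ := h5
  refine ⟨k, (d : C), d.2, ?_⟩
  have h6 : ((normσ p σ d : inv H' C) : C) = (((c' - k • c0 : fixσ σ) : inv H' C) : C) :=
    congrArg Subtype.val hd
  rw [hnorm d] at h6
  rw [h6]
  show c = k • ((c0 : inv H' C) : C) + (c - k • ((c0 : inv H' C) : C))
  abel

end Fermat.Agent.S55Lib
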