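import Fermat.Agent.S55.L.Layer
import Fermat.Agent.S55.L.FundClass
import Fermat.Agent.S55.L.ClassOrd
import Fermat.Agent.S55.T.Devissage

/-!
# S55 chapter L, leaf (G8): `L^×` is a class module for `Gal(L/K)`, `K` a local field
-/

set_option autoImplicit false
set_option linter.unusedSectionVars false
set_option linter.unusedVariables false

namespace Fermat.Agent.S55Lib

open groupCohomology IntermediateField

section S1

variable (q : ℕ) [Fact q.Prime] (p : ℕ) [Fact p.Prime]

/-- (G8) S55/L/LocalClass.lean : **(B2)**, abstract form (uses `pgroup_devissage` of chapter T). -/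
theorem local_isClassModule {K L : Type} [Field K] [Field L] [Algebra ℚ_[q] K] [Algebra ℚ_[q] L]
    [Algebra K L] [IsScalarTower ℚ_[q] K L] [FiniteDimensional ℚ_[q] L] [IsGalois K L] :
    ∃ u, IsClassModule p (L ≃ₐ[K] L) (Additive Lˣ) u := by
  have : FiniteDimensional K L := FiniteDimensional.right ℚ_[q] K L
  obtain ⟨u, hu, hord⟩ := exists_fund_class q (K := K) (L := L)
  refine ⟨u, isClassModule_of_ord p u hu ?_ (fun H _ k hk => hord H k hk)⟩
  exact pgroup_devissage p (fun H H' hH hle hn hidx s hs hs' =>
    local_layer q p H H' hH hle hn hidx s hs hs')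

end S1

end Fermat.Agent.S55Lib
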