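import Fermat.Agent.S55.L.LocalClass
import Fermat.Agent.S55.L.Transport
import Fermat.Agent.S55.L.InvUnits

/-!
# S55 chapter L, leaf (G9): the local class module inside an algebraic closure
-/

set_option autoImplicit false
set_option linter.unusedSectionVars false
set_option linter.unusedVariables false

namespace Fermat.Agent.S55Lib

open groupCohomology IntermediateField

section S1

variable (q : ℕ) [Fact q.Prime] (p : ℕ) [Fact p.Prime]

/-- `Gal(Ω/k) / Gal(Ω/L) = Gal(L/k)` -/
noncomputable def G9_e {k Ω : Type*} [Field k] [Field Ω] [Algebra k Ω] [Normal k Ω]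
    (L : IntermediateField k Ω) [Normal k L] [L.fixingSubgroup.Normal] :
    (Ω ≃ₐ[k] Ω) ⧸ L.fixingSubgroup ≃* (L ≃ₐ[k] L) :=
  (QuotientGroup.quotientMulEquivOfEq (IntermediateField.restrictNormalHom_ker L).symm).trans
    (QuotientGroup.quotientKerEquivOfSurjective (AlgEquiv.restrictNormalHom L)
      (AlgEquiv.restrictNormalHom_surjective Ω))

lemma G9_e_mk {k Ω : Type*} [Field k] [Field Ω] [Algebra k Ω] [Normal k Ω]
    (L : IntermediateField k Ω) [Normal k L] [L.fixingSubgroup.Normal] (g : Ω ≃ₐ[k] Ω) :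
    G9_e L (g : (Ω ≃ₐ[k] Ω) ⧸ L.fixingSubgroup) = AlgEquiv.restrictNormalHom L g := rfl

/-- `L^× = (Ω^×)^{Gal(Ω/L)}` -/
noncomputable def G9_phi {k Ω : Type*} [Field k] [Field Ω] [Algebra k Ω] [IsGalois k Ω]
    (L : IntermediateField k Ω) :
    Additive Lˣ ≃+ inv L.fixingSubgroup (Additive Ωˣ) where
  toFun y := ⟨Additive.ofMul (Units.map (algebraMap L Ω).toMonoidHom (Additive.toMul y)),
    (G2_mem_inv_iff _ _).2 (by
      rw [InfiniteGalois.fixedField_fixingSubgroup]
      exact (Additive.toMul y : Lˣ).1.2)⟩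
  invFun c := Additive.ofMul (Units.mk0 (⟨((Additive.toMul (c : Additive Ωˣ) : Ωˣ) : Ω), by
      have := (G2_mem_inv_iff _ _).1 c.2
      rwa [InfiniteGalois.fixedField_fixingSubgroup] at this⟩ : L)
    (fun h => Units.ne_zero (Additive.toMul (c : Additive Ωˣ) : Ωˣ) (congrArg Subtype.val h)))
  left_inv y := by
    apply Additive.toMul.injective
    apply Units.ext
    apply Subtype.ext
    rfl
  right_inv c := by
    apply Subtype.ext
    apply Additive.toMul.injective
    apply Units.ext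
    rfl
  map_add' a b := by
    apply Subtype.ext
    apply Additive.toMul.injective
    apply Units.ext
    rfl

lemma G9_compat {k Ω : Type*} [Field k] [Field Ω] [Algebra k Ω] [IsGalois k Ω]
    (L : IntermediateField k Ω) [Normal k L] [L.fixingSubgroup.Normal]
    (g : (Ω ≃ₐ[k] Ω) ⧸ L.fixingSubgroup) (a : Additive Lˣ) :
    G9_phi L (G9_e L g • a) = g • G9_phi L a := by
  induction g using QuotientGroup.induction_on with
  | H g =>
    rw [G9_e_mk]
    apply Subtype.ext
    apply Additive.toMul.injective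
    apply Units.ext
    exact AlgEquiv.restrictNormalHom_apply L g ((Additive.toMul a : Lˣ) : L)

/-- (G9) general form -/
theorem local_isClassModule_of_eq {Ω : Type} [Field Ω] [Algebra ℚ_[q] Ω] [IsGalois ℚ_[q] Ω]
    (L : IntermediateField ℚ_[q] Ω) [FiniteDimensional ℚ_[q] L]
    (W : Subgroup (Ω ≃ₐ[ℚ_[q]] Ω)) [W.Normal] (hW : W = L.fixingSubgroup) :
    ∃ u, IsClassModule p ((Ω ≃ₐ[ℚ_[q]] Ω) ⧸ W) (inv W (Additive Ωˣ)) u := by
  subst hW
  have hG : IsGalois ℚ_[q] L := (InfiniteGalois.normal_iff_isGalois L).1 inferInstance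
  obtain ⟨u, hu⟩ := local_isClassModule q p (K := ℚ_[q]) (L := L)
  exact ⟨_, IsClassModule.transport p (G9_e L) (G9_phi L) (G9_compat L) u hu⟩

/-- (G9) S55/L/LocalClassOm.lean : **(B2)**, the form wanted by chapter P/B. -/
theorem local_isClassModule_Om (L : IntermediateField ℚ_[q] (PadicAlgCl q))
    [FiniteDimensional ℚ_[q] L] [IsGalois ℚ_[q] L] :
    ∃ u, IsClassModule p ((PadicAlgCl q ≃ₐ[ℚ_[q]] PadicAlgCl q) ⧸ L.fixingSubgroup)
      (inv L.fixingSubgroup (Additive (PadicAlgCl q)ˣ)) u := by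
  have : Algebra.IsAlgebraic ℚ_[q] (PadicAlgCl q) := AlgebraicClosure.isAlgebraic _
  have : IsAlgClosure ℚ_[q] (PadicAlgCl q) := ⟨inferInstance, inferInstance⟩
  have : Normal ℚ_[q] (PadicAlgCl q) := IsAlgClosure.normal _ _
  have : IsGalois ℚ_[q] (PadicAlgCl q) := ⟨⟩
  exact local_isClassModule_of_eq q p L _ rfl

end S1

end Fermat.Agent.S55Lib
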