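import Fermat.Agent.S55.L.Defs

/-!
# S55 chapter L, leaf (X1): `(1 + y)^p = 1 + p y + small`
-/

set_option autoImplicit false
set_option linter.unusedSectionVars false
set_option linter.unusedVariables false

namespace Fermat.Agent.S55Lib

variable (q : ℕ) [Fact q.Prime] (p : ℕ) [Fact p.Prime]

/-- (X1) S55/L/PowEst.lean -/
theorem nm_one_add_pow_sub {F : Type*} [Field F] [Algebra ℚ_[q] F] [FiniteDimensional ℚ_[q] F]
    {π y : F} (hπ : nm q π < 1) (hy : nm q y ≤ nm q π * nm q (p : F)) :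
    nm q ((1 + y) ^ p - 1 - p * y) ≤ nm q π * nm q (p : F) * nm q y := by
  have hpp : p.Prime := Fact.out
  obtain ⟨p', rfl⟩ : ∃ p', p = p' + 2 := ⟨p - 2, by have := hpp.two_le; omega⟩
  have hπ0 := nm_nonneg q π
  have hy0 := nm_nonneg q y
  have hp0 := nm_nonneg q ((p' + 2 : ℕ) : F)
  have hp1 : nm q ((p' + 2 : ℕ) : F) ≤ 1 := nm_natCast_le_one q _
  have hyπ : nm q y ≤ nm q π := hy.trans (mul_le_of_le_one_right hπ0 hp1)
  have hy1 : nm q y ≤ 1 := hyπ.trans hπ.le
  have e : (1 + y) ^ (p' + 2) - 1 - ((p' + 2 : ℕ) : F) * y =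
      ∑ k ∈ Finset.range (p' + 1), y ^ (k + 2) * ((p' + 2).choose (k + 2) : F) := by
    rw [add_comm 1 y, add_pow, Finset.sum_range_succ', Finset.sum_range_succ']
    simp only [one_pow, mul_one, pow_zero, Nat.choose_zero_right, Nat.cast_one, zero_add, pow_one,
      Nat.choose_one_right]
    ring
  rw [e]
  apply nm_sum_le q _ _ (by positivity)
  intro k hk
  rw [Finset.mem_range] at hk
  rw [nm_mul, nm_pow]
  have hyk : nm q y ^ k ≤ 1 := pow_le_one₀ hy0 hy1
  rcases Nat.lt_or_ge k p' with hlt | hge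
  · obtain ⟨c, hc⟩ := hpp.dvd_choose_self (k := k + 2) (by omega) (by omega)
    have hch : nm q (((p' + 2).choose (k + 2) : ℕ) : F) ≤ nm q ((p' + 2 : ℕ) : F) := by
      rw [hc, Nat.cast_mul, nm_mul]
      exact mul_le_of_le_one_right hp0 (nm_natCast_le_one q c)
    calc nm q y ^ (k + 2) * nm q (((p' + 2).choose (k + 2) : ℕ) : F)
        = nm q y ^ k * (nm q y * nm q (((p' + 2).choose (k + 2) : ℕ) : F) * nm q y) := by ring
      _ ≤ 1 * (nm q π * nm q ((p' + 2 : ℕ) : F) * nm q y) := by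
          apply mul_le_mul hyk _ (mul_nonneg (mul_nonneg hy0 (nm_nonneg q _)) hy0) zero_le_one
          apply mul_le_mul_of_nonneg_right _ hy0
          exact mul_le_mul hyπ hch (nm_nonneg q _) hπ0
      _ = _ := one_mul _
  · have hk' : k = p' := by omega
    subst hk'
    rw [Nat.choose_self, Nat.cast_one, nm_one, mul_one]
    calc nm q y ^ (k + 2) = nm q y ^ k * (nm q y * nm q y) := by ring
      _ ≤ 1 * (nm q π * nm q ((k + 2 : ℕ) : F) * nm q y) := by
          apply mul_le_mul hyk _ (by positivity) zero_le_one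
          exact mul_le_mul_of_nonneg_right hy hy0
      _ = _ := one_mul _

end Fermat.Agent.S55Lib
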