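import Fermat.Agent.S55.L.ResFinite

/-!
# S55 chapter L, leaf (U1): roots of unity of order prime to `q` are distinct mod `𝔪`
-/

set_option autoImplicit false
set_option linter.unusedSectionVars false
set_option linter.unusedVariables false

namespace Fermat.Agent.S55Lib

variable (q : ℕ) [Fact q.Prime]
variable {F : Type*} [Field F] [Algebra ℚ_[q] F] [FiniteDimensional ℚ_[q] F]

lemma U1_nm_eq_one_of_pow {N : ℕ} (hN : N ≠ 0) {a : F} (ha : a ^ N = 1) : nm q a = 1 := by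
  have h : nm q a ^ N = 1 := by rw [← nm_pow, ha, nm_one]
  exact (pow_eq_one_iff_of_nonneg (nm_nonneg q a) hN).1 h

lemma U1_nm_pow_sub_one_le {t : F} (ht : nm q t = 1) (i : ℕ) :
    nm q (t ^ i - 1) ≤ nm q (t - 1) := by
  rw [← mul_geom_sum t i, nm_mul]
  have : nm q (∑ j ∈ Finset.range i, t ^ j) ≤ 1 :=
    nm_sum_le q _ _ zero_le_one fun j _ => by rw [nm_pow, ht, one_pow]
  exact mul_le_of_le_one_right (nm_nonneg q _) this

lemma U1_eq_one {N : ℕ} (hN : ¬ q ∣ N) {t : F} (ht : t ^ N = 1) (h : nm q (t - 1) < 1) :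
    t = 1 := by
  have hN0 : N ≠ 0 := fun h0 => hN (h0 ▸ dvd_zero q)
  have ht1 : nm q t = 1 := U1_nm_eq_one_of_pow q hN0 ht
  have h1 : (t - 1) * ∑ i ∈ Finset.range N, t ^ i = 0 := by rw [mul_geom_sum, ht, sub_self]
  have h2 : nm q (∑ i ∈ Finset.range N, t ^ i) = 1 := by
    have e : ∑ i ∈ Finset.range N, t ^ i = (N : F) + ∑ i ∈ Finset.range N, (t ^ i - 1) := by
      rw [Finset.sum_sub_distrib]; simp
    have h3 : nm q (∑ i ∈ Finset.range N, (t ^ i - 1)) ≤ nm q (t - 1) :=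
      nm_sum_le q _ _ (nm_nonneg q _) fun i _ => U1_nm_pow_sub_one_le q ht1 i
    rw [e, nm_add_eq_of_lt q (by rw [nm_natCast_eq_one q hN]; exact h3.trans_lt h),
      nm_natCast_eq_one q hN]
  rcases mul_eq_zero.1 h1 with h0 | h0
  · exact sub_eq_zero.1 h0
  · rw [h0, nm_zero] at h2
    exact absurd h2 zero_ne_one

/-- (U1) -/
theorem eq_of_pow_eq_one_of_nm_sub_lt {N : ℕ} (hN : ¬ q ∣ N) {a b : F} (ha : a ^ N = 1)
    (hb : b ^ N = 1) (h : nm q (a - b) < 1) : a = b := by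
  have hN0 : N ≠ 0 := fun h0 => hN (h0 ▸ dvd_zero q)
  have hb1 : nm q b = 1 := U1_nm_eq_one_of_pow q hN0 hb
  have hb0 : b ≠ 0 := by
    intro h0; rw [h0, nm_zero] at hb1; exact zero_ne_one hb1
  have h1 : a / b = 1 := by
    apply U1_eq_one q hN
    · rw [div_pow, ha, hb, div_one]
    · have : a / b - 1 = (a - b) / b := by field_simp
      rw [this, nm_div, hb1, div_one]
      exact h
  exact (div_eq_one_iff_eq hb0).1 h1

/-- (U1) -/
theorem not_dvd_QQ_pow_sub_one (m : ℕ) (hm : 0 < m) : ¬ q ∣ QQ q F ^ m - 1 := by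
  obtain ⟨f, hf, hQ⟩ := exists_QQ_eq q (F := F)
  have hq : q.Prime := Fact.out
  intro h
  have h1 : q ∣ QQ q F ^ m := by
    rw [hQ, ← pow_mul]
    exact dvd_pow_self q (Nat.mul_ne_zero hf.ne' hm.ne')
  have h2 : 1 ≤ QQ q F ^ m := by
    rw [hQ]; exact Nat.one_le_pow _ _ (pow_pos hq.pos f)
  have h3 : q ∣ 1 := by
    have := (Nat.dvd_sub h1 h)
    rwa [Nat.sub_sub_self h2] at this
  exact hq.one_lt.ne' (Nat.dvd_one.1 h3)

end Fermat.Agent.S55Lib
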