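import Fermat.Agent.S55.L.UCore
import Fermat.Agent.S55.L.Chi
import Fermat.Agent.S55.L.Transport

/-!
# S55 chapter L, leaf (G5): Lemma U, the order of the restrictions of the unramified class
-/

set_option autoImplicit false
set_option linter.unusedSectionVars false
set_option linter.unusedVariables false
set_option linter.style.haveILetI false

namespace Fermat.Agent.S55Lib

open groupCohomology IntermediateField

/-- `Gal(M / M^H) ≃ H` -/
noncomputable def G5_equiv {K M : Type*} [Field K] [Field M] [Algebra K M] [FiniteDimensional K M]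
    (H : Subgroup (M ≃ₐ[K] M)) : (M ≃ₐ[fixedField H] M) ≃* H :=
  (IntermediateField.fixingSubgroupEquiv (fixedField H)).symm.trans
    (MulEquiv.subgroupCongr (fixingSubgroup_fixedField H))

lemma G5_equiv_apply {K M : Type*} [Field K] [Field M] [Algebra K M] [FiniteDimensional K M]
    (H : Subgroup (M ≃ₐ[K] M)) (g : M ≃ₐ[fixedField H] M) (y : M) :
    ((G5_equiv H g : H) : M ≃ₐ[K] M) y = g y := rfl

variable (q : ℕ) [Fact q.Prime]

/-- (G5) Lemma U. The order of the restriction of the unramified class of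
degree `n` to a subgroup of index dividing `n`. -/
theorem unram_class_order {K M : Type*} [Field K] [Field M] [Algebra ℚ_[q] K] [Algebra ℚ_[q] M]
    [Algebra K M] [IsScalarTower ℚ_[q] K M] [FiniteDimensional ℚ_[q] K]
    [FiniteDimensional ℚ_[q] M] [IsGalois K M]
    (n : ℕ) [NeZero n] (ζ : M) (hζ : IsPrimitiveRoot ζ (QQ q K ^ n - 1))
    (χ : (M ≃ₐ[K] M) →* Multiplicative (ZMod n))
    (hχ : ∀ σ, σ ζ = ζ ^ (QQ q K ^ (Multiplicative.toAdd (χ σ)).val))
    {π : K} (hπ : IsUnif q π) (π' : Kˣ) (hπ' : (π' : K) = π)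
    (H : Subgroup (M ≃ₐ[K] M)) (t : ℕ) (ht : H.index * t = n) (k : ℤ) :
    IsCoboundary₂ (k • resC H
      (cyc n χ (Additive.ofMul (Units.map (algebraMap K M).toMonoidHom π')))) ↔ (t : ℤ) ∣ k := by
  haveI : FiniteDimensional K M := FiniteDimensional.right ℚ_[q] K M
  haveI := IF_tower q (fixedField H)
  haveI := IF_finite q (fixedField H)
  -- numerical invariants of `F = M^H`
  obtain ⟨f, hf, hQ⟩ := exists_QQ_eq_pow q (IsScalarTower.toAlgHom ℚ_[q] K (fixedField H))
  obtain ⟨πF, hπF⟩ := exists_isUnif q (F := fixedField H)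
  have hnm : nm q (algebraMap K (fixedField H) π) = nm q π := nm_algebraMap q π
  obtain ⟨e, he⟩ := hπF.exists_pow_of_le (x := algebraMap K (fixedField H) π)
    (by rw [Ne, map_eq_zero]; exact hπ.ne_zero) (by rw [hnm]; exact hπ.1.le)
  rw [hnm] at he
  have hef := ef_eq q hπ hπF he hQ
  have he0 : 0 < e := by
    rcases Nat.eq_zero_or_pos e with h0 | h0
    · rw [h0, pow_zero] at he
      exact absurd he hπ.1.ne
    · exact h0
  have hidx : Module.finrank K (fixedField H) = H.index := by
    rw [IntermediateField.finrank_eq_fixingSubgroup_index, fixingSubgroup_fixedField]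
  have hmd : (e * t) * f = n := by
    rw [← ht, ← hidx, ← hef]; ring
  have hζF : IsPrimitiveRoot ζ (QQ q (fixedField H) ^ (e * t) - 1) := by
    rw [hQ, ← pow_mul, mul_comm f, hmd]
    exact hζ
  -- the character on `Gal(M/F)`
  let χF : (M ≃ₐ[fixedField H] M) →* Multiplicative (ZMod n) :=
    (χ.comp H.subtype).comp (G5_equiv H).toMonoidHom
  have hχF : ∀ (σ : M ≃ₐ[fixedField H] M) (i : ℕ), σ ζ = ζ ^ (QQ q (fixedField H) ^ i) →
      Multiplicative.toAdd (χF σ) = ((f * i : ℕ) : ZMod n) := by
    intro σ i hi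
    have h1 := hχ ((G5_equiv H σ : H) : M ≃ₐ[K] M)
    rw [G5_equiv_apply, hi, hQ, ← pow_mul] at h1
    have h2 := QQ_pow_inj_mod q n ζ hζ _ _ h1
    rw [h2, ZMod.natCast_zmod_val]
    rfl
  -- the element
  let xF : (fixedField H)ˣ := (Units.map (algebraMap K (fixedField H)).toMonoidHom π') ^ k
  have hx : (Additive.ofMul (Units.map (algebraMap (fixedField H) M).toMonoidHom xF) :
      Additive Mˣ) = k • Additive.ofMul (Units.map (algebraMap K M).toMonoidHom π') := by
    apply Additive.toMul.injective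
    rw [toMul_zsmul, toMul_ofMul, toMul_ofMul, map_zpow]
    rfl
  have key := unram_cyc_iff q n (e * t) f hmd ζ hζF χF hχF hπF xF
  rw [hx] at key
  have htr := transport_isCoboundary₂ (G5_equiv H) (AddEquiv.refl (Additive Mˣ))
    (fun g a => rfl) (k • resC H
      (cyc n χ (Additive.ofMul (Units.map (algebraMap K M).toMonoidHom π'))))
  rw [← htr]
  have hfun : (fun x : (M ≃ₐ[fixedField H] M) × (M ≃ₐ[fixedField H] M) =>
      (AddEquiv.refl (Additive Mˣ)) ((k • resC H
      (cyc n χ (Additive.ofMul (Units.map (algebraMap K M).toMonoidHom π'))))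
        (G5_equiv H x.1, G5_equiv H x.2))) =
      cyc n χF (k • Additive.ofMul (Units.map (algebraMap K M).toMonoidHom π')) := by
    rw [← zsmul_cyc]
    rfl
  rw [hfun, key]
  have hnx : nm q (xF : fixedField H) = nm q πF ^ ((e : ℤ) * k) := by
    show nm q (((Units.map (algebraMap K (fixedField H)).toMonoidHom π') ^ k :
      (fixedField H)ˣ) : fixedField H) = _
    rw [Units.val_zpow_eq_zpow_val, nm_zpow]
    show nm q (algebraMap K (fixedField H) (π' : K)) ^ k = _
    rw [hπ', hnm, he, zpow_mul, zpow_natCast]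
  rw [hnx]
  constructor
  · rintro ⟨k', hk'⟩
    have h1 := hπF.zpow_inj hk'
    refine ⟨k', ?_⟩
    have he' : (e : ℤ) ≠ 0 := by exact_mod_cast he0.ne'
    apply mul_left_cancel₀ he'
    rw [h1]; push_cast; ring
  · rintro ⟨k', rfl⟩
    exact ⟨k', by congr 1; push_cast; ring⟩

end Fermat.Agent.S55Lib
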