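import Fermat.Agent.S55.L.UnramUnits

/-!
# S55 chapter L, leaf (U8): the norm group of an unramified extension
-/

set_option autoImplicit false
set_option linter.unusedSectionVars false
set_option linter.unusedVariables false
set_option linter.style.haveILetI false

namespace Fermat.Agent.S55Lib

open groupCohomology IntermediateField

section S1

variable (q : ℕ) [Fact q.Prime]
variable {F : Type*} [Field F] [Algebra ℚ_[q] F] [FiniteDimensional ℚ_[q] F]

variable {M : Type*} [Field M] [Algebra ℚ_[q] M] [FiniteDimensional ℚ_[q] M] [Algebra F M]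
  [IsScalarTower ℚ_[q] F M]

/-- (U8) S55/L/UnramNorm.lean : the norm group of `F(ζ)/F`. -/
theorem unram_norm_iff [IsGalois F M] (m : ℕ) (hm : 0 < m) (ζ : M)
    (hζ : IsPrimitiveRoot ζ (QQ q F ^ m - 1)) (σ : M ≃ₐ[F] M) (hσ : σ ζ = ζ ^ QQ q F)
    {π : F} (hπ : IsUnif q π) (x : F) (hx : x ≠ 0) :
    (∃ b : M, b ≠ 0 ∧ (∀ τ : M ≃ₐ[F] M, τ ζ = ζ → τ b = b) ∧
      algebraMap F M x = ∏ i ∈ Finset.range m, (σ ^ i) b) ↔
    ∃ k : ℤ, nm q x = nm q π ^ ((m : ℤ) * k) := by
  constructor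
  · rintro ⟨b, hb0, hb, hxb⟩
    obtain ⟨y, hy⟩ := unram_nm q m hm ζ hζ b hb
    have hy0 : y ≠ 0 := by
      intro h0
      rw [h0, nm_zero, nm_eq_zero] at hy
      exact hb0 hy
    obtain ⟨k, hk⟩ := hπ.exists_zpow hy0
    refine ⟨k, ?_⟩
    rw [← nm_algebraMap q (E := M) x, hxb, nm_prod,
      Finset.prod_congr rfl (fun i _ => nm_algEquiv q (σ ^ i) b), Finset.prod_const,
      Finset.card_range, hy, hk, mul_comm, zpow_mul, zpow_natCast]
  · rintro ⟨k, hk⟩
    have hπ0 : π ≠ 0 := hπ.ne_zero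
    have h1 : nm q (x / π ^ ((m : ℤ) * k)) = 1 := by
      rw [nm_div, nm_zpow, hk, div_self]
      exact zpow_ne_zero _ (fun h => hπ0 ((nm_eq_zero q).1 h))
    obtain ⟨b, hnb, hb, hxb⟩ := unram_units_norm q m hm ζ hζ σ hσ _ h1
    have hb0 : b ≠ 0 := by
      intro h0
      rw [h0, nm_zero] at hnb
      exact zero_ne_one hnb
    refine ⟨algebraMap F M (π ^ k) * b, mul_ne_zero ?_ hb0, fun τ hτ => ?_, ?_⟩
    · rw [Ne, map_eq_zero]
      exact zpow_ne_zero _ hπ0
    · rw [map_mul, τ.commutes, hb τ hτ]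
    · have e : ∀ i : ℕ, (σ ^ i) (algebraMap F M (π ^ k) * b) =
          algebraMap F M (π ^ k) * (σ ^ i) b := by
        intro i
        rw [map_mul, (σ ^ i).commutes]
      rw [Finset.prod_congr rfl (fun i _ => e i), Finset.prod_mul_distrib, Finset.prod_const,
        Finset.card_range, ← hxb, ← map_pow, ← map_mul, ← zpow_natCast, ← zpow_mul,
        mul_comm k, mul_div_cancel₀]
      exact zpow_ne_zero _ hπ0

end S1

end Fermat.Agent.S55Lib
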