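import Fermat.Agent.S55.L.CycCob
import Fermat.Agent.S55.L.H90
import Fermat.Agent.S55.L.Unram
import Fermat.Agent.S55.L.UnramNorm

/-!
# S55 chapter L, leaf (G4): Lemma U over the base `F`
-/

set_option autoImplicit false
set_option linter.unusedSectionVars false
set_option linter.unusedVariables false
set_option linter.style.haveILetI false

namespace Fermat.Agent.S55Lib

open groupCohomology

lemma G4_coe_sum {F M : Type*} [Field F] [Field M] [Algebra F M] {ι : Type*} (s : Finset ι)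
    (g : ι → M ≃ₐ[F] M) (b : Additive Mˣ) :
    ((Additive.toMul (∑ i ∈ s, g i • b) : Mˣ) : M) =
      ∏ i ∈ s, g i ((Additive.toMul b : Mˣ) : M) := by
  rw [toMul_sum, Units.coe_prod]
  rfl

variable (q : ℕ) [Fact q.Prime]

/-- (G4) Lemma U over the base `F`. -/
theorem unram_cyc_iff {F M : Type*} [Field F] [Field M] [Algebra ℚ_[q] F] [Algebra ℚ_[q] M]
    [Algebra F M] [IsScalarTower ℚ_[q] F M] [FiniteDimensional ℚ_[q] F]
    [FiniteDimensional ℚ_[q] M] [IsGalois F M]
    (n : ℕ) [NeZero n] (m d : ℕ) (hmd : m * d = n) (ζ : M)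
    (hζ : IsPrimitiveRoot ζ (QQ q F ^ m - 1))
    (χ : (M ≃ₐ[F] M) →* Multiplicative (ZMod n))
    (hχ : ∀ (σ : M ≃ₐ[F] M) (i : ℕ), σ ζ = ζ ^ (QQ q F ^ i) →
      Multiplicative.toAdd (χ σ) = ((d * i : ℕ) : ZMod n))
    {π : F} (hπ : IsUnif q π) (x : Fˣ) :
    IsCoboundary₂ (cyc n χ (Additive.ofMul (Units.map (algebraMap F M).toMonoidHom x))) ↔
      ∃ k : ℤ, nm q (x : F) = nm q π ^ ((m : ℤ) * k) := by
  haveI : FiniteDimensional F M := FiniteDimensional.right ℚ_[q] F M
  have hm : 0 < m := by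
    rcases Nat.eq_zero_or_pos m with h | h
    · exfalso; rw [h, zero_mul] at hmd; exact NeZero.ne n hmd.symm
    · exact h
  have hd : 0 < d := by
    rcases Nat.eq_zero_or_pos d with h | h
    · exfalso; rw [h, mul_zero] at hmd; exact NeZero.ne n hmd.symm
    · exact h
  have hN := not_dvd_QQ_pow_sub_one q (F := F) m hm
  obtain ⟨σ₀, hσ₀⟩ := unram_exists_frob q m hm ζ hζ
  have hσ : Multiplicative.toAdd (χ σ₀) = (d : ZMod n) := by
    have := hχ σ₀ 1 (by rw [pow_one]; exact hσ₀)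
    rwa [mul_one] at this
  have hgen : ∀ g : M ≃ₐ[F] M, ∃ i : ℕ, χ g = χ σ₀ ^ i := by
    intro g
    obtain ⟨i, hi⟩ := exists_frob_pow q g hN hζ.pow_eq_one
    refine ⟨i, ?_⟩
    apply Multiplicative.toAdd.injective
    rw [hχ g i hi, toAdd_pow, hσ, nsmul_eq_mul, Nat.cast_mul, mul_comm]
  have hker : ∀ τ : M ≃ₐ[F] M, τ ∈ χ.ker ↔ τ ζ = ζ := by
    intro τ
    constructor
    · intro hτ
      obtain ⟨i, hi⟩ := exists_frob_pow q τ hN hζ.pow_eq_one
      have h1 := hχ τ i hi
      have h2 : Multiplicative.toAdd (χ τ) = 0 := by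
        rw [MonoidHom.mem_ker] at hτ
        rw [hτ]; rfl
      rw [h2] at h1
      have h3 : n ∣ d * i := (ZMod.natCast_eq_zero_iff _ _).1 h1.symm
      rw [← hmd, mul_comm m d] at h3
      have h4 : m ∣ i := Nat.dvd_of_mul_dvd_mul_left hd h3
      rw [hi, U3_pow_mod q m ζ hζ, Nat.mod_eq_zero_of_dvd h4, pow_zero, pow_one]
    · intro hτ
      have h1 := hχ τ 0 (by rw [pow_zero, pow_one]; exact hτ)
      rw [mul_zero, Nat.cast_zero] at h1
      rw [MonoidHom.mem_ker]
      exact Multiplicative.toAdd.injective h1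
  have ha : ∀ g : M ≃ₐ[F] M,
      g • (Additive.ofMul (Units.map (algebraMap F M).toMonoidHom x) : Additive Mˣ) =
        Additive.ofMul (Units.map (algebraMap F M).toMonoidHom x) := by
    intro g
    apply Additive.toMul.injective
    apply Units.ext
    exact g.commutes (x : F)
  rw [cyc_isCoboundary₂_iff n χ _ ha (hilbert90_subgroup χ.ker) m d hmd σ₀ hσ hgen,
    ← unram_norm_iff q m hm ζ hζ σ₀ hσ₀ hπ (x : F) x.ne_zero]
  constructor
  · rintro ⟨b, hb, hab⟩
    refine ⟨((Additive.toMul b : Mˣ) : M), Units.ne_zero _, fun τ hτ => ?_, ?_⟩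
    · exact congrArg (fun c : Additive Mˣ => ((Additive.toMul c : Mˣ) : M))
        (hb τ ((hker τ).2 hτ))
    · have := congrArg (fun c : Additive Mˣ => ((Additive.toMul c : Mˣ) : M)) hab
      simp only [G4_coe_sum] at this
      exact this
  · rintro ⟨b, hb0, hb, hab⟩
    refine ⟨Additive.ofMul (Units.mk0 b hb0), fun τ hτ => ?_, ?_⟩
    · apply Additive.toMul.injective
      apply Units.ext
      exact hb τ ((hker τ).1 hτ)
    · apply Additive.toMul.injective
      apply Units.ext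
      rw [G4_coe_sum]
      exact hab

end Fermat.Agent.S55Lib
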