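import Fermat.Agent.S55.L.Unram

/-!
# S55 chapter L, leaf (U4): the norm of an unramified extension is onto on residue fields
-/

set_option autoImplicit false
set_option linter.unusedSectionVars false
set_option linter.unusedVariables false
set_option linter.style.haveILetI false

namespace Fermat.Agent.S55Lib

open groupCohomology IntermediateField

section S1

variable (q : ℕ) [Fact q.Prime]
variable {F : Type*} [Field F] [Algebra ℚ_[q] F] [FiniteDimensional ℚ_[q] F]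

/-- reduction of a primitive root of unity of order prime to `q` -/
lemma U4_red_primitive {N : ℕ} (hN : ¬ q ∣ N) {z : F} (hz : IsPrimitiveRoot z N)
    (hzO : z ∈ OO q F) : IsPrimitiveRoot (red q F ⟨z, hzO⟩) N := by
  rw [IsPrimitiveRoot.iff_def]
  constructor
  · rw [← map_pow]
    have : (⟨z, hzO⟩ : OO q F) ^ N = 1 := Subtype.ext hz.pow_eq_one
    rw [this, map_one]
  · intro l hl
    rw [← map_pow, ← map_one (red q F), red_eq_red] at hl
    apply hz.dvd_of_pow_eq_one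
    apply eq_of_pow_eq_one_of_nm_sub_lt q hN _ (one_pow N) hl
    show (z ^ l) ^ N = 1
    rw [← pow_mul, mul_comm, pow_mul, hz.pow_eq_one, one_pow]

variable {M : Type*} [Field M] [Algebra ℚ_[q] M] [FiniteDimensional ℚ_[q] M] [Algebra F M]
  [IsScalarTower ℚ_[q] F M]

lemma U4_pow_apply (Q : ℕ) (ζ : M) (σ : M ≃ₐ[F] M) (hσ : σ ζ = ζ ^ Q) (t : ℕ) :
    (σ ^ t) ζ = ζ ^ (Q ^ t) := by
  induction t with
  | zero => simp
  | succ t ih =>
    rw [pow_succ', AlgEquiv.mul_apply, ih, map_pow, hσ, ← pow_mul, ← pow_succ']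

lemma U4_prod (Q : ℕ) (ζ : M) (σ : M ≃ₐ[F] M) (hσ : σ ζ = ζ ^ Q) (m j : ℕ) :
    ∏ i ∈ Finset.range m, (σ ^ i) (ζ ^ j) = ζ ^ ((∑ i ∈ Finset.range m, Q ^ i) * j) := by
  rw [pow_mul, ← Finset.prod_pow_eq_pow_sum, ← Finset.prod_pow]
  refine Finset.prod_congr rfl fun i _ => ?_
  rw [map_pow, U4_pow_apply Q ζ σ hσ]

lemma U4_geom (Q m : ℕ) (hQ : 1 ≤ Q) :
    (∑ i ∈ Finset.range m, Q ^ i) * (Q - 1) = Q ^ m - 1 := by
  have := geom_sum_mul_add (Q - 1) m
  rw [Nat.sub_add_cancel hQ] at this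
  omega

/-- (U4) S55/L/UnramStep0.lean : norm is onto on residue fields. -/
theorem unram_step_zero [IsGalois F M] (m : ℕ) (hm : 0 < m) (ζ : M)
    (hζ : IsPrimitiveRoot ζ (QQ q F ^ m - 1)) (σ : M ≃ₐ[F] M) (hσ : σ ζ = ζ ^ QQ q F)
    (x : F) (hx : nm q x = 1) :
    ∃ j : ℕ, nm q (algebraMap F M x - ∏ i ∈ Finset.range m, (σ ^ i) (ζ ^ j)) < 1 := by
  classical
  have hQ2 : 2 ≤ QQ q F := U3_two_le_QQ q
  have hN : ¬ q ∣ QQ q F ^ m - 1 := not_dvd_QQ_pow_sub_one q m hm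
  have hN0 : QQ q F ^ m - 1 ≠ 0 := fun h0 => hN (h0 ▸ dvd_zero q)
  haveI : NeZero (QQ q F ^ m - 1) := ⟨hN0⟩
  have hgeo := U4_geom (QQ q F) m (by omega)
  set G := ∑ i ∈ Finset.range m, QQ q F ^ i with hG
  haveI : Finite (kk q F) := finite_kk q
  letI : Fintype (kk q F) := Fintype.ofFinite _
  have hcard : QQ q F = Fintype.card (kk q F) := Nat.card_eq_fintype_card
  -- `x^(Q-1) ≡ 1`
  have hxO : x ∈ OO q F := hx.le
  have hx1 : nm q (x ^ (QQ q F - 1) - 1) < 1 := by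
    have h0 : red q F ⟨x, hxO⟩ ≠ 0 := by
      rw [Ne, red_eq_zero, not_lt]; exact hx.ge
    have := FiniteField.pow_card_sub_one_eq_one _ h0
    rw [← hcard, ← map_pow, ← map_one (red q F), red_eq_red] at this
    exact this
  set x' : M := algebraMap F M x with hx'
  have hx'n : nm q x' = 1 := by rw [hx', nm_algebraMap, hx]
  have hx'O : x' ∈ OO q M := hx'n.le
  have hx'1 : nm q (x' ^ (QQ q F - 1) - 1) < 1 := by
    have : x' ^ (QQ q F - 1) - 1 = algebraMap F M (x ^ (QQ q F - 1) - 1) := by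
      rw [map_sub, map_pow, map_one]
    rw [this, nm_algebraMap]; exact hx1
  have hζO : ζ ∈ OO q M := (U1_nm_eq_one_of_pow q hN0 hζ.pow_eq_one).le
  have hprim := U4_red_primitive q hN hζ hζO
  set r : kk q M := red q M ⟨x', hx'O⟩ with hr
  have hr1 : r ^ (QQ q F - 1) = 1 := by
    rw [hr, ← map_pow, ← map_one (red q M), red_eq_red]
    exact hx'1
  have hr2 : r ^ (QQ q F ^ m - 1) = 1 := by
    rw [← hgeo, mul_comm, pow_mul, hr1, one_pow]
  obtain ⟨i, -, hi⟩ := hprim.eq_pow_of_pow_eq_one hr2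
  have hdvd : G ∣ i := by
    have h1 : (red q M ⟨ζ, hζO⟩) ^ (i * (QQ q F - 1)) = 1 := by rw [pow_mul, hi, hr1]
    have h2 := hprim.dvd_of_pow_eq_one _ h1
    rw [← hgeo] at h2
    exact Nat.dvd_of_mul_dvd_mul_right (by omega) h2
  obtain ⟨j, rfl⟩ := hdvd
  refine ⟨j, ?_⟩
  rw [U4_prod (QQ q F) ζ σ hσ, ← hG]
  rw [hr, ← map_pow, eq_comm, red_eq_red] at hi
  exact hi

end S1

end Fermat.Agent.S55Lib
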