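import Fermat.Agent.S55.L.UnramStep0
import Fermat.Agent.S55.L.Chi

/-!
# S55 chapter L, leaf (U5): an integer of unit trace in an unramified extension
-/

set_option autoImplicit false
set_option linter.unusedSectionVars false
set_option linter.unusedVariables false
set_option linter.style.haveILetI false

namespace Fermat.Agent.S55Lib

open groupCohomology IntermediateField

section S1

variable (q : ℕ) [Fact q.Prime]
variable {F : Type*} [Field F] [Algebra ℚ_[q] F] [FiniteDimensional ℚ_[q] F]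

variable {M : Type*} [Field M] [Algebra ℚ_[q] M] [FiniteDimensional ℚ_[q] M] [Algebra F M]
  [IsScalarTower ℚ_[q] F M]

/-- (U5) S55/L/UnramTrace.lean : an integer of unit trace. -/
theorem unram_exists_trace_unit (m : ℕ) (hm : 0 < m) (ζ : M)
    (hζ : IsPrimitiveRoot ζ (QQ q F ^ m - 1)) :
    ∃ j : ℕ, nm q (∑ i ∈ Finset.range m, (ζ ^ j) ^ (QQ q F ^ i)) = 1 := by
  classical
  haveI : NeZero m := ⟨hm.ne'⟩
  have hN : ¬ q ∣ QQ q F ^ m - 1 := not_dvd_QQ_pow_sub_one q m hm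
  have hN0 : QQ q F ^ m - 1 ≠ 0 := fun h0 => hN (h0 ▸ dvd_zero q)
  have hζO : ζ ∈ OO q M := (U1_nm_eq_one_of_pow q hN0 hζ.pow_eq_one).le
  set z : kk q M := red q M ⟨ζ, hζO⟩ with hz
  let χ : Fin m → (Multiplicative ℕ →* kk q M) := fun i => powersHom (kk q M) (z ^ (QQ q F ^ (i : ℕ)))
  have hχ : ∀ (i : Fin m) (j : ℕ), χ i (Multiplicative.ofAdd j) = (z ^ (QQ q F ^ (i : ℕ))) ^ j :=
    fun i j => rfl
  have hinj : Function.Injective χ := by
    intro i i' h
    have h1 := DFunLike.congr_fun h (Multiplicative.ofAdd 1)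
    rw [hχ, hχ, pow_one, pow_one, hz, ← map_pow, ← map_pow, red_eq_red] at h1
    have h2 : ζ ^ (QQ q F ^ (i : ℕ)) = ζ ^ (QQ q F ^ (i' : ℕ)) := by
      have h1' : nm q (ζ ^ (QQ q F ^ (i : ℕ)) - ζ ^ (QQ q F ^ (i' : ℕ))) < 1 := h1
      apply eq_of_pow_eq_one_of_nm_sub_lt q hN _ _ h1'
      · rw [← pow_mul, mul_comm, pow_mul, hζ.pow_eq_one, one_pow]
      · rw [← pow_mul, mul_comm, pow_mul, hζ.pow_eq_one, one_pow]
    have h3 := QQ_pow_inj_mod q m ζ hζ _ _ h2
    rw [ZMod.natCast_eq_natCast_iff'] at h3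
    rw [Nat.mod_eq_of_lt i.2, Nat.mod_eq_of_lt i'.2] at h3
    exact Fin.ext h3
  have hli : LinearIndependent (kk q M) (fun i : Fin m => (χ i : Multiplicative ℕ → kk q M)) :=
    LinearIndependent.comp (linearIndependent_monoidHom (Multiplicative ℕ) (kk q M)) χ hinj
  obtain ⟨j, hj⟩ : ∃ j : ℕ, ∑ i : Fin m, (z ^ (QQ q F ^ (i : ℕ))) ^ j ≠ 0 := by
    by_contra hcon
    have hcon' : ∀ j : ℕ, ∑ i : Fin m, (z ^ (QQ q F ^ (i : ℕ))) ^ j = 0 := by
      intro j
      by_contra h0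
      exact hcon ⟨j, h0⟩
    have := Fintype.linearIndependent_iff.1 hli (fun _ => 1) (by
      funext y
      simp only [Finset.sum_apply, Pi.smul_apply, smul_eq_mul, Pi.zero_apply, one_mul]
      exact hcon' (Multiplicative.toAdd y)) ⟨0, hm⟩
    exact one_ne_zero this
  refine ⟨j, ?_⟩
  rw [Fin.sum_univ_eq_sum_range (fun i => (z ^ (QQ q F ^ i)) ^ j) m] at hj
  have hsO : nm q (∑ i ∈ Finset.range m, (ζ ^ j) ^ (QQ q F ^ i)) ≤ 1 := by
    apply nm_sum_le q _ _ zero_le_one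
    intro i _
    rw [nm_pow, nm_pow, U1_nm_eq_one_of_pow q hN0 hζ.pow_eq_one, one_pow, one_pow]
  have hred : red q M ⟨_, hsO⟩ = ∑ i ∈ Finset.range m, (z ^ (QQ q F ^ i)) ^ j := by
    have : (⟨_, hsO⟩ : OO q M) = ∑ i ∈ Finset.range m, ((⟨ζ, hζO⟩ : OO q M) ^ (QQ q F ^ i)) ^ j := by
      apply Subtype.ext
      rw [AddSubmonoidClass.coe_finsetSum]
      show ∑ i ∈ Finset.range m, (ζ ^ j) ^ (QQ q F ^ i) =
        ∑ i ∈ Finset.range m, (ζ ^ (QQ q F ^ i)) ^ j
      refine Finset.sum_congr rfl fun i _ => ?_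
      rw [← pow_mul, ← pow_mul, mul_comm]
    rw [this, map_sum]
    refine Finset.sum_congr rfl fun i _ => ?_
    rw [map_pow, map_pow]
  rw [← hred, Ne, red_eq_zero, not_lt] at hj
  exact le_antisymm hsO hj

end S1

end Fermat.Agent.S55Lib
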